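import Mathlib
import Fermat.Agent.S14x.Asm.Defs
import Fermat.Agent.S14x.Art.H10_Funct

/-!
# S14 / AL-4d (helper10): a prime whose Frobenius fixes `E` has a degree-one prime in `E`

Setting: `K ⊆ E ⊆ Ω` number fields (types), `Ω/K` Galois, `𝔓` a nonzero prime of `𝓞 Ω`,
`g ∈ Gal(Ω/K)` a Frobenius at `𝔓` which fixes `E` pointwise.

* `h10_card_under_eq_of_fixes` : `N_{E/K}(𝔓 ∩ 𝓞_E) = 𝔓 ∩ 𝓞_K` and the residue fields of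
  `𝔓 ∩ 𝓞_E` and `𝔓 ∩ 𝓞_K` have the same cardinality (no unramifiedness hypothesis);
* `h10_relNorm_under_of_fixes`, `h10_relNorm_under_of_mem_fixingSubgroup` (intermediate field
  form);
* `h10_exists_frob` : existence of a pair `(𝔓, g)` above a given prime of `K`;
* `h10_resBC_artin_of_fixes` : consumer form in the vocabulary of `Asm/Defs.lean`:
  `Ψ_{M/E}(𝔓 ∩ 𝓞_E)|_L = Φ_{L/K}(𝔓 ∩ 𝓞_K)`;
* `h10_restrict_eq_artin` : `g|_L = Φ_{L/K}(𝔓 ∩ 𝓞_K)`;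
* `h10_frob_apply_root` : `g ζ = ζ ^ N𝔭` for roots of unity of order prime to `𝔭`.
-/

set_option autoImplicit false
set_option linter.unusedSectionVars false

open NumberField Pointwise

namespace Fermat.Agent.S14x.AL.H10

open Fermat.Agent.S14x.Asm Fermat.Agent.S14x.Art.H10

section Finite

/-- In a finite field in which every element satisfies `a ^ N = a` (`N ≥ 2`), there are at most
`N` elements. -/
theorem h10_card_le_of_forall_pow_eq {F : Type*} [Field F] [Finite F] {N : ℕ} (hN : 1 < N)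
    (h : ∀ a : F, a ^ N = a) : Nat.card F ≤ N := by
  classical
  let _ := Fintype.ofFinite F
  have h1 := Polynomial.card_le_degree_of_subset_roots (R := F)
    (p := (Polynomial.X ^ N - Polynomial.X : Polynomial F)) (Z := Finset.univ) (fun x _ => by
      rw [Polynomial.mem_roots', Polynomial.IsRoot.def]
      refine ⟨?_, ?_⟩
      · intro h0
        have := FiniteField.X_pow_card_sub_X_natDegree_eq F hN
        rw [h0, Polynomial.natDegree_zero] at this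
        omega
      · simp [h x])
  rw [FiniteField.X_pow_card_sub_X_natDegree_eq F hN, Finset.card_univ] at h1
  rwa [Nat.card_eq_fintype_card]

end Finite

section Fix

variable {K E Ω : Type} [Field K] [NumberField K] [Field E] [NumberField E] [Field Ω]
  [NumberField Ω] [Algebra K E] [Algebra E Ω] [Algebra K Ω] [IsScalarTower K E Ω]
  [IsGalois K Ω]

/-- An automorphism fixing `E` fixes the integers of `E`. -/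
theorem h10_smul_algebraMap_of_fixes {g : Gal(Ω/K)}
    (hfix : ∀ x : E, g (algebraMap E Ω x) = algebraMap E Ω x) (x : 𝓞 E) :
    g • (algebraMap (𝓞 E) (𝓞 Ω) x) = algebraMap (𝓞 E) (𝓞 Ω) x := by
  apply RingOfIntegers.ext
  show g ((algebraMap (𝓞 E) (𝓞 Ω) x : 𝓞 Ω) : Ω) = _
  have : ((algebraMap (𝓞 E) (𝓞 Ω) x : 𝓞 Ω) : Ω) = algebraMap E Ω (x : E) := rfl
  rw [this, hfix]

/-- If a Frobenius at `𝔓` fixes `E`, then `x ^ N𝔭 ≡ x` modulo `𝔓 ∩ 𝓞_E` on `𝓞_E`. -/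
theorem h10_pow_sub_mem_under {𝔓 : Ideal (𝓞 Ω)} {g : Gal(Ω/K)}
    (hg : IsArithFrobAt (𝓞 K) g 𝔓)
    (hfix : ∀ x : E, g (algebraMap E Ω x) = algebraMap E Ω x) (x : 𝓞 E) :
    x - x ^ Nat.card (𝓞 K ⧸ 𝔓.under (𝓞 K)) ∈ 𝔓.under (𝓞 E) := by
  rw [Ideal.under_def, Ideal.mem_comap, map_sub, map_pow]
  have h1 := hg (algebraMap (𝓞 E) (𝓞 Ω) x)
  have h2 : (g • (algebraMap (𝓞 E) (𝓞 Ω) x) : 𝓞 Ω) = algebraMap (𝓞 E) (𝓞 Ω) x :=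
    h10_smul_algebraMap_of_fixes hfix x
  change g • (algebraMap (𝓞 E) (𝓞 Ω) x) - _ ∈ 𝔓 at h1
  rwa [h2] at h1

/-- **Residue degree one.**  If a Frobenius at `𝔓` (over `K`) fixes `E`, the prime `𝔓 ∩ 𝓞_E` of
`E` has the same residue field cardinality as `𝔓 ∩ 𝓞_K`. -/
theorem h10_card_under_eq_of_fixes {𝔓 : Ideal (𝓞 Ω)} [h𝔓 : 𝔓.IsPrime] (h0 : 𝔓 ≠ ⊥)
    {g : Gal(Ω/K)} (hg : IsArithFrobAt (𝓞 K) g 𝔓)
    (hfix : ∀ x : E, g (algebraMap E Ω x) = algebraMap E Ω x) :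
    Ideal.relNorm (𝓞 K) (𝔓.under (𝓞 E)) = 𝔓.under (𝓞 K) ∧
    Nat.card (𝓞 E ⧸ 𝔓.under (𝓞 E)) = Nat.card (𝓞 K ⧸ 𝔓.under (𝓞 K)) := by
  set 𝔮 : Ideal (𝓞 E) := 𝔓.under (𝓞 E) with h𝔮
  set 𝔭 : Ideal (𝓞 K) := 𝔓.under (𝓞 K) with h𝔭
  have hq0 : 𝔮 ≠ ⊥ := Ideal.under_ne_bot (𝓞 E) h0
  have hqp : 𝔮.IsPrime := Ideal.IsPrime.under (𝓞 E) 𝔓
  have hqm : 𝔮.IsMaximal := hqp.isMaximal hq0
  have hqK : 𝔮.under (𝓞 K) = 𝔭 := by rw [h𝔮, Ideal.under_under]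
  have hp0 : 𝔭 ≠ ⊥ := Ideal.under_ne_bot (𝓞 K) h0
  have hpp : 𝔭.IsPrime := Ideal.IsPrime.under (𝓞 K) 𝔓
  have hpm : 𝔭.IsMaximal := hpp.isMaximal hp0
  have : 𝔮.LiesOver 𝔭 := ⟨hqK.symm⟩
  -- finiteness and size of the residue fields
  have hfinK : Finite (𝓞 K ⧸ 𝔭) := Ideal.finiteQuotientOfFreeOfNeBot 𝔭 hp0
  have hfinE : Finite (𝓞 E ⧸ 𝔮) := Ideal.finiteQuotientOfFreeOfNeBot 𝔮 hq0
  have hntK : Nontrivial (𝓞 K ⧸ 𝔭) := Ideal.Quotient.nontrivial_iff.mpr hpp.ne_top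
  have hntE : Nontrivial (𝓞 E ⧸ 𝔮) := Ideal.Quotient.nontrivial_iff.mpr hqp.ne_top
  have hN : 1 < Nat.card (𝓞 K ⧸ 𝔭) := Finite.one_lt_card
  have hNE : 1 < Nat.card (𝓞 E ⧸ 𝔮) := Finite.one_lt_card
  -- every element of the residue field of `𝔮` is fixed by `x ↦ x ^ N𝔭`
  let _ : Field (𝓞 E ⧸ 𝔮) := Ideal.Quotient.field 𝔮
  have hpow : ∀ a : 𝓞 E ⧸ 𝔮, a ^ Nat.card (𝓞 K ⧸ 𝔭) = a := by
    intro a
    obtain ⟨x, rfl⟩ := Ideal.Quotient.mk_surjective a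
    rw [← map_pow, eq_comm, Ideal.Quotient.eq]
    exact h10_pow_sub_mem_under hg hfix x
  have hle : Nat.card (𝓞 E ⧸ 𝔮) ≤ Nat.card (𝓞 K ⧸ 𝔭) := h10_card_le_of_forall_pow_eq hN hpow
  -- the relative norm
  obtain ⟨s, hs⟩ := Ideal.exists_relNorm_eq_pow_of_isPrime 𝔮 𝔭
  have hNs : Nat.card (𝓞 E ⧸ 𝔮) = Nat.card (𝓞 K ⧸ 𝔭) ^ s := by
    have h1 := Ideal.absNorm_relNorm (R := 𝓞 K) (S := 𝓞 E) 𝔮
    rw [hs, map_pow] at h1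
    rw [Ideal.absNorm_apply, Ideal.absNorm_apply, Submodule.cardQuot_apply,
      Submodule.cardQuot_apply] at h1
    exact h1.symm
  have hs1 : s = 1 := by
    rcases Nat.lt_trichotomy s 1 with h | h | h
    · have : s = 0 := by omega
      rw [this, pow_zero] at hNs
      omega
    · exact h
    · exfalso
      have h2 : Nat.card (𝓞 K ⧸ 𝔭) ^ 1 < Nat.card (𝓞 K ⧸ 𝔭) ^ s :=
        Nat.pow_lt_pow_right hN h
      rw [pow_one, ← hNs] at h2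
      omega
  rw [hs1, pow_one] at hs hNs
  exact ⟨hs, hNs⟩

/-- **[AL-4d]** If a Frobenius at `𝔓` (over `K`) fixes `E`, then `N_{E/K}(𝔓 ∩ 𝓞_E) = 𝔓 ∩ 𝓞_K`. -/
theorem h10_relNorm_under_of_fixes {𝔓 : Ideal (𝓞 Ω)} [𝔓.IsPrime] (h0 : 𝔓 ≠ ⊥)
    {g : Gal(Ω/K)} (hg : IsArithFrobAt (𝓞 K) g 𝔓)
    (hfix : ∀ x : E, g (algebraMap E Ω x) = algebraMap E Ω x) :
    Ideal.relNorm (𝓞 K) (𝔓.under (𝓞 E)) = 𝔓.under (𝓞 K) :=
  (h10_card_under_eq_of_fixes h0 hg hfix).1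

/-- Existence of a prime of `Ω` above a given nonzero prime of `K`, with a Frobenius. -/
theorem h10_exists_frob (𝔭 : Ideal (𝓞 K)) [𝔭.IsPrime] (hp0 : 𝔭 ≠ ⊥) :
    ∃ (𝔓 : Ideal (𝓞 Ω)) (g : Gal(Ω/K)), 𝔓.IsPrime ∧ 𝔓 ≠ ⊥ ∧ 𝔓.under (𝓞 K) = 𝔭 ∧
      IsArithFrobAt (𝓞 K) g 𝔓 := by
  have hpm : 𝔭.IsMaximal := Ideal.IsPrime.isMaximal inferInstance hp0
  obtain ⟨𝔓, h𝔓m, h𝔓o⟩ := Ideal.exists_maximal_ideal_liesOver_of_isIntegral (S := 𝓞 Ω) 𝔭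
  have h𝔓p : 𝔓.IsPrime := h𝔓m.isPrime
  have h𝔓0 : 𝔓 ≠ ⊥ := by
    intro h
    have := h𝔓o.over
    rw [h, Ideal.under_bot] at this
    exact hp0 this
  have hfin : Finite (𝓞 Ω ⧸ 𝔓) := Ideal.finiteQuotientOfFreeOfNeBot 𝔓 h𝔓0
  obtain ⟨g, hg⟩ := IsArithFrobAt.exists_of_isInvariant (𝓞 K) Gal(Ω/K) 𝔓
  exact ⟨𝔓, g, h𝔓p, h𝔓0, h𝔓o.over.symm, hg⟩

end Fix

section Intermediate

variable {K Ω : Type} [Field K] [NumberField K] [Field Ω] [NumberField Ω] [Algebra K Ω]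
  [IsGalois K Ω]

/-- **[AL-4d], intermediate field form.** -/
theorem h10_relNorm_under_of_mem_fixingSubgroup (E : IntermediateField K Ω)
    {𝔓 : Ideal (𝓞 Ω)} [𝔓.IsPrime] (h0 : 𝔓 ≠ ⊥) {g : Gal(Ω/K)}
    (hg : IsArithFrobAt (𝓞 K) g 𝔓) (hfix : g ∈ E.fixingSubgroup) :
    Ideal.relNorm (𝓞 K) (𝔓.under (𝓞 ↥E)) = 𝔓.under (𝓞 K) ∧
    Nat.card (𝓞 ↥E ⧸ 𝔓.under (𝓞 ↥E)) = Nat.card (𝓞 K ⧸ 𝔓.under (𝓞 K)) :=
  h10_card_under_eq_of_fixes h0 hg fun x =>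
    (IntermediateField.mem_fixingSubgroup_iff E g).mp hfix x x.2

end Intermediate

section Consumer

variable {K L E M Ω : Type} [Field K] [NumberField K] [Field L] [NumberField L] [Field E]
  [NumberField E] [Field M] [NumberField M] [Field Ω] [NumberField Ω]
  [Algebra K L] [Algebra K E] [Algebra L M] [Algebra E M] [Algebra K M] [IsScalarTower K L M]
  [IsScalarTower K E M] [IsGalois K L] [IsGalois E M]
  [Algebra E Ω] [Algebra K Ω] [IsScalarTower K E Ω] [IsGalois K Ω]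

/-- **Consumer form for the descent.**  `𝔭` a prime of `K`, `g` a Frobenius at a prime `𝔓 ∣ 𝔭` of
the auxiliary Galois extension `Ω/K`, fixing `E`; `𝔮 := 𝔓 ∩ 𝓞_E` prime to `𝔫`.  Then the
Frobenius `Ψ 𝔮` of `M/E` restricts on `L` to the Frobenius `Φ 𝔭` of `L/K`. -/
theorem h10_resBC_artin_of_fixes {𝔪 : Ideal (𝓞 K)} {𝔫 : Ideal (𝓞 E)}
    (h𝔫 : 𝔫 ≤ 𝔪.map (algebraMap (𝓞 K) (𝓞 E))) (hKL : UnramifiedOutside K L 𝔪)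
    {Φ : Ideal (𝓞 K) → Gal(L/K)} {Ψ : Ideal (𝓞 E) → Gal(M/E)}
    (hΦ : IsArtinMap K L 𝔪 Φ) (hΨ : IsArtinMap E M 𝔫 Ψ)
    {𝔓 : Ideal (𝓞 Ω)} [𝔓.IsPrime] (h0 : 𝔓 ≠ ⊥) {g : Gal(Ω/K)}
    (hg : IsArithFrobAt (𝓞 K) g 𝔓)
    (hfix : ∀ x : E, g (algebraMap E Ω x) = algebraMap E Ω x)
    (hc : 𝔓.under (𝓞 E) ⊔ 𝔫 = ⊤) :
    𝔓.under (𝓞 K) ⊔ 𝔪 = ⊤ ∧ h10_resBC K L (Ψ (𝔓.under (𝓞 E))) = Φ (𝔓.under (𝓞 K)) := by
  have hq0 : 𝔓.under (𝓞 E) ≠ ⊥ := Ideal.under_ne_bot (𝓞 E) h0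
  have h := h10_funct h𝔫 hKL hΦ hΨ hq0 hc
  rwa [h10_relNorm_under_of_fixes h0 hg hfix] at h

end Consumer

section Aux

variable {K L Ω : Type} [Field K] [NumberField K] [Field L] [NumberField L] [Field Ω]
  [NumberField Ω] [Algebra K L] [Algebra L Ω] [Algebra K Ω] [IsScalarTower K L Ω]
  [IsGalois K L] [IsGalois K Ω]

/-- The restriction to `L` of a Frobenius of `Ω/K` at `𝔓 ∣ 𝔭` is the value at `𝔭` of any Artin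
map of `L/K` (for `𝔭` prime to the modulus). -/
theorem h10_restrict_eq_artin {𝔪 : Ideal (𝓞 K)} (hKL : UnramifiedOutside K L 𝔪)
    {Φ : Ideal (𝓞 K) → Gal(L/K)} (hΦ : IsArtinMap K L 𝔪 Φ)
    {𝔓 : Ideal (𝓞 Ω)} [𝔓.IsPrime] (h0 : 𝔓 ≠ ⊥) {g : Gal(Ω/K)}
    (hg : IsArithFrobAt (𝓞 K) g 𝔓) (hc : 𝔓.under (𝓞 K) ⊔ 𝔪 = ⊤) :
    AlgEquiv.restrictNormalHom L g = Φ (𝔓.under (𝓞 K)) := by
  set 𝔭 : Ideal (𝓞 K) := 𝔓.under (𝓞 K) with h𝔭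
  have hp0 : 𝔭 ≠ ⊥ := Ideal.under_ne_bot (𝓞 K) h0
  have hpp : 𝔭.IsPrime := Ideal.IsPrime.under (𝓞 K) 𝔓
  set Q : Ideal (𝓞 L) := 𝔓.under (𝓞 L) with hQ
  have hQK : Q.under (𝓞 K) = 𝔭 := by rw [hQ, Ideal.under_under]
  have hQp : Q.IsPrime := Ideal.IsPrime.under (𝓞 L) 𝔓
  have hQ0 : Q ≠ ⊥ := Ideal.under_ne_bot (𝓞 L) h0
  have h1 : IsArithFrobAt (𝓞 K) (AlgEquiv.restrictNormalHom L g) Q :=
    h10_isArithFrobAt_restrict hg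
  have h2 : IsArithFrobAt (𝓞 K) (Φ 𝔭) Q :=
    h10_isArithFrobAt_of_isFrobAt (hΦ.frob 𝔭 hpp hp0 hc) hQK
  have hQt : TrivInertia K Q := hKL 𝔭 hpp hp0 hc Q hQp hQ0 (le_of_eq hQK.symm)
  apply h10_eq_of_forall_sub_mem hQt
  intro x
  have e : (AlgEquiv.restrictNormalHom L g) • x - (Φ 𝔭) • x =
      ((AlgEquiv.restrictNormalHom L g) • x - x ^ Nat.card (𝓞 K ⧸ Q.under (𝓞 K))) -
        ((Φ 𝔭) • x - x ^ Nat.card (𝓞 K ⧸ Q.under (𝓞 K))) := by ring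
  rw [e]
  exact Q.sub_mem (h1 x) (h2 x)

end Aux

section Root

variable {K Ω : Type} [Field K] [NumberField K] [Field Ω] [NumberField Ω] [Algebra K Ω]
  [IsGalois K Ω]

/-- **Cyclotomic formula, field level**: a Frobenius at `𝔓` raises the `m`-th roots of unity of
`Ω` to the power `N𝔭`, if `𝔭 ∤ m`. -/
theorem h10_frob_apply_root {𝔓 : Ideal (𝓞 Ω)} [𝔓.IsPrime] {g : Gal(Ω/K)}
    (hg : IsArithFrobAt (𝓞 K) g 𝔓) {ζ : Ω} {m : ℕ} (hζ : ζ ^ m = 1)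
    (hm : (m : 𝓞 K) ∉ 𝔓.under (𝓞 K)) :
    g ζ = ζ ^ Nat.card (𝓞 K ⧸ 𝔓.under (𝓞 K)) := by
  have hm0 : m ≠ 0 := by
    rintro rfl
    exact hm (by simp)
  have hint : IsIntegral ℤ ζ :=
    ⟨Polynomial.X ^ m - 1, Polynomial.monic_X_pow_sub_C 1 hm0, by simp [hζ]⟩
  set z : 𝓞 Ω := ⟨ζ, hint⟩ with hz
  have hzc : ((z : 𝓞 Ω) : Ω) = ζ := rfl
  have hz1 : z ^ m = 1 := by
    apply RingOfIntegers.ext
    have : ((z ^ m : 𝓞 Ω) : Ω) = (z : Ω) ^ m := map_pow (algebraMap (𝓞 Ω) Ω) z m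
    rw [this, hzc, hζ]
    exact (map_one (algebraMap (𝓞 Ω) Ω)).symm
  have hm' : (m : 𝓞 Ω) ∉ 𝔓 := by
    intro h
    apply hm
    rw [Ideal.under_def, Ideal.mem_comap]
    simpa using h
  have h : g • z = z ^ Nat.card (𝓞 K ⧸ 𝔓.under (𝓞 K)) :=
    AlgHom.IsArithFrobAt.apply_of_pow_eq_one hg hz1 hm'
  have h2 : ((g • z : 𝓞 Ω) : Ω) = ((z ^ Nat.card (𝓞 K ⧸ 𝔓.under (𝓞 K)) : 𝓞 Ω) : Ω) := by
    rw [h]
  have h3 : ((z ^ Nat.card (𝓞 K ⧸ 𝔓.under (𝓞 K)) : 𝓞 Ω) : Ω) =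
      (z : Ω) ^ Nat.card (𝓞 K ⧸ 𝔓.under (𝓞 K)) := map_pow (algebraMap (𝓞 Ω) Ω) z _
  rw [h3, hzc] at h2
  exact h2

end Root

end Fermat.Agent.S14x.AL.H10
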