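import Fermat.Agent.S14x.AL.H20_Defs

/-!
# S14 / package AL (helper20): the leaves of Artin's lemma (leaf F = `StPair`)

Common setting: `K ⊆ L ⊆ F`, `F = L(ζ_m)` (`[IsCyclotomicExtension {m} L F]`), all number fields
as TYPES.  Subfields of `F` are `IntermediateField K F`; for a subgroup `H ≤ Gal(F/K)` the field
`E_H` is the TYPE `↥(IntermediateField.fixedField H)` with its CANONICAL Mathlib instances
(`Field`, `NumberField`, `Algebra K ·`, `Algebra · F`), so that ideals of `𝓞 E_H` can be named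
in statements without any custom instance.

* `ActsBy K F n g t`   : `g ζ = ζ ^ t` for all `n`-th roots of unity `ζ` of `F`.
* `RestrictsTo K L F g ρ` : `g|_L = ρ`.
* `StProd p`    [F2]  : `Gal(F/K) = Gal(L/K) × (ℤ/m)ˣ` (existence of `g` with prescribed
                        restriction and cyclotomic character), `F/K` abelian Galois.
* `StOneField`  [F3]  : for `H ≤ Gal(F/K)` with `H ∩ ker χ_{m'} ≤ Gal(F/L)` and `H|_L = Gal(L/K)`,
                        every norm to `K` of an ideal of `E_H` prime to `m'` has `DescData`.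
* `StDegOne`    [F5a] : if a Frobenius of `P` lies in `H`, then `P ∩ E_H` has norm `P ∩ K`.
* `StDegOne'`   [F5b] : a prime of `E` with residue field of prime order `q` induces on every
                        subfield `E' ≤ E` a prime with the same norm to `K`.
* `StRef`       [F6]  : for `H` with `H|_L = Gal(L/K)`, `StDgen` gives a degree-one prime `𝔮` of
                        `E_H`, prime to `m`, whose norm to `K` has a nontrivial Artin symbol.
* `StFrobF`     [F4]  : a Frobenius `g ∈ Gal(F/K)` at a prime `P` of `F` above `𝔭` restricts to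
                        `Φ 𝔭` on `L` and acts on the `m`-th roots of unity by `N𝔭`.
-/

set_option autoImplicit false

open NumberField

noncomputable section

namespace Fermat.Agent.S14x.AL

open Fermat.Agent.S14x.Asm

/-- `g ζ = ζ ^ t` for all `n`-th roots of unity `ζ` of `F`. -/
def ActsBy (K F : Type) [Field K] [Field F] [Algebra K F] (n : ℕ) (g : F ≃ₐ[K] F) (t : ℕ) :
    Prop :=
  ∀ ζ : F, ζ ^ n = 1 → g ζ = ζ ^ t

/-- `g|_L = ρ`. -/
def RestrictsTo (K L F : Type) [Field K] [Field L] [Field F] [Algebra K L] [Algebra L F]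
    [Algebra K F] (g : F ≃ₐ[K] F) (ρ : L ≃ₐ[K] L) : Prop :=
  ∀ x : L, g (algebraMap L F x) = algebraMap L F (ρ x)

/-- **[F2]** the Galois group of `F = L(ζ_m)` over `K = ℚ(ζ_p)`, `gcd(m, p) = 1`. -/
def StProd (p : ℕ) : Prop :=
  3 ≤ p → p.Prime →
  ∀ (K L F : Type) [Field K] [NumberField K] [Field L] [NumberField L] [Field F]
    [NumberField F] [Algebra K L] [Algebra L F] [Algebra K F] [IsScalarTower K L F]
    [IsCyclotomicExtension {p} ℚ K] [IsGalois K L] [IsGalois ℚ L]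
    (m : ℕ) [NeZero m] [IsCyclotomicExtension {m} L F],
    Module.finrank K L = p → Twist p K L → m.Coprime p →
    IsGalois K F ∧ (∀ σ τ : F ≃ₐ[K] F, σ * τ = τ * σ) ∧
    ∀ (ρ : L ≃ₐ[K] L) (t : ℕ), t.Coprime m →
      ∃ g : F ≃ₐ[K] F, RestrictsTo K L F g ρ ∧ ActsBy K F m g t

/-- **[F3]** the one-field leaf. -/
def StOneField : Prop :=
  ∀ (p : ℕ) (K L F : Type) [Field K] [NumberField K] [Field L] [NumberField L] [Field F]
    [NumberField F] [Algebra K L] [Algebra L F] [Algebra K F] [IsScalarTower K L F]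
    [IsGalois K L] [IsGalois K F] (m m' : ℕ) [NeZero m] [IsCyclotomicExtension {m} L F],
    p.Prime → Module.finrank K L = p → UnramifiedEverywhere K L → IsTotallyComplex K →
    m' ∣ m → (∀ σ τ : F ≃ₐ[K] F, σ * τ = τ * σ) →
    ∀ H : Subgroup (F ≃ₐ[K] F),
      (∀ g ∈ H, ActsBy K F m' g 1 → RestrictsTo K L F g 1) →
      (∀ ρ : L ≃ₐ[K] L, ∃ g ∈ H, RestrictsTo K L F g ρ) →
      ∀ 𝔄 : Ideal (𝓞 ↥(IntermediateField.fixedField H)), 𝔄 ≠ ⊥ →
        𝔄 ⊔ Ideal.span {(m' : 𝓞 ↥(IntermediateField.fixedField H))} = ⊤ →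
        DescData K L p (Ideal.relNorm (𝓞 K) 𝔄)

/-- **[F5a]** a prime whose Frobenius lies in `H` has a degree-one prime below it in `E_H`. -/
def StDegOne : Prop :=
  ∀ (K F : Type) [Field K] [NumberField K] [Field F] [NumberField F] [Algebra K F]
    [IsGalois K F] (H : Subgroup (F ≃ₐ[K] F)) (P : Ideal (𝓞 F)), P.IsPrime → P ≠ ⊥ →
    ∀ g : F ≃ₐ[K] F, g ∈ H → IsArithFrobAt (𝓞 K) g P →
      Ideal.relNorm (𝓞 K) (P.under (𝓞 ↥(IntermediateField.fixedField H))) = P.under (𝓞 K)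

/-- **[F5b]** a prime of `E` of absolute degree one induces on every subfield `E' ≤ E` a prime
with the same norm to `K`. -/
def StDegOne' : Prop :=
  ∀ (K F : Type) [Field K] [NumberField K] [Field F] [NumberField F] [Algebra K F]
    (E' E : IntermediateField K F), E' ≤ E →
    ∀ 𝔮 : Ideal (𝓞 ↥E), 𝔮.IsPrime → (Nat.card (𝓞 ↥E ⧸ 𝔮)).Prime →
      ∃ 𝔮' : Ideal (𝓞 ↥E'), 𝔮'.IsPrime ∧ 𝔮' ≠ ⊥ ∧
        Ideal.relNorm (𝓞 K) 𝔮' = Ideal.relNorm (𝓞 K) 𝔮 ∧
        ∀ n : ℕ, (n : 𝓞 ↥E) ∉ 𝔮 → (n : 𝓞 ↥E') ∉ 𝔮'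

/-- **[F6]** the reference ideal: for `H` with `H|_L = Gal(L/K)` there is a prime `𝔮` of `E_H`
of absolute degree one, prime to `m`, whose norm to `K` has a nontrivial Artin symbol. -/
def StRef : Prop :=
  StDgen →
  ∀ (p : ℕ) (K L F : Type) [Field K] [NumberField K] [Field L] [NumberField L] [Field F]
    [NumberField F] [Algebra K L] [Algebra L F] [Algebra K F] [IsScalarTower K L F]
    [IsGalois K L] [IsGalois K F] (m : ℕ) [NeZero m],
    p.Prime → Module.finrank K L = p → UnramifiedEverywhere K L →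
    (∀ σ τ : F ≃ₐ[K] F, σ * τ = τ * σ) →
    ∀ H : Subgroup (F ≃ₐ[K] F),
      (∀ ρ : L ≃ₐ[K] L, ∃ g ∈ H, RestrictsTo K L F g ρ) →
      ∀ Φ : Ideal (𝓞 K) → (L ≃ₐ[K] L), IsArtinMap K L ⊤ Φ →
        ∃ 𝔮 : Ideal (𝓞 ↥(IntermediateField.fixedField H)), 𝔮.IsPrime ∧
          (Nat.card (𝓞 ↥(IntermediateField.fixedField H) ⧸ 𝔮)).Prime ∧
          (m : 𝓞 ↥(IntermediateField.fixedField H)) ∉ 𝔮 ∧
          Φ (Ideal.relNorm (𝓞 K) 𝔮) ≠ 1

/-- **[F4]** Frobenius elements of `F/K`: for a prime `𝔭` of `K` not dividing `m` there are a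
prime `P` of `F` above `𝔭` and `g ∈ Gal(F/K)`, a Frobenius at `P`, with `g|_L = Φ 𝔭` and
`g ζ = ζ ^ N𝔭` on the `m`-th roots of unity. -/
def StFrobF : Prop :=
  ∀ (K L F : Type) [Field K] [NumberField K] [Field L] [NumberField L] [Field F]
    [NumberField F] [Algebra K L] [Algebra L F] [Algebra K F] [IsScalarTower K L F]
    [IsGalois K L] [IsGalois K F] (m : ℕ) [NeZero m],
    UnramifiedEverywhere K L →
    ∀ Φ : Ideal (𝓞 K) → (L ≃ₐ[K] L), IsArtinMap K L ⊤ Φ →
      ∀ 𝔭 : Ideal (𝓞 K), 𝔭.IsPrime → 𝔭 ≠ ⊥ → (m : 𝓞 K) ∉ 𝔭 →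
        ∃ (P : Ideal (𝓞 F)) (g : F ≃ₐ[K] F), P.IsPrime ∧ P ≠ ⊥ ∧ P.under (𝓞 K) = 𝔭 ∧
          IsArithFrobAt (𝓞 K) g P ∧ RestrictsTo K L F g (Φ 𝔭) ∧
          ActsBy K F m g (Nat.card (𝓞 K ⧸ 𝔭))

/-- **[F7]** assembly of Artin's lemma for pairs from the leaves. -/
def StPairAsm (p : ℕ) [Fact p.Prime] : Prop :=
  StProd p → StOneField → StDegOne → StDegOne' → StRef → StFrobF → StPair p

end Fermat.Agent.S14x.AL
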