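import Mathlib
import Fermat.Agent.S14x.AL.H20_Leaves
import Fermat.Agent.S14x.AL.H10_FrobFix

/-!
# S14 / AL (helper10): the leaves `StDegOne` [F5a] and `StFrobF` [F4], verbatim

* `stDegOne : StDegOne` : if a Frobenius at `P` lies in `H`, then `P ∩ 𝓞 E_H` has norm `P ∩ 𝓞 K`
  (`E_H` the fixed field of `H`).
* `stFrobF : StFrobF`   : for a prime `𝔭 ∤ m` of `K` there are a prime `P ∣ 𝔭` of `F` and a Frobenius
  `g ∈ Gal(F/K)` at `P` with `g|_L = Φ 𝔭` and `g ζ = ζ ^ N𝔭` on the `m`-th roots of unity.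
-/

set_option autoImplicit false
set_option linter.unusedSectionVars false

open NumberField Pointwise

namespace Fermat.Agent.S14x.AL.H10

open Fermat.Agent.S14x.Asm Fermat.Agent.S14x.Art.H10 Fermat.Agent.S14x.AL

/-- `UnramifiedEverywhere` is `UnramifiedOutside ⊤`. -/
theorem h10_unramifiedOutside_top {K L : Type} [Field K] [NumberField K] [Field L]
    [NumberField L] [Algebra K L] (hU : UnramifiedEverywhere K L) :
    UnramifiedOutside K L ⊤ :=
  fun _ _ _ _ P hP hP0 _ => hU P hP hP0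

/-- **[F5a]**, verbatim. -/
theorem stDegOne : StDegOne := by
  intro K F _ _ _ _ _ _ H P hP hP0 g hgH hg
  have := hP
  refine (h10_relNorm_under_of_mem_fixingSubgroup (IntermediateField.fixedField H) hP0 hg ?_).1
  rw [IntermediateField.mem_fixingSubgroup_iff]
  intro x hx
  exact hx ⟨g, hgH⟩

/-- **[F4]**, verbatim. -/
theorem stFrobF : StFrobF := by
  intro K L F _ _ _ _ _ _ _ _ _ _ _ _ m _ hU Φ hΦ 𝔭 h𝔭 hp0 hm
  have := h𝔭
  obtain ⟨P, g, hP, hP0, hPK, hg⟩ := h10_exists_frob (Ω := F) 𝔭 hp0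
  have := hP
  refine ⟨P, g, hP, hP0, hPK, hg, ?_, ?_⟩
  · intro x
    have h1 : AlgEquiv.restrictNormalHom L g = Φ (P.under (𝓞 K)) :=
      h10_restrict_eq_artin (h10_unramifiedOutside_top hU) hΦ hP0 hg (sup_top_eq _)
    rw [hPK] at h1
    rw [← h1]
    exact (AlgEquiv.restrictNormal_commutes g L x).symm
  · intro ζ hζ
    have h2 := h10_frob_apply_root hg hζ (by rw [hPK]; exact hm)
    rw [hPK] at h2
    exact h2

end Fermat.Agent.S14x.AL.H10
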