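import Fermat.Agent.S14x.AL.H14_PairOfData

/-!
# S14 / package AL, leaf [F7] (helper14): `StPairAsm p` from the half [F7a]

`stPairAsm_of : StPairDataAsm p → StPairAsm p` (composition of [F7a] with the landed [F7b]), and
`stPair_of`: `StPair p` from `StPairData p` and the four ideal-theoretic leaves.
-/

set_option autoImplicit false

namespace Fermat.Agent.S14x.AL.H14

open Fermat.Agent.S14x.Asm Fermat.Agent.S14x.AL

/-- **[F7]** from **[F7a]**. -/
theorem stPairAsm_of (p : ℕ) [Fact p.Prime] (h : StPairDataAsm p) : StPairAsm p :=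
  fun hProd hOne hDeg hDeg' hRef hFrobF =>
    stPairOfData p (h hProd hFrobF) hOne hDeg hDeg' hRef

/-- `StPair p` from all the leaves and **[F7a]**. -/
theorem stPair_of (p : ℕ) [Fact p.Prime] (h : StPairDataAsm p) (hProd : StProd p)
    (hOne : StOneField) (hDeg : StDegOne) (hDeg' : StDegOne') (hRef : StRef)
    (hFrobF : StFrobF) : StPair p :=
  stPairAsm_of p h hProd hOne hDeg hDeg' hRef hFrobF

end Fermat.Agent.S14x.AL.H14
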