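import Fermat.Agent.S14x.AL.H20_Leaves

/-!
# S14 / AL, leaf [F5b] : `StDegOne'`

A prime `𝔮` of `E` whose residue field has prime order induces on every subfield `E' ≤ E`
the prime `𝔮' = 𝔮 ∩ 𝓞 E'`, which has the same residue field, hence the same norm to `K`
(namely the prime `𝔮 ∩ 𝓞 K`).
-/

set_option autoImplicit false

open NumberField

noncomputable section

namespace Fermat.Agent.S14x.AL.H16

/-- A prime ideal whose residue ring has prime order has relative norm the prime below it. -/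
theorem relNorm_eq_under_of_prime_card (K E : Type*) [Field K] [NumberField K] [Field E]
    [NumberField E] [Algebra K E] (𝔮 : Ideal (𝓞 E)) [𝔮.IsPrime]
    (h : (Nat.card (𝓞 E ⧸ 𝔮)).Prime) :
    Ideal.relNorm (𝓞 K) 𝔮 = 𝔮.under (𝓞 K) := by
  obtain ⟨s, hs⟩ := Ideal.exists_relNorm_eq_pow_of_isPrime 𝔮 (𝔮.under (𝓞 K))
  have h1 : Ideal.absNorm (Ideal.relNorm (𝓞 K) 𝔮) = Ideal.absNorm 𝔮 :=
    Ideal.absNorm_relNorm (𝓞 K) (𝓞 E) 𝔮
  have h2 : Ideal.absNorm 𝔮 = Nat.card (𝓞 E ⧸ 𝔮) := by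
    rw [Ideal.absNorm_apply, Submodule.cardQuot_apply]
  rw [hs, map_pow, h2] at h1
  have hs1 : s = 1 := by
    rw [← h1] at h
    exact Nat.Prime.eq_one_of_pow h
  rw [hs, hs1, pow_one]

/-- The ring homomorphism `𝓞 E' → 𝓞 E` for intermediate fields `E' ≤ E`. -/
def incl {K F : Type*} [Field K] [Field F] [Algebra K F] {E' E : IntermediateField K F}
    (h : E' ≤ E) : 𝓞 ↥E' →+* 𝓞 ↥E :=
  RingOfIntegers.mapRingHom (IntermediateField.inclusion h).toRingHom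

theorem incl_comp_algebraMap {K F : Type*} [Field K] [Field F] [Algebra K F]
    {E' E : IntermediateField K F} (h : E' ≤ E) :
    (incl h).comp (algebraMap (𝓞 K) (𝓞 ↥E')) = algebraMap (𝓞 K) (𝓞 ↥E) := by
  ext x
  rfl

/-- **[F5b]** -/
theorem stDegOne' : StDegOne' := by
  intro K F _ _ _ _ _ E' E hle 𝔮 h𝔮 hq
  have := h𝔮
  set ι : 𝓞 ↥E' →+* 𝓞 ↥E := incl hle with hι
  set 𝔮' : Ideal (𝓞 ↥E') := 𝔮.comap ι with h𝔮'
  have h𝔮'p : 𝔮'.IsPrime := Ideal.comap_isPrime ι 𝔮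
  -- the residue ring of `𝔮'` embeds into that of `𝔮`
  have hinj : Function.Injective (Ideal.quotientMap 𝔮 ι (le_refl _) : 𝓞 ↥E' ⧸ 𝔮' →+* 𝓞 ↥E ⧸ 𝔮) :=
    Ideal.quotientMap_injective
  have hdvd : Nat.card (𝓞 ↥E' ⧸ 𝔮') ∣ Nat.card (𝓞 ↥E ⧸ 𝔮) :=
    AddSubgroup.card_dvd_of_injective
      (Ideal.quotientMap 𝔮 ι (le_refl _) : 𝓞 ↥E' ⧸ 𝔮' →+* 𝓞 ↥E ⧸ 𝔮).toAddMonoidHom hinj
  have hne1 : Nat.card (𝓞 ↥E' ⧸ 𝔮') ≠ 1 := by
    intro h1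
    have : Nontrivial (𝓞 ↥E' ⧸ 𝔮') := Ideal.Quotient.nontrivial_iff.mpr h𝔮'p.ne_top
    have hfin : Finite (𝓞 ↥E' ⧸ 𝔮') := Nat.finite_of_card_ne_zero (by omega)
    have := Finite.one_lt_card (α := 𝓞 ↥E' ⧸ 𝔮')
    omega
  have hcard : Nat.card (𝓞 ↥E' ⧸ 𝔮') = Nat.card (𝓞 ↥E ⧸ 𝔮) :=
    ((Nat.dvd_prime hq).mp hdvd).resolve_left hne1
  have hq' : (Nat.card (𝓞 ↥E' ⧸ 𝔮')).Prime := hcard ▸ hq
  refine ⟨𝔮', h𝔮'p, ?_, ?_, ?_⟩
  · intro hbot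
    have h2 : Ideal.absNorm 𝔮' = Nat.card (𝓞 ↥E' ⧸ 𝔮') := by
      rw [Ideal.absNorm_apply, Submodule.cardQuot_apply]
    rw [hbot, Ideal.absNorm_bot] at h2
    rw [hbot, ← h2] at hq'
    exact Nat.not_prime_zero hq'
  · rw [relNorm_eq_under_of_prime_card K ↥E' 𝔮' hq', relNorm_eq_under_of_prime_card K ↥E 𝔮 hq]
    rw [Ideal.under_def, Ideal.under_def, h𝔮', Ideal.comap_comap, incl_comp_algebraMap]
  · intro n hn hn'
    apply hn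
    have : ι (n : 𝓞 ↥E') ∈ 𝔮 := hn'
    rwa [map_natCast] at this

end Fermat.Agent.S14x.AL.H16

example : Fermat.Agent.S14x.AL.StDegOne' := Fermat.Agent.S14x.AL.H16.stDegOne'
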