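import Fermat.Agent.S14x.AL.H20_Leaves

/-!
# S14 / package AL, leaf [F7] (helper14): the interface between the two halves of the assembly

`StPairAsm p` (assembly of Artin's lemma for pairs of primes from the leaves) is cut in two:

* **[F7a]** `StPairData p` from `StProd p` and `StFrobF`: the construction of the modulus `m`, the
  field `F = L(ζ_m)`, the Frobenius elements `g_i` of the two primes and the subgroups `H_i` of
  `Gal(F/K)`, with the hypotheses (i), (ii) of `StOneField` for `H₁`, `H₂` and (ii) for `H₁ ⊓ H₂`;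
* **[F7b]** `StPair p` from `StPairData p` and the leaves `StOneField`, `StDegOne`, `StDegOne'`,
  `StRef`.

Only definitions in this file.
-/

set_option autoImplicit false

open NumberField

noncomputable section

namespace Fermat.Agent.S14x.AL

open Fermat.Agent.S14x.Asm

/-- The data attached to ONE prime `𝔭` of `K` inside `F`: a prime `P` of `F` above `𝔭`, a
Frobenius `g` at `P` lying in the subgroup `H`, `m ∉ 𝔭`, and the two hypotheses of `StOneField`
on `H` (with `m' = m`). -/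
def PrimeData (K L F : Type) [Field K] [NumberField K] [Field L] [NumberField L] [Field F]
    [NumberField F] [Algebra K L] [Algebra L F] [Algebra K F] [IsGalois K F] (m : ℕ)
    (𝔭 : Ideal (𝓞 K)) (H : Subgroup (F ≃ₐ[K] F)) : Prop :=
  (m : 𝓞 K) ∉ 𝔭 ∧
  (∀ g ∈ H, ActsBy K F m g 1 → RestrictsTo K L F g 1) ∧
  (∀ ρ : L ≃ₐ[K] L, ∃ g ∈ H, RestrictsTo K L F g ρ) ∧
  ∃ (P : Ideal (𝓞 F)) (g : F ≃ₐ[K] F), P.IsPrime ∧ P ≠ ⊥ ∧ P.under (𝓞 K) = 𝔭 ∧ g ∈ H ∧
    IsArithFrobAt (𝓞 K) g P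

/-- **[F7a]** the field-theoretic construction of Artin's lemma for a pair of primes. -/
def StPairData (p : ℕ) [Fact p.Prime] : Prop :=
  3 ≤ p → ∀ (K L : Type) [Field K] [NumberField K] [Field L] [NumberField L] [Algebra K L]
    [IsCyclotomicExtension {p} ℚ K] [IsGalois K L] [IsGalois ℚ L],
    Module.finrank K L = p →
    UnramifiedEverywhere K L →
    Twist p K L →
    ∀ Φ : Ideal (𝓞 K) → (L ≃ₐ[K] L), IsArtinMap K L ⊤ Φ →
      ∀ 𝔭₁ 𝔭₂ : Ideal (𝓞 K), 𝔭₁.IsPrime → 𝔭₁ ≠ ⊥ → 𝔭₂.IsPrime → 𝔭₂ ≠ ⊥ →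
        ∃ (F : Type) (_ : Field F) (_ : NumberField F) (_ : Algebra L F) (_ : Algebra K F)
          (_ : IsScalarTower K L F) (_ : IsGalois K F) (m : ℕ) (_ : NeZero m)
          (_ : IsCyclotomicExtension {m} L F),
          (∀ σ τ : F ≃ₐ[K] F, σ * τ = τ * σ) ∧
          ∃ H₁ H₂ : Subgroup (F ≃ₐ[K] F),
            PrimeData K L F m 𝔭₁ H₁ ∧ PrimeData K L F m 𝔭₂ H₂ ∧
            ∀ ρ : L ≃ₐ[K] L, ∃ g ∈ H₁ ⊓ H₂, RestrictsTo K L F g ρ

/-- **[F7a]** as a leaf: `StProd p → StFrobF → StPairData p`. -/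
def StPairDataAsm (p : ℕ) [Fact p.Prime] : Prop := StProd p → StFrobF → StPairData p

/-- **[F7b]** as a leaf: the ideal-theoretic half of the assembly. -/
def StPairOfData (p : ℕ) [Fact p.Prime] : Prop :=
  StPairData p → StOneField → StDegOne → StDegOne' → StRef → StPair p

end Fermat.Agent.S14x.AL
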