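import Mathlib

/-!
# S14, package AL, leaf [AL-1]: primes at which `a` has prescribed `p`-power order (helper8)

Lang, *Algebraic Number Theory*, X §2, Lemma 1 (in the prime-power case needed for a cyclic
extension of prime degree `p`).

* `exists_prime_orderOf_eq_prime_pow` : for `2 ≤ a`, `p` prime and `2 ≤ r` there is a prime
  `l ≠ p` such that `a` has multiplicative order exactly `p ^ r` modulo `l`.
* `exists_primes_orderOf` : arbitrarily large primes `l₁ ≠ l₂` with orders `p ^ r`, `p ^ (r+1)`.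
* `exists_independent_units` : in `(ZMod (l₁ * l₂))ˣ` the class `u` of `a` and the class `τ`
  (`τ ≡ a mod l₁`, `τ ≡ 1 mod l₂`) satisfy `u ^ x * τ ^ y = 1 → p ∣ x ∧ p ∣ y`.

Mathlib only.
-/

set_option autoImplicit false
set_option linter.style.haveILetI false

namespace Fermat.Agent.S14x.AL.H8

open Finset

/-! ### The value `T = 1 + b + ⋯ + b^(p-1)` of the `p`-th cyclotomic polynomial -/

/-- `(b - 1) * (1 + b + ⋯ + b^(p-1)) = b^p - 1` in `ℕ`, in additive form. -/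
lemma h8_geom_mul (b p : ℕ) (hb : 1 ≤ b) :
    (b - 1) * (∑ i ∈ range p, b ^ i) + 1 = b ^ p := by
  have h' : ((b : ℤ) - 1) * ∑ i ∈ range p, (b : ℤ) ^ i = (b : ℤ) ^ p - 1 := by
    have := mul_geom_sum (b : ℤ) p
    linarith
  have hcast : (((b - 1) * (∑ i ∈ range p, b ^ i) + 1 : ℕ) : ℤ) = ((b ^ p : ℕ) : ℤ) := by
    push_cast [Nat.cast_sub hb]
    linarith
  exact_mod_cast hcast

/-- `p < 1 + b + ⋯ + b^(p-1)` for `2 ≤ b`, `2 ≤ p`. -/
lemma h8_lt_geom (b p : ℕ) (hb : 2 ≤ b) (hp : 2 ≤ p) : p < ∑ i ∈ range p, b ^ i := by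
  have h1 : ∑ i ∈ range p, 1 < ∑ i ∈ range p, b ^ i := by
    apply Finset.sum_lt_sum
    · intro i _
      exact Nat.one_le_pow _ _ (by omega)
    · refine ⟨1, Finset.mem_range.mpr (by omega), ?_⟩
      simp only [pow_one]
      omega
  simpa using h1

/-- If `p ∣ T = ∑_{i<p} b^i` then `p ∣ b - 1`. -/
lemma h8_dvd_sub_one {b p : ℕ} (hp : p.Prime) (hb : 1 ≤ b)
    (h : p ∣ ∑ i ∈ range p, b ^ i) : p ∣ b - 1 := by
  haveI : Fact p.Prime := ⟨hp⟩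
  have h1 : ((b : ZMod p)) ^ p = 1 := by
    have h2 := h8_geom_mul b p hb
    have h3 : ((∑ i ∈ range p, b ^ i : ℕ) : ZMod p) = 0 :=
      (ZMod.natCast_eq_zero_iff _ _).mpr h
    have h4 : (((b - 1) * (∑ i ∈ range p, b ^ i) + 1 : ℕ) : ZMod p) = ((b ^ p : ℕ) : ZMod p) := by
      rw [h2]
    rw [Nat.cast_add, Nat.cast_mul, h3, mul_zero, zero_add, Nat.cast_one, Nat.cast_pow] at h4
    exact h4.symm
  rw [ZMod.pow_card] at h1
  have h5 : ((b - 1 : ℕ) : ZMod p) = 0 := by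
    rw [Nat.cast_sub hb, h1]
    simp
  exact (ZMod.natCast_eq_zero_iff _ _).mp h5

/-- For an odd prime `p`, `p ^ 2 ∤ ∑_{i<p} b^i` (`2 ≤ b`). -/
lemma h8_not_sq_dvd_odd {b p : ℕ} (hp : p.Prime) (hodd : Odd p) (hb : 2 ≤ b) :
    ¬ p ^ 2 ∣ ∑ i ∈ range p, b ^ i := by
  haveI : Fact p.Prime := ⟨hp⟩
  intro h
  have hpT : p ∣ ∑ i ∈ range p, b ^ i := dvd_trans (dvd_pow_self p two_ne_zero) h
  have hpb : p ∣ b - 1 := h8_dvd_sub_one hp (by omega) hpT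
  have hpb' : ¬ p ∣ b := by
    intro hb'
    have : p ∣ b - (b - 1) := Nat.dvd_sub hb' hpb
    have h1 : b - (b - 1) = 1 := by omega
    rw [h1] at this
    exact hp.one_lt.ne' (Nat.dvd_one.mp this)
  have hlte := padicValNat.pow_sub_pow (p := p) hodd (x := b) (y := 1) (by omega)
    hpb hpb' (n := p) hp.ne_zero
  rw [one_pow, padicValNat_self] at hlte
  have hT0 : (∑ i ∈ range p, b ^ i) ≠ 0 := by
    have := h8_lt_geom b p hb hp.two_le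
    omega
  have hb0 : b - 1 ≠ 0 := by omega
  have hmul : b ^ p - 1 = (b - 1) * ∑ i ∈ range p, b ^ i := by
    have := h8_geom_mul b p (by omega)
    omega
  rw [hmul, padicValNat.mul hb0 hT0] at hlte
  have hv : padicValNat p (∑ i ∈ range p, b ^ i) = 1 := by omega
  have h2 : 2 ≤ padicValNat p (∑ i ∈ range p, b ^ i) :=
    (padicValNat_dvd_iff_le hT0).mp h
  omega

/-- `4 ∤ c^2 + 1`. -/
lemma h8_not_four_dvd (c : ℕ) : ¬ 4 ∣ c ^ 2 + 1 := by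
  intro h
  have h1 : ((c ^ 2 + 1 : ℕ) : ZMod 4) = 0 := (ZMod.natCast_eq_zero_iff _ _).mpr h
  have h2 : ∀ x : ZMod 4, x ^ 2 + 1 ≠ 0 := by decide
  apply h2 (c : ZMod 4)
  simpa using h1

/-- Key step: `p^2 ∤ T` for `T = ∑_{i<p} b^i`, `b = a^(p^(s+1))`. -/
lemma h8_not_sq_dvd {a p : ℕ} (hp : p.Prime) (ha : 2 ≤ a) (s : ℕ) :
    ¬ p ^ 2 ∣ ∑ i ∈ range p, (a ^ p ^ (s + 1)) ^ i := by
  have hb : 2 ≤ a ^ p ^ (s + 1) := by
    calc 2 ≤ a := ha
      _ = a ^ 1 := (pow_one a).symm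
      _ ≤ a ^ p ^ (s + 1) := Nat.pow_le_pow_right (by omega) (Nat.one_le_pow _ _ hp.pos)
  rcases hp.eq_two_or_odd' with rfl | hodd
  · have : ∑ i ∈ range 2, (a ^ 2 ^ (s + 1)) ^ i = (a ^ 2 ^ s) ^ 2 + 1 := by
      rw [Finset.sum_range_succ, Finset.sum_range_one, pow_zero, pow_one, pow_succ 2 s,
        pow_mul]
      ring
    rw [this]
    exact h8_not_four_dvd _
  · exact h8_not_sq_dvd_odd hp hodd hb

/-- A natural number `T > p` with `p^2 ∤ T` has a prime factor `≠ p`. -/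
lemma h8_exists_prime_ne {T p : ℕ} (hp : p.Prime) (hT : p < T) (hsq : ¬ p ^ 2 ∣ T) :
    ∃ l : ℕ, l.Prime ∧ l ≠ p ∧ l ∣ T := by
  by_contra hcon
  have hall : ∀ {d : ℕ}, d.Prime → d ∣ T → d = p := by
    intro d hd hdT
    by_contra hne
    exact hcon ⟨d, hd, hne, hdT⟩
  have hT0 : T ≠ 0 := by omega
  have hpow := Nat.eq_prime_pow_of_unique_prime_dvd hT0 hall
  set k := T.primeFactorsList.length with hk
  have hk2 : 2 ≤ k := by
    by_contra hlt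
    have hk1 : k ≤ 1 := by omega
    have : T ≤ p := by
      rw [hpow]
      calc p ^ k ≤ p ^ 1 := Nat.pow_le_pow_right hp.pos hk1
        _ = p := pow_one p
    omega
  apply hsq
  rw [hpow]
  exact pow_dvd_pow p hk2

/-- **Lang X §2 Lemma 1** (prime-power case): for `2 ≤ a`, `p` prime, `2 ≤ r` there is a prime
`l ≠ p` such that `a` has order exactly `p ^ r` modulo `l`. -/
theorem exists_prime_orderOf_eq_prime_pow (a p r : ℕ) (ha : 2 ≤ a) (hp : p.Prime)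
    (hr : 2 ≤ r) :
    ∃ l : ℕ, l.Prime ∧ l ≠ p ∧ orderOf ((a : ZMod l)) = p ^ r := by
  obtain ⟨s, rfl⟩ : ∃ s, r = s + 2 := ⟨r - 2, by omega⟩
  set b : ℕ := a ^ p ^ (s + 1) with hb
  have hb2 : 2 ≤ b := by
    calc 2 ≤ a := ha
      _ = a ^ 1 := (pow_one a).symm
      _ ≤ a ^ p ^ (s + 1) := Nat.pow_le_pow_right (by omega) (Nat.one_le_pow _ _ hp.pos)
  have hsq : ¬ p ^ 2 ∣ ∑ i ∈ range p, b ^ i := h8_not_sq_dvd hp ha s
  have hlt : p < ∑ i ∈ range p, b ^ i := h8_lt_geom b p hb2 hp.two_le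
  obtain ⟨l, hl, hlp, hlT⟩ := h8_exists_prime_ne hp hlt hsq
  refine ⟨l, hl, hlp, ?_⟩
  haveI : Fact l.Prime := ⟨hl⟩
  haveI : Fact p.Prime := ⟨hp⟩
  have hT0 : ((∑ i ∈ range p, b ^ i : ℕ) : ZMod l) = 0 := (ZMod.natCast_eq_zero_iff _ _).mpr hlT
  have hbcast : ((b : ℕ) : ZMod l) = (a : ZMod l) ^ p ^ (s + 1) := by
    rw [hb, Nat.cast_pow]
  apply orderOf_eq_prime_pow
  · -- `a ^ p^(s+1) ≠ 1` modulo `l`
    intro h1
    have hb1 : ((b : ℕ) : ZMod l) = 1 := by rw [hbcast, h1]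
    have : ((∑ i ∈ range p, b ^ i : ℕ) : ZMod l) = (p : ZMod l) := by
      rw [Nat.cast_sum]
      simp only [Nat.cast_pow, hb1, one_pow, Finset.sum_const, Finset.card_range, nsmul_eq_mul,
        mul_one]
    rw [this] at hT0
    have hdvd : l ∣ p := (ZMod.natCast_eq_zero_iff _ _).mp hT0
    exact hlp ((Nat.prime_dvd_prime_iff_eq hl hp).mp hdvd)
  · -- `a ^ p^(s+2) = 1` modulo `l`
    have h2 := h8_geom_mul b p (by omega)
    have h4 : (((b - 1) * (∑ i ∈ range p, b ^ i) + 1 : ℕ) : ZMod l) = ((b ^ p : ℕ) : ZMod l) := by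
      rw [h2]
    rw [Nat.cast_add, Nat.cast_mul, hT0, mul_zero, zero_add, Nat.cast_one, Nat.cast_pow,
      hbcast, ← pow_mul, ← pow_succ] at h4
    exact h4.symm

/-- If `a` has order `n ≠ 0` modulo the prime `l` then `n < l`. -/
lemma h8_lt_of_orderOf {a l n : ℕ} (hl : l.Prime) (hn : n ≠ 0)
    (h : orderOf ((a : ZMod l)) = n) : n < l := by
  haveI : Fact l.Prime := ⟨hl⟩
  have ha0 : (a : ZMod l) ≠ 0 := by
    intro h0
    rw [h0] at h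
    have : orderOf (0 : ZMod l) = 0 := by
      rw [orderOf_eq_zero_iff']
      intro n hn
      simp [hn.ne']
    omega
  have hdvd : n ∣ l - 1 := h ▸ ZMod.orderOf_dvd_card_sub_one ha0
  have hl1 : 0 < l - 1 := by have := hl.two_le; omega
  have := Nat.le_of_dvd hl1 hdvd
  omega

/-- **[AL-1]** arbitrarily large primes `l₁ ≠ l₂` at which `a` has orders `p^r`, `p^(r+1)`. -/
theorem exists_primes_orderOf (a p B : ℕ) (ha : 2 ≤ a) (hp : p.Prime) :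
    ∃ (r : ℕ) (l₁ l₂ : ℕ), 1 ≤ r ∧ l₁.Prime ∧ l₂.Prime ∧ B < l₁ ∧ B < l₂ ∧ l₁ ≠ l₂ ∧
      orderOf ((a : ZMod l₁)) = p ^ r ∧ orderOf ((a : ZMod l₂)) = p ^ (r + 1) := by
  obtain ⟨l₁, hl₁, -, ho₁⟩ := exists_prime_orderOf_eq_prime_pow a p (B + 2) ha hp (by omega)
  obtain ⟨l₂, hl₂, -, ho₂⟩ := exists_prime_orderOf_eq_prime_pow a p (B + 2 + 1) ha hp (by omega)
  have hB : ∀ k, B + 2 ≤ k → B < p ^ k := by
    intro k hk
    calc B < B + 2 := by omega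
      _ ≤ k := hk
      _ < 2 ^ k := Nat.lt_two_pow_self
      _ ≤ p ^ k := Nat.pow_le_pow_left hp.two_le k
  have hpk : ∀ k, p ^ k ≠ 0 := fun k => pow_ne_zero k hp.ne_zero
  refine ⟨B + 2, l₁, l₂, by omega, hl₁, hl₂, ?_, ?_, ?_, ho₁, ho₂⟩
  · exact lt_trans (hB _ le_rfl) (h8_lt_of_orderOf hl₁ (hpk _) ho₁)
  · exact lt_trans (hB _ (by omega)) (h8_lt_of_orderOf hl₂ (hpk _) ho₂)
  · rintro rfl
    rw [ho₁] at ho₂
    have := Nat.pow_right_injective hp.two_le ho₂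
    omega

/-! ### Independence in `(ZMod (l₁ * l₂))ˣ` -/

/-- `a` is prime to `l` when it has nonzero order modulo the prime `l`. -/
lemma h8_coprime_of_orderOf {a l n : ℕ} (hl : l.Prime) (hn : n ≠ 0)
    (h : orderOf ((a : ZMod l)) = n) : Nat.Coprime a l := by
  haveI : Fact l.Prime := ⟨hl⟩
  have ha0 : (a : ZMod l) ≠ 0 := by
    intro h0
    rw [h0] at h
    have : orderOf (0 : ZMod l) = 0 := by
      rw [orderOf_eq_zero_iff']
      intro n hn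
      simp [hn.ne']
    omega
  have hnd : ¬ l ∣ a := fun hd => ha0 ((ZMod.natCast_eq_zero_iff _ _).mpr hd)
  exact ((Nat.Prime.coprime_iff_not_dvd hl).mpr hnd).symm

/-- The image of `unitOfCoprime t` under `unitsMap`. -/
lemma h8_unitsMap_unitOfCoprime {m n t : ℕ} (hnm : n ∣ m) (htm : Nat.Coprime t m)
    (htn : Nat.Coprime t n) :
    ZMod.unitsMap hnm (ZMod.unitOfCoprime t htm) = ZMod.unitOfCoprime t htn := by
  apply Units.ext
  rw [ZMod.unitsMap_val, ZMod.coe_unitOfCoprime, ZMod.coe_unitOfCoprime]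
  exact ZMod.cast_natCast hnm t

/-- **[AL-1], consequence**: if `a` has order `p^r` modulo `l₁` and `p^(r+1)` modulo `l₂`
(`r ≥ 1`, `l₁ ≠ l₂` primes), then in `(ZMod (l₁ * l₂))ˣ` the class `u` of `a` and the class `τ`
of a natural number `t ≡ a mod l₁`, `t ≡ 1 mod l₂` are independent modulo `p`:
`u ^ x * τ ^ y = 1 → p ∣ x ∧ p ∣ y`. -/
theorem independent_of_orderOf {a p r l₁ l₂ : ℕ} (hp : p.Prime) (hr : 1 ≤ r)
    (hl₁ : l₁.Prime) (hl₂ : l₂.Prime) (hne : l₁ ≠ l₂)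
    (h₁ : orderOf ((a : ZMod l₁)) = p ^ r) (h₂ : orderOf ((a : ZMod l₂)) = p ^ (r + 1)) :
    ∃ (hcop : Nat.Coprime a (l₁ * l₂)) (t : ℕ) (htcop : Nat.Coprime t (l₁ * l₂)),
      t ≡ a [MOD l₁] ∧ t ≡ 1 [MOD l₂] ∧
      ∀ x y : ℤ, (ZMod.unitOfCoprime a hcop) ^ x * (ZMod.unitOfCoprime t htcop) ^ y = 1 →
        (p : ℤ) ∣ x ∧ (p : ℤ) ∣ y := by
  have hpk : ∀ k, p ^ k ≠ 0 := fun k => pow_ne_zero k hp.ne_zero
  have hc₁ : Nat.Coprime a l₁ := h8_coprime_of_orderOf hl₁ (hpk _) h₁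
  have hc₂ : Nat.Coprime a l₂ := h8_coprime_of_orderOf hl₂ (hpk _) h₂
  have hcop : Nat.Coprime a (l₁ * l₂) := Nat.Coprime.mul_right hc₁ hc₂
  have hl₁₂ : Nat.Coprime l₁ l₂ := (Nat.coprime_primes hl₁ hl₂).mpr hne
  obtain ⟨t, ht₁, ht₂⟩ := Nat.chineseRemainder hl₁₂ a 1
  have htc₁ : Nat.Coprime t l₁ := by
    have := ht₁.gcd_eq
    rw [Nat.Coprime, this]
    exact hc₁
  have htc₂ : Nat.Coprime t l₂ := by
    have := ht₂.gcd_eq
    rw [Nat.Coprime, this]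
    exact Nat.gcd_one_left _
  have htcop : Nat.Coprime t (l₁ * l₂) := Nat.Coprime.mul_right htc₁ htc₂
  refine ⟨hcop, t, htcop, ht₁, ht₂, ?_⟩
  intro x y hxy
  -- reduce modulo `l₁`
  have hd₁ : l₁ ∣ l₁ * l₂ := dvd_mul_right l₁ l₂
  have hd₂ : l₂ ∣ l₁ * l₂ := dvd_mul_left l₂ l₁
  have e₁ := congrArg (ZMod.unitsMap hd₁) hxy
  have e₂ := congrArg (ZMod.unitsMap hd₂) hxy
  rw [map_mul, map_zpow, map_zpow, map_one, h8_unitsMap_unitOfCoprime hd₁ hcop hc₁,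
    h8_unitsMap_unitOfCoprime hd₁ htcop htc₁] at e₁
  rw [map_mul, map_zpow, map_zpow, map_one, h8_unitsMap_unitOfCoprime hd₂ hcop hc₂,
    h8_unitsMap_unitOfCoprime hd₂ htcop htc₂] at e₂
  -- `t = a` in `(ZMod l₁)ˣ`, `t = 1` in `(ZMod l₂)ˣ`
  have hta : ZMod.unitOfCoprime t htc₁ = ZMod.unitOfCoprime a hc₁ := by
    apply Units.ext
    rw [ZMod.coe_unitOfCoprime, ZMod.coe_unitOfCoprime]
    exact (ZMod.natCast_eq_natCast_iff _ _ _).mpr ht₁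
  have ht1 : ZMod.unitOfCoprime t htc₂ = 1 := by
    apply Units.ext
    rw [ZMod.coe_unitOfCoprime, Units.val_one]
    have := (ZMod.natCast_eq_natCast_iff _ _ _).mpr ht₂
    simpa using this
  rw [hta, ← zpow_add] at e₁
  rw [ht1, one_zpow, mul_one] at e₂
  have ho₁ : orderOf (ZMod.unitOfCoprime a hc₁) = p ^ r := by
    rw [← orderOf_units, ZMod.coe_unitOfCoprime, h₁]
  have ho₂ : orderOf (ZMod.unitOfCoprime a hc₂) = p ^ (r + 1) := by
    rw [← orderOf_units, ZMod.coe_unitOfCoprime, h₂]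
  have hx' : ((p ^ (r + 1) : ℕ) : ℤ) ∣ x := by
    rw [← ho₂]
    exact orderOf_dvd_iff_zpow_eq_one.mpr e₂
  have hxy' : ((p ^ r : ℕ) : ℤ) ∣ x + y := by
    rw [← ho₁]
    exact orderOf_dvd_iff_zpow_eq_one.mpr e₁
  have hpx : (p : ℤ) ∣ x := by
    refine dvd_trans ?_ hx'
    exact_mod_cast dvd_pow_self p (Nat.succ_ne_zero r)
  have hpxy : (p : ℤ) ∣ x + y := by
    refine dvd_trans ?_ hxy'
    exact_mod_cast dvd_pow_self p (by omega : r ≠ 0)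
  exact ⟨hpx, (dvd_add_right hpx).mp hpxy⟩

/-- **[AL-1], packaged**: for `2 ≤ a`, `p` prime and any bound `B` there are primes
`l₁ ≠ l₂ > B` and `t` prime to `l₁ l₂`, `t ≡ a mod l₁`, `t ≡ 1 mod l₂`, such that the classes
`u` of `a` and `τ` of `t` in `(ZMod (l₁ * l₂))ˣ` satisfy `u ^ x * τ ^ y = 1 → p ∣ x ∧ p ∣ y`. -/
theorem exists_independent_units (a p B : ℕ) (ha : 2 ≤ a) (hp : p.Prime) :
    ∃ (l₁ l₂ : ℕ) (hcop : Nat.Coprime a (l₁ * l₂)) (t : ℕ) (htcop : Nat.Coprime t (l₁ * l₂)),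
      l₁.Prime ∧ l₂.Prime ∧ B < l₁ ∧ B < l₂ ∧ l₁ ≠ l₂ ∧
      t ≡ a [MOD l₁] ∧ t ≡ 1 [MOD l₂] ∧
      ∀ x y : ℤ, (ZMod.unitOfCoprime a hcop) ^ x * (ZMod.unitOfCoprime t htcop) ^ y = 1 →
        (p : ℤ) ∣ x ∧ (p : ℤ) ∣ y := by
  obtain ⟨r, l₁, l₂, hr, hl₁, hl₂, hB₁, hB₂, hne, h₁, h₂⟩ := exists_primes_orderOf a p B ha hp
  obtain ⟨hcop, t, htcop, ht₁, ht₂, hind⟩ := independent_of_orderOf hp hr hl₁ hl₂ hne h₁ h₂
  exact ⟨l₁, l₂, hcop, t, htcop, hl₁, hl₂, hB₁, hB₂, hne, ht₁, ht₂, hind⟩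

/-- The same with the modulus `m = l₁ l₂` and the units `u`, `τ` packaged: `m` is squarefree,
all its prime factors exceed `B`, `u` is the class of `a`. -/
theorem exists_modulus_independent (a p B : ℕ) (ha : 2 ≤ a) (hp : p.Prime) :
    ∃ (m : ℕ) (u τ : (ZMod m)ˣ), 1 < m ∧ Squarefree m ∧ (∀ l : ℕ, l.Prime → l ∣ m → B < l) ∧
      (u : ZMod m) = (a : ZMod m) ∧
      ∀ x y : ℤ, u ^ x * τ ^ y = 1 → (p : ℤ) ∣ x ∧ (p : ℤ) ∣ y := by
  obtain ⟨l₁, l₂, hcop, t, htcop, hl₁, hl₂, hB₁, hB₂, hne, -, -, hind⟩ :=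
    exists_independent_units a p B ha hp
  refine ⟨l₁ * l₂, ZMod.unitOfCoprime a hcop, ZMod.unitOfCoprime t htcop, ?_, ?_, ?_,
    ZMod.coe_unitOfCoprime a hcop, hind⟩
  · have h1 := hl₁.two_le
    have h2 := hl₂.two_le
    nlinarith
  · rw [Nat.squarefree_mul_iff]
    exact ⟨(Nat.coprime_primes hl₁ hl₂).mpr hne, hl₁.prime.squarefree, hl₂.prime.squarefree⟩
  · intro l hl hdvd
    rcases (Nat.Prime.dvd_mul hl).mp hdvd with h | h
    · rw [(Nat.prime_dvd_prime_iff_eq hl hl₁).mp h]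
      exact hB₁
    · rw [(Nat.prime_dvd_prime_iff_eq hl hl₂).mp h]
      exact hB₂

end Fermat.Agent.S14x.AL.H8
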