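import Mathlib
import Fermat.Agent.S14x.AL.H8_Order

/-!
# S14, package AL: one modulus for a PAIR of primes (helper9)

On top of helper8's `H8.exists_modulus_independent`: for `a₁, a₂ ≥ 2` (the norms of two primes)
there are `M` (all prime factors `> B`) and units `u₁ = a₁`, `u₂ = a₂`, `τ` of `ZMod M` such that
`τ` is independent modulo `p` of `u₁` AND of `u₂`.
-/

set_option autoImplicit false
set_option linter.style.haveILetI false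

namespace Fermat.Agent.S14x.AL

/-- Independence modulo `p` descends along `ZMod.unitsMap`. -/
theorem h9_independent_of_unitsMap {m M : ℕ} (h : m ∣ M) (p : ℕ) (u τ : (ZMod M)ˣ)
    (hind : ∀ x y : ℤ, ZMod.unitsMap h u ^ x * ZMod.unitsMap h τ ^ y = 1 →
      (p : ℤ) ∣ x ∧ (p : ℤ) ∣ y) :
    ∀ x y : ℤ, u ^ x * τ ^ y = 1 → (p : ℤ) ∣ x ∧ (p : ℤ) ∣ y := by
  intro x y hxy
  apply hind
  rw [← map_zpow, ← map_zpow, ← map_mul, hxy, map_one]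

/-- The unit of `ZMod M` attached to a natural number which is a unit modulo `M`. -/
theorem h9_unitsMap_eq {m M : ℕ} (h : m ∣ M) (u : (ZMod M)ˣ) (v : (ZMod m)ˣ) (k : ℕ)
    (hu : (u : ZMod M) = (k : ZMod M)) (hv : (v : ZMod m) = (k : ZMod m)) :
    ZMod.unitsMap h u = v := by
  apply Units.ext
  rw [ZMod.unitsMap_val, hu, hv]
  exact ZMod.cast_natCast h k

theorem exists_modulus_independent_pair (a₁ a₂ p B : ℕ) (ha₁ : 2 ≤ a₁) (ha₂ : 2 ≤ a₂)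
    (hp : p.Prime) :
    ∃ (M : ℕ) (u₁ u₂ τ : (ZMod M)ˣ), 1 < M ∧ (∀ l : ℕ, l.Prime → l ∣ M → B < l) ∧
      (u₁ : ZMod M) = (a₁ : ZMod M) ∧ (u₂ : ZMod M) = (a₂ : ZMod M) ∧
      (∀ x y : ℤ, u₁ ^ x * τ ^ y = 1 → (p : ℤ) ∣ x ∧ (p : ℤ) ∣ y) ∧
      (∀ x y : ℤ, u₂ ^ x * τ ^ y = 1 → (p : ℤ) ∣ x ∧ (p : ℤ) ∣ y) := by
  obtain ⟨m₁, v₁, τ₁, hm₁, -, hB₁, hv₁, hind₁⟩ :=
    H8.exists_modulus_independent a₁ p (max B (max a₁ a₂)) ha₁ hp
  obtain ⟨m₂, v₂, τ₂, hm₂, -, hB₂, hv₂, hind₂⟩ :=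
    H8.exists_modulus_independent a₂ p (max (max B (max a₁ a₂)) m₁) ha₂ hp
  -- coprimality
  have hcop : m₁.Coprime m₂ := by
    rw [Nat.coprime_comm]
    apply Nat.Coprime.symm
    rw [Nat.coprime_iff_gcd_eq_one]
    by_contra hne
    obtain ⟨l, hl, hdvd⟩ := Nat.exists_prime_and_dvd hne
    have h1 : l ∣ m₁ := hdvd.trans (Nat.gcd_dvd_left _ _)
    have h2 : l ∣ m₂ := hdvd.trans (Nat.gcd_dvd_right _ _)
    have h3 := hB₂ l hl h2
    have h4 : l ≤ m₁ := Nat.le_of_dvd (by omega) h1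
    have : m₁ < l := lt_of_le_of_lt (le_max_right _ _) h3
    omega
  have hpos₁ : 0 < m₁ := by omega
  have hpos₂ : 0 < m₂ := by omega
  haveI : NeZero m₁ := ⟨by omega⟩
  haveI : NeZero m₂ := ⟨by omega⟩
  -- prime factors of `M`
  have hfac : ∀ l : ℕ, l.Prime → l ∣ m₁ * m₂ → max B (max a₁ a₂) < l := by
    intro l hl hdvd
    rcases (Nat.Prime.dvd_mul hl).mp hdvd with h | h
    · exact hB₁ l hl h
    · exact lt_of_le_of_lt (le_max_left _ _) (hB₂ l hl h)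
  have hcopa : ∀ a : ℕ, 2 ≤ a → a ≤ max a₁ a₂ → a.Coprime (m₁ * m₂) := by
    intro a ha hle
    rw [Nat.coprime_iff_gcd_eq_one]
    by_contra hne
    obtain ⟨l, hl, hdvd⟩ := Nat.exists_prime_and_dvd hne
    have h1 : l ∣ a := hdvd.trans (Nat.gcd_dvd_left _ _)
    have h2 : l ∣ m₁ * m₂ := hdvd.trans (Nat.gcd_dvd_right _ _)
    have h3 := hfac l hl h2
    have h4 : l ≤ a := Nat.le_of_dvd (by omega) h1
    have : max a₁ a₂ < l := lt_of_le_of_lt (le_max_right _ _) h3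
    omega
  have hc₁ := hcopa a₁ ha₁ (le_max_left _ _)
  have hc₂ := hcopa a₂ ha₂ (le_max_right _ _)
  -- the natural number `k ≡ τ_i mod m_i`
  obtain ⟨k, hk₁, hk₂⟩ := Nat.chineseRemainder hcop (τ₁ : ZMod m₁).val (τ₂ : ZMod m₂).val
  have hkτ₁ : ((k : ℕ) : ZMod m₁) = (τ₁ : ZMod m₁) := by
    rw [(ZMod.natCast_eq_natCast_iff _ _ _).mpr hk₁, ZMod.natCast_zmod_val]
  have hkτ₂ : ((k : ℕ) : ZMod m₂) = (τ₂ : ZMod m₂) := by
    rw [(ZMod.natCast_eq_natCast_iff _ _ _).mpr hk₂, ZMod.natCast_zmod_val]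
  have hkc₁ : k.Coprime m₁ := by
    rw [← ZMod.isUnit_iff_coprime, hkτ₁]
    exact τ₁.isUnit
  have hkc₂ : k.Coprime m₂ := by
    rw [← ZMod.isUnit_iff_coprime, hkτ₂]
    exact τ₂.isUnit
  have hkc : k.Coprime (m₁ * m₂) := Nat.Coprime.mul_right hkc₁ hkc₂
  refine ⟨m₁ * m₂, ZMod.unitOfCoprime a₁ hc₁, ZMod.unitOfCoprime a₂ hc₂,
    ZMod.unitOfCoprime k hkc, by nlinarith, fun l hl hdvd =>
      lt_of_le_of_lt (le_max_left _ _) (hfac l hl hdvd),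
    ZMod.coe_unitOfCoprime a₁ hc₁, ZMod.coe_unitOfCoprime a₂ hc₂, ?_, ?_⟩
  · apply h9_independent_of_unitsMap (Dvd.intro m₂ rfl) p
    rw [h9_unitsMap_eq (Dvd.intro m₂ rfl) (ZMod.unitOfCoprime a₁ hc₁) v₁ a₁
        (ZMod.coe_unitOfCoprime a₁ hc₁) hv₁,
      h9_unitsMap_eq (Dvd.intro m₂ rfl) (ZMod.unitOfCoprime k hkc) τ₁ k
        (ZMod.coe_unitOfCoprime k hkc) hkτ₁.symm]
    exact hind₁
  · apply h9_independent_of_unitsMap (Dvd.intro_left m₁ rfl) p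
    rw [h9_unitsMap_eq (Dvd.intro_left m₁ rfl) (ZMod.unitOfCoprime a₂ hc₂) v₂ a₂
        (ZMod.coe_unitOfCoprime a₂ hc₂) hv₂,
      h9_unitsMap_eq (Dvd.intro_left m₁ rfl) (ZMod.unitOfCoprime k hkc) τ₂ k
        (ZMod.coe_unitOfCoprime k hkc) hkτ₂.symm]
    exact hind₂

end Fermat.Agent.S14x.AL
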