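import Mathlib
import Fermat.Agent.S14x.AL.H14_PairDefs
import Fermat.Agent.S14x.AL.H9_Modulus

/-!
# S14 / AL leaf [F7a] (helper7): the field-theoretic construction of Artin's lemma for pairs

`stPairDataAsm : StPairDataAsm p` (verbatim `AL/H14_PairDefs.lean`):
`StProd p → StFrobF → StPairData p`.

Construction: `a_i = N𝔭_i`; `m`, `τ` from `exists_modulus_independent_pair` (all prime factors
of `m` exceed `max p (max a₁ a₂)`); `F = CyclotomicField m L`; `g_i` the Frobenius elements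
(`StFrobF`), `g₀` a lift of `(ρ₀, τ)` (`StProd`), `ρ₀` a generator of `Gal(L/K)`;
`H_i = ⟨g_i, g₀⟩`.
-/

set_option autoImplicit false
set_option linter.style.haveILetI false
set_option linter.unusedSectionVars false

open NumberField

noncomputable section

namespace Fermat.Agent.S14x.AL.H7

open Fermat.Agent.S14x.Asm Fermat.Agent.S14x.AL

/-! ### Group theory -/

/-- In a group in which all elements commute, every element of the subgroup generated by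
`g₁, g₂` is `g₁ ^ x * g₂ ^ y`. -/
theorem h7_mem_closure_pair {G : Type*} [Group G] (hc : ∀ a b : G, a * b = b * a) (g₁ g₂ : G)
    {h : G} (hh : h ∈ Subgroup.closure ({g₁, g₂} : Set G)) :
    ∃ x y : ℤ, h = g₁ ^ x * g₂ ^ y := by
  have hcz : ∀ (a b : G) (n : ℤ), a * b ^ n = b ^ n * a := fun a b n =>
    ((Commute.zpow_right (hc a b) n).eq)
  induction hh using Subgroup.closure_induction with
  | mem g hg =>
    rcases hg with rfl | hg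
    · exact ⟨1, 0, by simp⟩
    · rw [Set.mem_singleton_iff] at hg
      subst hg
      exact ⟨0, 1, by simp⟩
  | one => exact ⟨0, 0, by simp⟩
  | mul a b _ _ ha hb =>
    obtain ⟨x, y, rfl⟩ := ha
    obtain ⟨x', y', rfl⟩ := hb
    refine ⟨x + x', y + y', ?_⟩
    rw [zpow_add, zpow_add]
    calc g₁ ^ x * g₂ ^ y * (g₁ ^ x' * g₂ ^ y')
        = g₁ ^ x * (g₂ ^ y * g₁ ^ x') * g₂ ^ y' := by simp only [mul_assoc]
      _ = g₁ ^ x * (g₁ ^ x' * g₂ ^ y) * g₂ ^ y' := by rw [hcz (g₂ ^ y) g₁ x']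
      _ = g₁ ^ x * g₁ ^ x' * (g₂ ^ y * g₂ ^ y') := by simp only [mul_assoc]
  | inv a _ ha =>
    obtain ⟨x, y, rfl⟩ := ha
    refine ⟨-x, -y, ?_⟩
    rw [mul_inv_rev, zpow_neg, zpow_neg]
    exact hc _ _

/-- `zpow` by a multiple of `p` is trivial in a group of order `p`. -/
theorem h7_zpow_eq_one {G : Type*} [Group G] {p : ℕ} (hcard : Nat.card G = p) (g : G) {x : ℤ}
    (hx : (p : ℤ) ∣ x) : g ^ x = 1 := by
  obtain ⟨k, rfl⟩ := hx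
  rw [zpow_mul, zpow_natCast, ← hcard, pow_card_eq_one', one_zpow]

/-! ### Restriction and the cyclotomic character -/

section Fields

variable {K L F : Type} [Field K] [Field L] [Field F] [Algebra K L] [Algebra L F] [Algebra K F]
  [IsScalarTower K L F]

theorem h7_restrictsTo_iff [Normal K L] (g : F ≃ₐ[K] F) (ρ : L ≃ₐ[K] L) :
    RestrictsTo K L F g ρ ↔ AlgEquiv.restrictNormalHom L g = ρ := by
  constructor
  · intro h
    ext x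
    apply (algebraMap L F).injective
    have := AlgEquiv.restrictNormal_commutes g L x
    rw [← h x, ← this]
    rfl
  · rintro rfl x
    exact (AlgEquiv.restrictNormal_commutes g L x).symm

/-- the cyclotomic character of an element acting by `t` on the `m`-th roots of unity. -/
theorem h7_autToPow_of_actsBy {m : ℕ} [NeZero m] {ζ : F} (hζ : IsPrimitiveRoot ζ m)
    (g : F ≃ₐ[K] F) (t : ℕ) (h : ActsBy K F m g t) :
    ((hζ.autToPow K g : (ZMod m)ˣ) : ZMod m) = (t : ZMod m) := by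
  have h1 := hζ.autToPow_spec K g
  rw [h ζ hζ.pow_eq_one] at h1
  -- `ζ ^ val = ζ ^ t`
  have h2 : ζ ^ t = ζ ^ (t % m) := by
    conv_lhs => rw [← Nat.div_add_mod t m]
    rw [pow_add, pow_mul, hζ.pow_eq_one, one_pow, one_mul]
  rw [h2] at h1
  have h3 := hζ.pow_inj (ZMod.val_lt _) (Nat.mod_lt t (NeZero.pos m)) h1
  have h4 : (((hζ.autToPow K g : (ZMod m)ˣ) : ZMod m).val : ZMod m) = ((t % m : ℕ) : ZMod m) := by
    rw [h3]
  rw [ZMod.natCast_zmod_val] at h4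
  rw [h4, ZMod.natCast_mod]

theorem h7_autToPow_eq_one_of_actsBy {m : ℕ} [NeZero m] {ζ : F} (hζ : IsPrimitiveRoot ζ m)
    (g : F ≃ₐ[K] F) (h : ActsBy K F m g 1) : hζ.autToPow K g = 1 := by
  apply Units.ext
  rw [h7_autToPow_of_actsBy hζ g 1 h]
  simp

end Fields

/-! ### Primes -/

section Primes

variable {K : Type} [Field K] [NumberField K]

theorem h7_two_le_card (𝔭 : Ideal (𝓞 K)) (h𝔭 : 𝔭.IsPrime) (h0 : 𝔭 ≠ ⊥) :
    2 ≤ Nat.card (𝓞 K ⧸ 𝔭) := by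
  have h1 : Ideal.absNorm 𝔭 = Nat.card (𝓞 K ⧸ 𝔭) := by
    rw [Ideal.absNorm_apply, Submodule.cardQuot_apply]
  rw [← h1]
  have h2 : Ideal.absNorm 𝔭 ≠ 0 := by
    rw [Ne, Ideal.absNorm_eq_zero_iff]; exact h0
  have h3 : Ideal.absNorm 𝔭 ≠ 1 := by
    rw [Ne, Ideal.absNorm_eq_one_iff]; exact h𝔭.ne_top
  omega

theorem h7_natCast_notMem (𝔭 : Ideal (𝓞 K)) (h𝔭 : 𝔭.IsPrime) (m : ℕ)
    (hcop : (Nat.card (𝓞 K ⧸ 𝔭)).Coprime m) : (m : 𝓞 K) ∉ 𝔭 := by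
  intro hm
  have h1 : Ideal.absNorm 𝔭 = Nat.card (𝓞 K ⧸ 𝔭) := by
    rw [Ideal.absNorm_apply, Submodule.cardQuot_apply]
  have h2 : ((Nat.card (𝓞 K ⧸ 𝔭) : ℕ) : 𝓞 K) ∈ 𝔭 := by
    rw [← h1]; exact Ideal.absNorm_mem 𝔭
  have h3 : IsCoprime ((Nat.card (𝓞 K ⧸ 𝔭) : ℕ) : ℤ) (m : ℤ) := Nat.isCoprime_iff_coprime.mpr hcop
  obtain ⟨a, b, hab⟩ := h3
  have h4 : (1 : 𝓞 K) ∈ 𝔭 := by
    have : ((a * ((Nat.card (𝓞 K ⧸ 𝔭) : ℕ) : ℤ) + b * (m : ℤ) : ℤ) : 𝓞 K) = 1 := by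
      rw [hab]; simp
    rw [← this]
    push_cast
    exact 𝔭.add_mem (𝔭.mul_mem_left _ h2) (𝔭.mul_mem_left _ hm)
  exact h𝔭.ne_top ((Ideal.eq_top_iff_one 𝔭).mpr h4)

end Primes

/-! ### The assembly -/

/-- **[F7a]** verbatim `AL.StPairDataAsm p`. -/
theorem stPairDataAsm (p : ℕ) [Fact p.Prime] : StPairDataAsm p := by
  intro hProd hFrob hp3 K L _ _ _ _ _ _ _ _ hdeg hUnr hTw Φ hΦ 𝔭₁ 𝔭₂ h𝔭₁ h𝔭₁0 h𝔭₂ h𝔭₂0
  classical
  have hp : p.Prime := Fact.out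
  have h2a₁ : 2 ≤ Nat.card (𝓞 K ⧸ 𝔭₁) := h7_two_le_card 𝔭₁ h𝔭₁ h𝔭₁0
  have h2a₂ : 2 ≤ Nat.card (𝓞 K ⧸ 𝔭₂) := h7_two_le_card 𝔭₂ h𝔭₂ h𝔭₂0
  obtain ⟨m, u₁, u₂, τ, hm1, hfac, hu₁, hu₂, hind₁, hind₂⟩ :=
    exists_modulus_independent_pair (Nat.card (𝓞 K ⧸ 𝔭₁)) (Nat.card (𝓞 K ⧸ 𝔭₂)) p
      (max p (max (Nat.card (𝓞 K ⧸ 𝔭₁)) (Nat.card (𝓞 K ⧸ 𝔭₂)))) h2a₁ h2a₂ hp
  haveI : NeZero m := ⟨by omega⟩
  -- coprimality with `m`
  have hcop : ∀ a : ℕ, 2 ≤ a →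
      a ≤ max p (max (Nat.card (𝓞 K ⧸ 𝔭₁)) (Nat.card (𝓞 K ⧸ 𝔭₂))) → a.Coprime m := by
    intro a ha hle
    rw [Nat.coprime_iff_gcd_eq_one]
    by_contra hne
    obtain ⟨l, hl, hdvd⟩ := Nat.exists_prime_and_dvd hne
    have h1 : l ∣ a := hdvd.trans (Nat.gcd_dvd_left _ _)
    have h2 : l ∣ m := hdvd.trans (Nat.gcd_dvd_right _ _)
    have h3 := hfac l hl h2
    have h4 : l ≤ a := Nat.le_of_dvd (by omega) h1
    omega
  have hmp : m.Coprime p := (hcop p hp.two_le (le_max_left _ _)).symm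
  have hc₁ : (Nat.card (𝓞 K ⧸ 𝔭₁)).Coprime m :=
    hcop _ h2a₁ (le_trans (le_max_left _ _) (le_max_right _ _))
  have hc₂ : (Nat.card (𝓞 K ⧸ 𝔭₂)).Coprime m :=
    hcop _ h2a₂ (le_trans (le_max_right _ _) (le_max_right _ _))
  -- the field `F = L(ζ_m)`
  obtain ⟨hGal, hcomm, hlift⟩ := hProd hp3 hp K L (CyclotomicField m L) m hdeg hTw hmp
  haveI := hGal
  refine ⟨CyclotomicField m L, inferInstance, inferInstance, inferInstance, inferInstance,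
    inferInstance, hGal, m, inferInstance, inferInstance, hcomm, ?_⟩
  obtain ⟨ζ, hζ⟩ := IsCyclotomicExtension.exists_isPrimitiveRoot L (CyclotomicField m L)
    (Set.mem_singleton m) (NeZero.ne m)
  -- the Frobenius elements
  obtain ⟨P₁, g₁, hP₁, hP₁0, hP₁u, hfr₁, hres₁, hact₁⟩ :=
    hFrob K L (CyclotomicField m L) m hUnr Φ hΦ 𝔭₁ h𝔭₁ h𝔭₁0 (h7_natCast_notMem 𝔭₁ h𝔭₁ m hc₁)
  obtain ⟨P₂, g₂, hP₂, hP₂0, hP₂u, hfr₂, hres₂, hact₂⟩ :=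
    hFrob K L (CyclotomicField m L) m hUnr Φ hΦ 𝔭₂ h𝔭₂ h𝔭₂0 (h7_natCast_notMem 𝔭₂ h𝔭₂ m hc₂)
  -- the generator and its lift
  have hcardG : Nat.card (L ≃ₐ[K] L) = p := by rw [IsGalois.card_aut_eq_finrank, hdeg]
  obtain ⟨ρ₀, hρ₀⟩ : ∃ ρ₀ : L ≃ₐ[K] L, ρ₀ ≠ 1 := by
    haveI : Nontrivial (L ≃ₐ[K] L) := by
      rw [← Finite.one_lt_card_iff_nontrivial, hcardG]
      exact hp.one_lt
    exact exists_ne 1
  have hgen : ∀ ρ : L ≃ₐ[K] L, ∃ k : ℤ, ρ₀ ^ k = ρ := by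
    intro ρ
    have h1 : Subgroup.zpowers ρ₀ = ⊤ := zpowers_eq_top_of_prime_card hcardG hρ₀
    have h2 : ρ ∈ Subgroup.zpowers ρ₀ := by rw [h1]; exact Subgroup.mem_top ρ
    exact Subgroup.mem_zpowers_iff.mp h2
  obtain ⟨g₀, hres₀, hact₀⟩ := hlift ρ₀ (τ : ZMod m).val (ZMod.val_coe_unit_coprime τ)
  have hr₀ : AlgEquiv.restrictNormalHom L g₀ = ρ₀ := (h7_restrictsTo_iff g₀ ρ₀).mp hres₀
  -- the cyclotomic characters
  have hχ₁ : hζ.autToPow K g₁ = u₁ :=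
    Units.ext (by rw [h7_autToPow_of_actsBy hζ g₁ _ hact₁, hu₁])
  have hχ₂ : hζ.autToPow K g₂ = u₂ :=
    Units.ext (by rw [h7_autToPow_of_actsBy hζ g₂ _ hact₂, hu₂])
  have hχ₀ : hζ.autToPow K g₀ = τ :=
    Units.ext (by rw [h7_autToPow_of_actsBy hζ g₀ _ hact₀, ZMod.natCast_zmod_val])
  -- (i) for `⟨g, g₀⟩`
  have hi : ∀ (g' : CyclotomicField m L ≃ₐ[K] CyclotomicField m L) (u : (ZMod m)ˣ),
      hζ.autToPow K g' = u →
      (∀ x y : ℤ, u ^ x * τ ^ y = 1 → (p : ℤ) ∣ x ∧ (p : ℤ) ∣ y) →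
      ∀ g ∈ Subgroup.closure ({g', g₀} : Set (CyclotomicField m L ≃ₐ[K] CyclotomicField m L)),
        ActsBy K (CyclotomicField m L) m g 1 → RestrictsTo K L (CyclotomicField m L) g 1 := by
    intro g' u hu hind g hg hact
    obtain ⟨x, y, rfl⟩ := h7_mem_closure_pair hcomm g' g₀ hg
    have h1 : hζ.autToPow K (g' ^ x * g₀ ^ y) = 1 := h7_autToPow_eq_one_of_actsBy hζ _ hact
    rw [map_mul, map_zpow, map_zpow, hu, hχ₀] at h1
    obtain ⟨hx, hy⟩ := hind x y h1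
    rw [h7_restrictsTo_iff, map_mul, map_zpow, map_zpow, h7_zpow_eq_one hcardG _ hx,
      h7_zpow_eq_one hcardG _ hy, one_mul]
  -- (ii) for any subgroup containing `g₀`
  have hii : ∀ H : Subgroup (CyclotomicField m L ≃ₐ[K] CyclotomicField m L), g₀ ∈ H →
      ∀ ρ : L ≃ₐ[K] L, ∃ g ∈ H, RestrictsTo K L (CyclotomicField m L) g ρ := by
    intro H hH ρ
    obtain ⟨k, rfl⟩ := hgen ρ
    refine ⟨g₀ ^ k, H.zpow_mem hH k, ?_⟩
    rw [h7_restrictsTo_iff, map_zpow, hr₀]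
  have hg₀₁ : g₀ ∈ Subgroup.closure
      ({g₁, g₀} : Set (CyclotomicField m L ≃ₐ[K] CyclotomicField m L)) :=
    Subgroup.subset_closure (by simp)
  have hg₀₂ : g₀ ∈ Subgroup.closure
      ({g₂, g₀} : Set (CyclotomicField m L ≃ₐ[K] CyclotomicField m L)) :=
    Subgroup.subset_closure (by simp)
  refine ⟨Subgroup.closure {g₁, g₀}, Subgroup.closure {g₂, g₀}, ?_, ?_, ?_⟩
  · exact ⟨h7_natCast_notMem 𝔭₁ h𝔭₁ m hc₁, hi g₁ u₁ hχ₁ hind₁, hii _ hg₀₁,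
      P₁, g₁, hP₁, hP₁0, hP₁u, Subgroup.subset_closure (by simp), hfr₁⟩
  · exact ⟨h7_natCast_notMem 𝔭₂ h𝔭₂ m hc₂, hi g₂ u₂ hχ₂ hind₂, hii _ hg₀₂,
      P₂, g₂, hP₂, hP₂0, hP₂u, Subgroup.subset_closure (by simp), hfr₂⟩
  · exact hii _ (Subgroup.mem_inf.mpr ⟨hg₀₁, hg₀₂⟩)

end Fermat.Agent.S14x.AL.H7
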