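import Mathlib

/-!
# S14, package AL, leaf [AL-2]: the group theory of Artin's lemma (helper9)

Lang, *Algebraic Number Theory*, X §2, Lemma 2.  `C = Gal(L/K) = ⟨σ⟩` cyclic of order `p`,
`A = Gal(K(ζ_m)/K) ⊆ (ℤ/m)ˣ`, `(c₀, u)` the Frobenius of `𝔭` (so `c₀ = σ ^ d`), `τ ∈ A`
*independent of `u` modulo `p`*: `u ^ x * τ ^ y = 1 → p ∣ x ∧ p ∣ y`.
`H := ⟨(c₀, u), (σ, τ)⟩`.  Then

* (i)   `(c₀, u) ∈ H`                     (`𝔭` splits completely in `E := fixed field of H`);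
* (ii)  `H ∩ (C × 1) = 1`                 (`E(ζ_m) = L(ζ_m)`);
* (iii) `H · (1 × A) = C × A`             (`L ∩ E = K`).

Two forms: inside the product `C × A` (`artin_subgroup`), and for an abstract group `𝒢`
(`= Gal(L(ζ_m)/K)`) with two restriction homomorphisms `r₁ : 𝒢 →* C`, `r₂ : 𝒢 →* A` that are
jointly injective (`artin_subgroup_hom`); the second form needs neither `L ∩ K(ζ_m) = K` nor
commutativity of `𝒢` as a hypothesis.
-/

set_option autoImplicit false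

namespace Fermat.Agent.S14x.AL

section Hom

variable {𝒢 C A : Type*} [Group 𝒢] [CommGroup C] [CommGroup A]

/-- A group with a jointly injective pair of homomorphisms to commutative groups is
commutative. -/
theorem h9_comm_of_jointly_injective (r₁ : 𝒢 →* C) (r₂ : 𝒢 →* A)
    (hinj : ∀ g : 𝒢, r₁ g = 1 → r₂ g = 1 → g = 1) (a b : 𝒢) : a * b = b * a := by
  have h : a * b * (b * a)⁻¹ = 1 := by
    apply hinj
    · simp [mul_comm (r₁ a) (r₁ b)]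
    · simp [mul_comm (r₂ a) (r₂ b)]
  exact mul_inv_eq_one.mp h

/-- In a group with a jointly injective pair of homomorphisms to commutative groups, every
element of the subgroup generated by `g₁, g₂` is `g₁ ^ x * g₂ ^ y`. -/
theorem h9_mem_closure_pair (r₁ : 𝒢 →* C) (r₂ : 𝒢 →* A)
    (hinj : ∀ g : 𝒢, r₁ g = 1 → r₂ g = 1 → g = 1) (g₁ g₂ : 𝒢) {h : 𝒢}
    (hh : h ∈ Subgroup.closure ({g₁, g₂} : Set 𝒢)) : ∃ x y : ℤ, h = g₁ ^ x * g₂ ^ y := by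
  have hc := h9_comm_of_jointly_injective r₁ r₂ hinj
  have hcz : ∀ (a b : 𝒢) (n : ℤ), a * b ^ n = b ^ n * a := fun a b n =>
    ((Commute.zpow_right (hc a b) n).eq)
  induction hh using Subgroup.closure_induction with
  | mem g hg =>
    rcases hg with rfl | hg
    · exact ⟨1, 0, by simp⟩
    · rw [Set.mem_singleton_iff] at hg
      subst hg
      exact ⟨0, 1, by simp⟩
  | one => exact ⟨0, 0, by simp⟩
  | mul a b _ _ ha hb =>
    obtain ⟨x, y, rfl⟩ := ha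
    obtain ⟨x', y', rfl⟩ := hb
    refine ⟨x + x', y + y', ?_⟩
    rw [zpow_add, zpow_add]
    calc g₁ ^ x * g₂ ^ y * (g₁ ^ x' * g₂ ^ y')
        = g₁ ^ x * (g₂ ^ y * g₁ ^ x') * g₂ ^ y' := by simp only [mul_assoc]
      _ = g₁ ^ x * (g₁ ^ x' * g₂ ^ y) * g₂ ^ y' := by rw [hcz (g₂ ^ y) g₁ x']
      _ = g₁ ^ x * g₁ ^ x' * (g₂ ^ y * g₂ ^ y') := by simp only [mul_assoc]
  | inv a _ ha =>
    obtain ⟨x, y, rfl⟩ := ha
    refine ⟨-x, -y, ?_⟩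
    rw [mul_inv_rev, zpow_neg, zpow_neg]
    exact hc _ _

/-- **Artin's lemma, group theory, abstract form.**
`𝒢 = Gal(L(ζ_m)/K)`, `r₁ = ` restriction to `L`, `r₂ = ` restriction to `K(ζ_m)`,
`g₁ = ` Frobenius of `𝔭`, `g₂` any element restricting to the generator `σ` of `Gal(L/K)`
and to an element `τ` which is independent of `u = r₂ g₁` modulo `p`.
With `H = ⟨g₁, g₂⟩`:
(i) `g₁ ∈ H`; (ii) `H ∩ ker r₂ = 1`; (iii) `H · ker r₁ = 𝒢` if `σ` generates `C`. -/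
theorem artin_subgroup_hom (r₁ : 𝒢 →* C) (r₂ : 𝒢 →* A)
    (hinj : ∀ g : 𝒢, r₁ g = 1 → r₂ g = 1 → g = 1)
    (p : ℕ) (g₁ g₂ : 𝒢) (h₁ : r₁ g₁ ^ p = 1) (h₂ : r₁ g₂ ^ p = 1)
    (hind : ∀ x y : ℤ, r₂ g₁ ^ x * r₂ g₂ ^ y = 1 → (p : ℤ) ∣ x ∧ (p : ℤ) ∣ y) :
    g₁ ∈ Subgroup.closure ({g₁, g₂} : Set 𝒢) ∧
    Subgroup.closure ({g₁, g₂} : Set 𝒢) ⊓ r₂.ker = ⊥ ∧
    ((∀ c : C, c ∈ Subgroup.zpowers (r₁ g₂)) →
      Subgroup.closure ({g₁, g₂} : Set 𝒢) ⊔ r₁.ker = ⊤) := by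
  refine ⟨Subgroup.subset_closure (by simp), ?_, ?_⟩
  · rw [eq_bot_iff]
    rintro h ⟨hh, hk⟩
    rw [Subgroup.mem_bot]
    obtain ⟨x, y, rfl⟩ := h9_mem_closure_pair r₁ r₂ hinj g₁ g₂ hh
    have hk' : r₂ g₁ ^ x * r₂ g₂ ^ y = 1 := by
      have := (MonoidHom.mem_ker).mp hk
      simpa [map_mul, map_zpow] using this
    obtain ⟨⟨a, rfl⟩, ⟨b, rfl⟩⟩ := hind x y hk'
    apply hinj
    · rw [map_mul, map_zpow, map_zpow, zpow_mul, zpow_mul, zpow_natCast, zpow_natCast, h₁, h₂]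
      simp
    · simpa [map_mul, map_zpow] using hk'
  · intro hgen
    rw [eq_top_iff]
    intro g _
    obtain ⟨y, hy⟩ := Subgroup.mem_zpowers_iff.mp (hgen (r₁ g))
    have hmem : g₂ ^ y ∈ Subgroup.closure ({g₁, g₂} : Set 𝒢) :=
      Subgroup.zpow_mem _ (Subgroup.subset_closure (by simp)) y
    have hker : (g₂ ^ y)⁻¹ * g ∈ r₁.ker := by
      rw [MonoidHom.mem_ker, map_mul, map_inv, map_zpow, hy]
      simp
    have : g = g₂ ^ y * ((g₂ ^ y)⁻¹ * g) := by simp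
    rw [this]
    exact Subgroup.mul_mem_sup hmem hker

/-- Element form of `artin_subgroup_hom` (ii): an element of `H` with trivial restriction to
`K(ζ_m)` is trivial. -/
theorem artin_subgroup_hom_eq_one (r₁ : 𝒢 →* C) (r₂ : 𝒢 →* A)
    (hinj : ∀ g : 𝒢, r₁ g = 1 → r₂ g = 1 → g = 1)
    (p : ℕ) (g₁ g₂ : 𝒢) (h₁ : r₁ g₁ ^ p = 1) (h₂ : r₁ g₂ ^ p = 1)
    (hind : ∀ x y : ℤ, r₂ g₁ ^ x * r₂ g₂ ^ y = 1 → (p : ℤ) ∣ x ∧ (p : ℤ) ∣ y)
    {h : 𝒢} (hh : h ∈ Subgroup.closure ({g₁, g₂} : Set 𝒢)) (hk : r₂ h = 1) : h = 1 := by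
  have := (artin_subgroup_hom r₁ r₂ hinj p g₁ g₂ h₁ h₂ hind).2.1
  have hmem : h ∈ Subgroup.closure ({g₁, g₂} : Set 𝒢) ⊓ r₂.ker := ⟨hh, MonoidHom.mem_ker.mpr hk⟩
  rw [this] at hmem
  exact Subgroup.mem_bot.mp hmem

/-- Element form of `artin_subgroup_hom` (iii): every element of `𝒢` is the product of an
element of `H` and an element with trivial restriction to `L`. -/
theorem artin_subgroup_hom_exists (r₁ : 𝒢 →* C) (g₁ g₂ : 𝒢)
    (hgen : ∀ c : C, c ∈ Subgroup.zpowers (r₁ g₂)) (g : 𝒢) :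
    ∃ h ∈ Subgroup.closure ({g₁, g₂} : Set 𝒢), ∃ k : 𝒢, r₁ k = 1 ∧ g = h * k := by
  obtain ⟨y, hy⟩ := Subgroup.mem_zpowers_iff.mp (hgen (r₁ g))
  refine ⟨g₂ ^ y, Subgroup.zpow_mem _ (Subgroup.subset_closure (by simp)) y,
    (g₂ ^ y)⁻¹ * g, ?_, by simp⟩
  rw [map_mul, map_inv, map_zpow, hy]
  simp

end Hom

section Prod

variable {C A : Type*} [CommGroup C] [CommGroup A]

/-- **Artin's lemma, group theory, inside `C × A`** (Lang ANT X §2 Lemma 2).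
`σ` of order `p`, `(σ ^ d, u)` the Frobenius, `τ` independent of `u` modulo `p`,
`H = ⟨(σ ^ d, u), (σ, τ)⟩`. Then (i) `(σ ^ d, u) ∈ H`; (ii) `H ∩ (C × 1) = 1`;
(iii) `H · (1 × A) = C × A` if `σ` generates `C`. -/
theorem artin_subgroup (p : ℕ) (σ : C) (hσ : orderOf σ = p) (d : ℕ) (u τ : A)
    (hind : ∀ x y : ℤ, u ^ x * τ ^ y = 1 → (p : ℤ) ∣ x ∧ (p : ℤ) ∣ y) :
    ((σ ^ d, u) : C × A) ∈ Subgroup.closure ({(σ ^ d, u), (σ, τ)} : Set (C × A)) ∧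
    Subgroup.closure ({(σ ^ d, u), (σ, τ)} : Set (C × A)) ⊓
        (⊤ : Subgroup C).prod (⊥ : Subgroup A) = ⊥ ∧
    ((∀ c : C, c ∈ Subgroup.zpowers σ) →
      Subgroup.closure ({(σ ^ d, u), (σ, τ)} : Set (C × A)) ⊔
        (⊥ : Subgroup C).prod (⊤ : Subgroup A) = ⊤) := by
  have hσp : σ ^ p = 1 := by rw [← hσ]; exact pow_orderOf_eq_one σ
  have key := artin_subgroup_hom (𝒢 := C × A) (MonoidHom.fst C A) (MonoidHom.snd C A)
    (fun g h1 h2 => Prod.ext h1 h2) p (σ ^ d, u) (σ, τ)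
    (by simp only [MonoidHom.coe_fst]; rw [← pow_mul, mul_comm, pow_mul, hσp, one_pow])
    (by simpa using hσp) (by simpa using hind)
  have e1 : (MonoidHom.snd C A).ker = (⊤ : Subgroup C).prod (⊥ : Subgroup A) := by
    ext ⟨c, a⟩
    simp [Subgroup.mem_prod]
  have e2 : (MonoidHom.fst C A).ker = (⊥ : Subgroup C).prod (⊤ : Subgroup A) := by
    ext ⟨c, a⟩
    simp [Subgroup.mem_prod]
  rw [e1, e2] at key
  exact ⟨key.1, key.2.1, fun h => key.2.2 (by simpa using h)⟩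

end Prod

end Fermat.Agent.S14x.AL
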