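import Mathlib
import Fermat.Agent.S14x.AL.H9_Group

/-!
# S14, package AL, leaf [AL-4b]: the Galois theory of Artin's lemma (helper9)

Pure field theory (no number theory). `L / K` finite Galois, `Ω = L(ζ_M)` (as
`[IsCyclotomicExtension {M} L Ω]`), `𝒢 = Gal(Ω/K)`, `r₁ = ` restriction to `L`,
`r₂ = ` cyclotomic character `𝒢 → (ℤ/M)ˣ`.  For `g₁, g₂ ∈ 𝒢` as in `artin_subgroup_hom`,
`E := fixedField ⟨g₁, g₂⟩`:

* `Ω / K` is Galois, finite;  `(r₁, r₂)` is jointly injective;
* `g₁` fixes `E`;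
* `Ω = E(ζ_M)`, i.e. `IsCyclotomicExtension {M} E Ω`;
* `L ⊄ E` (and `L ⊄ E ⊔ E'` for a second such field `E'` built with the same `g₂`).
-/

set_option autoImplicit false
set_option linter.style.haveILetI false
set_option linter.unusedSectionVars false

open IntermediateField Polynomial

namespace Fermat.Agent.S14x.AL

/-! ### The group theory again, for a target group `C` that is only a `Group` -/

section Hom'

variable {𝒢 C A : Type*} [Group 𝒢] [Group C] [CommGroup A]

/-- `artin_subgroup_hom` for a target `C` which is commutative by hypothesis (e.g. a Galois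
group of prime order). -/
theorem artin_subgroup_hom' (hC : ∀ a b : C, a * b = b * a) (r₁ : 𝒢 →* C) (r₂ : 𝒢 →* A)
    (hinj : ∀ g : 𝒢, r₁ g = 1 → r₂ g = 1 → g = 1)
    (p : ℕ) (g₁ g₂ : 𝒢) (h₁ : r₁ g₁ ^ p = 1) (h₂ : r₁ g₂ ^ p = 1)
    (hind : ∀ x y : ℤ, r₂ g₁ ^ x * r₂ g₂ ^ y = 1 → (p : ℤ) ∣ x ∧ (p : ℤ) ∣ y) :
    g₁ ∈ Subgroup.closure ({g₁, g₂} : Set 𝒢) ∧
    Subgroup.closure ({g₁, g₂} : Set 𝒢) ⊓ r₂.ker = ⊥ ∧
    ((∀ c : C, c ∈ Subgroup.zpowers (r₁ g₂)) →
      Subgroup.closure ({g₁, g₂} : Set 𝒢) ⊔ r₁.ker = ⊤) := by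
  letI : CommGroup C := { (inferInstance : Group C) with mul_comm := hC }
  exact artin_subgroup_hom r₁ r₂ hinj p g₁ g₂ h₁ h₂ hind

end Hom'

/-! ### `Ω = L(ζ_M)` over `K` -/

section Cyclo

variable (K L Ω : Type*) [Field K] [Field L] [Field Ω] [Algebra K L] [Algebra K Ω] [Algebra L Ω]
  [IsScalarTower K L Ω] (M : ℕ) [NeZero M]

/-- `L(ζ_M) / K` is finite if `L / K` is. -/
theorem h9_finiteDimensional [FiniteDimensional K L] [IsCyclotomicExtension {M} L Ω] :
    FiniteDimensional K Ω := by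
  haveI : FiniteDimensional L Ω := IsCyclotomicExtension.finiteDimensional {M} L Ω
  exact FiniteDimensional.trans K L Ω

/-- `L(ζ_M) / K` is Galois if `L / K` is finite Galois. -/
theorem h9_isGalois [FiniteDimensional K L] [IsGalois K L] [IsCyclotomicExtension {M} L Ω] :
    IsGalois K Ω := by
  haveI : Algebra.IsSeparable L Ω := IsCyclotomicExtension.isSeparable {M} L Ω
  haveI : Algebra.IsSeparable K Ω := Algebra.IsSeparable.trans K L Ω
  obtain ⟨f, hfs, hf⟩ := IsGalois.is_separable_splitting_field K L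
  haveI := hf
  have hf0 : f ≠ 0 := hfs.ne_zero
  haveI : IsSplittingField L Ω (((X : K[X]) ^ M - 1).map (algebraMap K L)) := by
    have := IsCyclotomicExtension.isSplittingField_X_pow_sub_one M L Ω
    simpa using this
  haveI : IsSplittingField K Ω (f * (X ^ M - 1)) :=
    IsSplittingField.mul (K := L) Ω f (X ^ M - 1) hf0 (X_pow_sub_C_ne_zero (NeZero.pos M) 1)
  haveI : Normal K Ω := Normal.of_isSplittingField (f * (X ^ M - 1))
  exact ⟨⟩

end Cyclo

/-! ### The two restriction maps on `Gal(L(ζ_M)/K)` -/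

section Restr

variable {K L Ω : Type*} [Field K] [Field L] [Field Ω] [Algebra K L] [Algebra K Ω] [Algebra L Ω]
  [IsScalarTower K L Ω] {M : ℕ} [NeZero M] {ζ : Ω} (hζ : IsPrimitiveRoot ζ M)

/-- The cyclotomic character of `g` is `1` iff `g` fixes `ζ`. -/
theorem h9_autToPow_eq_one_iff (g : Ω ≃ₐ[K] Ω) : hζ.autToPow K g = 1 ↔ g ζ = ζ := by
  have hspec := hζ.autToPow_spec K g
  have hord : orderOf ζ = M := hζ.eq_orderOf.symm
  constructor
  · intro h
    rw [h] at hspec
    rw [← hspec, Units.val_one, ZMod.val_one_eq_one_mod, ← hord, pow_mod_orderOf, pow_one]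
  · intro h
    rw [h] at hspec
    have h1 : ζ ^ ((hζ.autToPow K g : ZMod M)).val = ζ ^ (1 % M) := by
      rw [hspec]
      conv_rhs => rw [← hord, pow_mod_orderOf, pow_one]
    have h1' := hζ.pow_inj (ZMod.val_lt _) (Nat.mod_lt 1 (NeZero.pos M)) h1
    have h2 : ((hζ.autToPow K g : (ZMod M)ˣ) : ZMod M) = 1 := by
      apply ZMod.val_injective M
      rw [h1', ZMod.val_one_eq_one_mod]
    exact Units.ext h2

variable (L) in
/-- The restriction of `g` to `L` is `1` iff `g` fixes the image of `L`. -/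
theorem h9_restrict_eq_one_iff [Normal K L] (g : Ω ≃ₐ[K] Ω) :
    AlgEquiv.restrictNormalHom L g = 1 ↔ ∀ x : L, g (algebraMap L Ω x) = algebraMap L Ω x := by
  constructor
  · intro h x
    have := AlgEquiv.restrictNormal_commutes g L x
    rw [← this]
    have h' : g.restrictNormal L = 1 := h
    rw [h']
    rfl
  · intro h
    ext x
    apply (algebraMap L Ω).injective
    have := AlgEquiv.restrictNormal_commutes g L x
    change algebraMap L Ω (g.restrictNormal L x) = algebraMap L Ω x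
    rw [this, h]

/-- `(r₁, r₂)` is jointly injective on `Gal(L(ζ_M)/K)`. -/
theorem h9_jointly_injective [Normal K L] [IsCyclotomicExtension {M} L Ω] (g : Ω ≃ₐ[K] Ω)
    (h1 : AlgEquiv.restrictNormalHom L g = 1) (h2 : hζ.autToPow K g = 1) : g = 1 := by
  rw [h9_restrict_eq_one_iff] at h1
  rw [h9_autToPow_eq_one_iff] at h2
  have htop := IsCyclotomicExtension.adjoin_primitive_root_eq_top (A := L) hζ
  ext x
  have hx : x ∈ Algebra.adjoin L ({ζ} : Set Ω) := by rw [htop]; exact Algebra.mem_top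
  change g x = x
  induction hx using Algebra.adjoin_induction with
  | mem y hy =>
    rw [Set.mem_singleton_iff] at hy
    rw [hy, h2]
  | algebraMap r => exact h1 r
  | add a b _ _ ha hb => rw [map_add, ha, hb]
  | mul a b _ _ ha hb => rw [map_mul, ha, hb]

/-- If `g` fixes the intermediate field `F` and `F` contains `L`, then `g` restricts to `1`
on `L`. -/
theorem h9_restrict_eq_one_of_le [Normal K L] (F : IntermediateField K Ω) (g : Ω ≃ₐ[K] Ω)
    (hg : g ∈ F.fixingSubgroup) (hL : (IsScalarTower.toAlgHom K L Ω).fieldRange ≤ F) :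
    AlgEquiv.restrictNormalHom L g = 1 := by
  rw [h9_restrict_eq_one_iff]
  intro x
  have hx : algebraMap L Ω x ∈ F := hL ⟨x, rfl⟩
  exact (IntermediateField.mem_fixingSubgroup_iff F g).mp hg _ hx

end Restr

/-! ### Artin's lemma, field form -/

section Artin

variable {K L Ω : Type*} [Field K] [Field L] [Field Ω] [Algebra K L] [Algebra K Ω] [Algebra L Ω]
  [IsScalarTower K L Ω] {M : ℕ} [NeZero M] {ζ : Ω} (hζ : IsPrimitiveRoot ζ M)

/-- A Galois group of prime order is commutative and of exponent `p`. -/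
theorem h9_gal_prime [FiniteDimensional K L] [IsGalois K L] {p : ℕ} (hp : p.Prime)
    (hdeg : Module.finrank K L = p) :
    (∀ a b : L ≃ₐ[K] L, a * b = b * a) ∧ ∀ a : L ≃ₐ[K] L, a ^ p = 1 := by
  have hcard : Nat.card (L ≃ₐ[K] L) = p := by rw [IsGalois.card_aut_eq_finrank, hdeg]
  haveI : Fact p.Prime := ⟨hp⟩
  haveI : IsCyclic (L ≃ₐ[K] L) := isCyclic_of_prime_card hcard
  refine ⟨fun a b => ?_, fun a => ?_⟩
  · letI := IsCyclic.commGroup (α := L ≃ₐ[K] L)
    exact mul_comm a b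
  · rw [← hcard]
    exact pow_card_eq_one'

/-- **Artin's lemma, field form.** `L / K` Galois of prime degree `p`, `Ω = L(ζ_M)`,
`g₁, g₂ ∈ Gal(Ω/K)` whose cyclotomic characters are independent modulo `p`,
`E := fixedField ⟨g₁, g₂⟩`. Then `Ω = E(ζ_M)`. -/
theorem artin_fields_cyclotomic [FiniteDimensional K L] [IsGalois K L]
    [IsCyclotomicExtension {M} L Ω] {p : ℕ} (hp : p.Prime) (hdeg : Module.finrank K L = p)
    (g₁ g₂ : Ω ≃ₐ[K] Ω)
    (hind : ∀ x y : ℤ, hζ.autToPow K g₁ ^ x * hζ.autToPow K g₂ ^ y = 1 →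
      (p : ℤ) ∣ x ∧ (p : ℤ) ∣ y) :
    IsCyclotomicExtension {M}
      (IntermediateField.fixedField (Subgroup.closure ({g₁, g₂} : Set (Ω ≃ₐ[K] Ω)))) Ω := by
  haveI := h9_finiteDimensional K L Ω M
  haveI := h9_isGalois K L Ω M
  obtain ⟨hC, hpow⟩ := h9_gal_prime (K := K) (L := L) hp hdeg
  set H := Subgroup.closure ({g₁, g₂} : Set (Ω ≃ₐ[K] Ω)) with hH
  set E := IntermediateField.fixedField H with hE
  have key := (artin_subgroup_hom' hC (AlgEquiv.restrictNormalHom L) (hζ.autToPow K)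
    (fun g h1 h2 => h9_jointly_injective hζ g h1 h2) p g₁ g₂ (hpow _) (hpow _) hind).2.1
  -- the fixing subgroup of `E ⊔ K(ζ)` is trivial
  have hfix : (E ⊔ IntermediateField.adjoin K {ζ}).fixingSubgroup = ⊥ := by
    rw [IntermediateField.fixingSubgroup_sup, hE, IntermediateField.fixingSubgroup_fixedField,
      eq_bot_iff, ← key]
    rintro g ⟨hg1, hg2⟩
    refine ⟨hg1, ?_⟩
    change g ∈ (hζ.autToPow K).ker
    rw [MonoidHom.mem_ker, h9_autToPow_eq_one_iff]
    exact (IntermediateField.mem_fixingSubgroup_iff _ g).mp hg2 ζ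
      (IntermediateField.mem_adjoin_simple_self K ζ)
  have htop : E ⊔ IntermediateField.adjoin K {ζ} = ⊤ := by
    rw [← IsGalois.fixedField_fixingSubgroup (E ⊔ IntermediateField.adjoin K {ζ}), hfix,
      IntermediateField.fixedField_bot]
  have htop' : IntermediateField.adjoin E ({ζ} : Set Ω) = ⊤ := by
    apply IntermediateField.restrictScalars_injective K
    rw [IntermediateField.restrictScalars_adjoin_eq_sup, htop, IntermediateField.restrictScalars_top]
  rw [IsCyclotomicExtension.iff_singleton]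
  refine ⟨⟨ζ, hζ⟩, fun x => ?_⟩
  have hx : x ∈ IntermediateField.adjoin E ({ζ} : Set Ω) := by rw [htop']; trivial
  have halg : IsAlgebraic E ζ := Algebra.IsAlgebraic.isAlgebraic ζ
  rw [← IntermediateField.mem_toSubalgebra,
    IntermediateField.adjoin_simple_toSubalgebra_of_isAlgebraic halg] at hx
  refine Algebra.adjoin_mono ?_ hx
  rintro y hy
  rw [Set.mem_singleton_iff] at hy
  rw [hy]
  exact hζ.pow_eq_one

/-- **Artin's lemma, field form: disjointness.** If `g₂` restricts to a nontrivial element of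
`Gal(L/K)` and fixes the intermediate field `F` (e.g. `F = E₁ ⊔ E₂` with
`E_i = fixedField ⟨g₁⁽ⁱ⁾, g₂⟩`), then `L ⊄ F`. -/
theorem artin_fields_not_le [Normal K L] (F : IntermediateField K Ω) (g₂ : Ω ≃ₐ[K] Ω)
    (hg : g₂ ∈ F.fixingSubgroup) (h2 : AlgEquiv.restrictNormalHom L g₂ ≠ 1) :
    ¬ (IsScalarTower.toAlgHom K L Ω).fieldRange ≤ F :=
  fun hL => h2 (h9_restrict_eq_one_of_le F g₂ hg hL)

/-- Both generators fix `E = fixedField ⟨g₁, g₂⟩`. -/
theorem artin_fields_mem_fixingSubgroup (g₁ g₂ : Ω ≃ₐ[K] Ω) :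
    g₁ ∈ (IntermediateField.fixedField
      (Subgroup.closure ({g₁, g₂} : Set (Ω ≃ₐ[K] Ω)))).fixingSubgroup ∧
    g₂ ∈ (IntermediateField.fixedField
      (Subgroup.closure ({g₁, g₂} : Set (Ω ≃ₐ[K] Ω)))).fixingSubgroup := by
  have h := (IntermediateField.le_iff_le (Subgroup.closure ({g₁, g₂} : Set (Ω ≃ₐ[K] Ω)))
    (IntermediateField.fixedField (Subgroup.closure ({g₁, g₂} : Set (Ω ≃ₐ[K] Ω))))).mp le_rfl
  exact ⟨h (Subgroup.subset_closure (by simp)), h (Subgroup.subset_closure (by simp))⟩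

/-- Two fields `E₁ = fixedField ⟨g₁, g₂⟩`, `E₂ = fixedField ⟨g₁', g₂⟩` with the same `g₂`:
`L ⊄ E₁ ⊔ E₂` as soon as `g₂` is nontrivial on `L`. -/
theorem artin_fields_not_le_sup [Normal K L] (g₁ g₁' g₂ : Ω ≃ₐ[K] Ω)
    (h2 : AlgEquiv.restrictNormalHom L g₂ ≠ 1) :
    ¬ (IsScalarTower.toAlgHom K L Ω).fieldRange ≤
      IntermediateField.fixedField (Subgroup.closure ({g₁, g₂} : Set (Ω ≃ₐ[K] Ω))) ⊔
      IntermediateField.fixedField (Subgroup.closure ({g₁', g₂} : Set (Ω ≃ₐ[K] Ω))) := by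
  apply artin_fields_not_le _ g₂ _ h2
  rw [IntermediateField.fixingSubgroup_sup]
  exact ⟨(artin_fields_mem_fixingSubgroup g₁ g₂).2, (artin_fields_mem_fixingSubgroup g₁' g₂).2⟩

end Artin

end Fermat.Agent.S14x.AL
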