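import Mathlib
import Fermat.Agent.S14x.AL.H9_Fields

/-!
# S14, package AL, leaf [AL-4c]: the compositum `L F` as a type (helper9)

`K ⊆ L ⊆ Ω` (types, `[IsScalarTower K L Ω]`), `F : IntermediateField K Ω`.
`compositum K L Ω F : IntermediateField F Ω` is `F(L)`; as a TYPE it carries
`Algebra F _`, `Algebra K _`, `IsScalarTower K F _` (Mathlib instances) and
`Algebra L _`, `IsScalarTower K L _`, `IsScalarTower L _ Ω` (instances below), i.e. exactly the
instance list of `Asm.StFunct` for `(K, L, E, M) := (K, L, F, compositum K L Ω F)`.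

* `compositum_isGalois` : `F(L) / F` is Galois if `L / K` is normal and `Ω / K` is Galois;
* `compRes` : restriction `Gal(F(L)/F) →* Gal(L/K)`, `compRes_spec`, `compRes_injective`,
  `eq_one_of_fix` (an element of `Gal(F(L)/F)` fixing `L` is `1`), `compositum_comm`;
* `compositum_finrank` : `[F(L) : F] = p` if `[L : K] = p` is prime and `L ⊄ F`.
-/

set_option autoImplicit false
set_option linter.style.haveILetI false
set_option linter.unusedSectionVars false

open IntermediateField

noncomputable section

namespace Fermat.Agent.S14x.AL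

variable (K L Ω : Type*) [Field K] [Field L] [Field Ω] [Algebra K L] [Algebra K Ω] [Algebra L Ω]
  [IsScalarTower K L Ω]

/-- The compositum `F(L)` inside `Ω`, as an intermediate field of `Ω / F`. -/
def compositum (F : IntermediateField K Ω) : IntermediateField F Ω :=
  IntermediateField.adjoin F (Set.range (algebraMap L Ω))

variable {K L Ω}
variable (F : IntermediateField K Ω)

theorem algebraMap_mem_compositum (x : L) : algebraMap L Ω x ∈ compositum K L Ω F :=
  IntermediateField.subset_adjoin F _ ⟨x, rfl⟩

/-- `L → F(L)`. -/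
instance compositum.algebraL : Algebra L (compositum K L Ω F) :=
  RingHom.toAlgebra ((algebraMap L Ω).codRestrict (compositum K L Ω F)
    (algebraMap_mem_compositum F))

@[simp]
theorem compositum.coe_algebraMap (x : L) :
    ((algebraMap L (compositum K L Ω F) x : compositum K L Ω F) : Ω) = algebraMap L Ω x :=
  rfl

instance compositum.isScalarTower_L_Ω : IsScalarTower L (compositum K L Ω F) Ω :=
  IsScalarTower.of_algebraMap_eq fun _ => rfl

instance compositum.isScalarTower_K_L : IsScalarTower K L (compositum K L Ω F) :=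
  IsScalarTower.of_algebraMap_eq fun x => Subtype.ext (by
    change algebraMap K Ω x = algebraMap L Ω (algebraMap K L x)
    exact IsScalarTower.algebraMap_apply K L Ω x)

instance compositum.isScalarTower_K_Ω : IsScalarTower K (compositum K L Ω F) Ω :=
  IsScalarTower.of_algebraMap_eq fun _ => rfl

/-- The image of `L` lies in `F` iff the compositum is trivial. -/
theorem compositum_eq_bot_iff :
    compositum K L Ω F = ⊥ ↔ (IsScalarTower.toAlgHom K L Ω).fieldRange ≤ F := by
  constructor
  · intro h x hx
    obtain ⟨y, rfl⟩ := hx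
    have hy : algebraMap L Ω y ∈ compositum K L Ω F := algebraMap_mem_compositum F y
    rw [h, IntermediateField.mem_bot] at hy
    obtain ⟨z, hz⟩ := hy
    change algebraMap L Ω y ∈ F
    rw [← hz]
    exact z.2
  · intro h
    rw [compositum, IntermediateField.adjoin_eq_bot_iff]
    rintro _ ⟨y, rfl⟩
    have : algebraMap L Ω y ∈ F := h ⟨y, rfl⟩
    exact ⟨⟨_, this⟩, rfl⟩

section Galois

variable [Normal K L] [FiniteDimensional K Ω] [IsGalois K Ω]

/-- An `F`-automorphism of `Ω` maps the image of `L` into itself. -/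
theorem h9_map_range (σ : Ω ≃ₐ[F] Ω) (x : L) :
    σ (algebraMap L Ω x) ∈ Set.range (algebraMap L Ω) := by
  refine ⟨(σ.restrictScalars K).restrictNormal L x, ?_⟩
  exact AlgEquiv.restrictNormal_commutes (σ.restrictScalars K) L x

theorem compositum_isGalois : IsGalois F (compositum K L Ω F) := by
  haveI : IsGalois F Ω := IsGalois.tower_top_intermediateField F
  haveI : Algebra.IsSeparable F (compositum K L Ω F) :=
    Algebra.isSeparable_tower_bot_of_isSeparable F (compositum K L Ω F) Ω
  haveI : Normal F (compositum K L Ω F) := by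
    rw [IntermediateField.normal_iff_forall_map_le']
    intro σ
    rw [compositum, IntermediateField.adjoin_map, IntermediateField.adjoin_le_iff]
    rintro _ ⟨_, ⟨x, rfl⟩, rfl⟩
    exact IntermediateField.subset_adjoin F _ (h9_map_range F σ x)
  exact ⟨⟩

instance compositum.isGalois : IsGalois F (compositum K L Ω F) := compositum_isGalois F

/-- Restriction `Gal(F(L)/F) →* Gal(L/K)`. -/
def compRes : ((compositum K L Ω F) ≃ₐ[F] (compositum K L Ω F)) →* (L ≃ₐ[K] L) :=
  (AlgEquiv.restrictNormalHom L).comp (AlgEquiv.restrictScalarsHom K)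

theorem compRes_spec (σ : (compositum K L Ω F) ≃ₐ[F] (compositum K L Ω F)) (x : L) :
    algebraMap L (compositum K L Ω F) (compRes F σ x) =
      σ (algebraMap L (compositum K L Ω F) x) :=
  AlgEquiv.restrictNormal_commutes (σ.restrictScalars K) L x

/-- An element of `Gal(F(L)/F)` fixing `L` pointwise is trivial. -/
theorem eq_one_of_fix (σ : (compositum K L Ω F) ≃ₐ[F] (compositum K L Ω F))
    (h : ∀ x : L, σ (algebraMap L (compositum K L Ω F) x) =
      algebraMap L (compositum K L Ω F) x) : σ = 1 := by
  refine AlgEquiv.ext fun ⟨y, hy⟩ => ?_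
  change σ ⟨y, hy⟩ = ⟨y, hy⟩
  -- the fixed points of `σ` form an intermediate field of `Ω / F` containing the image of `L`
  let T : IntermediateField F Ω :=
    { carrier := {z | ∃ hz : z ∈ compositum K L Ω F, σ ⟨z, hz⟩ = ⟨z, hz⟩}
      mul_mem' := by
        rintro a b ⟨ha, ha'⟩ ⟨hb, hb'⟩
        refine ⟨mul_mem ha hb, ?_⟩
        have : (⟨a * b, mul_mem ha hb⟩ : compositum K L Ω F) = ⟨a, ha⟩ * ⟨b, hb⟩ := rfl
        rw [this, map_mul, ha', hb']
      one_mem' := ⟨one_mem _, map_one σ⟩
      add_mem' := by
        rintro a b ⟨ha, ha'⟩ ⟨hb, hb'⟩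
        refine ⟨add_mem ha hb, ?_⟩
        have : (⟨a + b, add_mem ha hb⟩ : compositum K L Ω F) = ⟨a, ha⟩ + ⟨b, hb⟩ := rfl
        rw [this, map_add, ha', hb']
      zero_mem' := ⟨zero_mem _, map_zero σ⟩
      algebraMap_mem' := fun r => ⟨IntermediateField.algebraMap_mem _ r, σ.commutes r⟩
      inv_mem' := by
        rintro a ⟨ha, ha'⟩
        refine ⟨inv_mem ha, ?_⟩
        have : (⟨a⁻¹, inv_mem ha⟩ : compositum K L Ω F) = (⟨a, ha⟩ : compositum K L Ω F)⁻¹ := rfl
        rw [this, map_inv₀, ha'] }
  have hT : compositum K L Ω F ≤ T := by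
    rw [compositum, IntermediateField.adjoin_le_iff]
    rintro _ ⟨x, rfl⟩
    exact ⟨algebraMap_mem_compositum F x, h x⟩
  obtain ⟨_, hy'⟩ := hT hy
  exact hy'

theorem compRes_injective : Function.Injective (compRes (K := K) (L := L) F) := by
  rw [injective_iff_map_eq_one]
  intro σ hσ
  apply eq_one_of_fix
  intro x
  rw [← compRes_spec, hσ]
  rfl

/-- `Gal(F(L)/F)` is commutative if `Gal(L/K)` is. -/
theorem compositum_comm (hC : ∀ a b : L ≃ₐ[K] L, a * b = b * a)
    (σ τ : (compositum K L Ω F) ≃ₐ[F] (compositum K L Ω F)) : σ * τ = τ * σ := by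
  apply compRes_injective F
  rw [map_mul, map_mul, hC]

/-- `[F(L) : F] = p` if `[L : K] = p` is prime and `L ⊄ F`. -/
theorem compositum_finrank [FiniteDimensional K L] [IsGalois K L] {p : ℕ} (hp : p.Prime)
    (hdeg : Module.finrank K L = p)
    (hL : ¬ (IsScalarTower.toAlgHom K L Ω).fieldRange ≤ F) :
    Module.finrank F (compositum K L Ω F) = p := by
  have hcard : Nat.card (L ≃ₐ[K] L) = p := by rw [IsGalois.card_aut_eq_finrank, hdeg]
  have hcard' : Nat.card ((compositum K L Ω F) ≃ₐ[F] (compositum K L Ω F)) =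
      Module.finrank F (compositum K L Ω F) := IsGalois.card_aut_eq_finrank F _
  have hdvd : Nat.card ((compositum K L Ω F) ≃ₐ[F] (compositum K L Ω F)) ∣ p := by
    rw [← hcard]
    exact Subgroup.card_dvd_of_injective (compRes F) (compRes_injective F)
  rw [hcard'] at hdvd
  rcases (Nat.dvd_prime hp).mp hdvd with h | h
  · exfalso
    apply hL
    rw [← compositum_eq_bot_iff]
    exact IntermediateField.finrank_eq_one_iff.mp h
  · exact h

end Galois

end Fermat.Agent.S14x.AL
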