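import Mathlib
import Fermat.Agent.S14x.AL.H20_Leaves
import Fermat.Agent.S14x.AL.H9_Compositum
import Fermat.Agent.S14x.Art.H10_FrobFunct
import Fermat.Agent.S14x.LFN.H6_Nrm

/-!
# S14 / AL leaf [F6] (helper7): the reference ideal

`stRef : StRef` (verbatim `AL/H20_Leaves.lean`).  For `H ≤ Gal(F/K)` with `H|_L = Gal(L/K)`,
`E := F^H`, `M := L E`: `M/E` is Galois of degree `p`; `StDgen` gives a prime `𝔮` of `E` of
absolute degree one, prime to `m`, and a nontrivial Frobenius `σ` at a prime `P` of `M` above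
`𝔮`.  The restriction of `σ` to `L` is the Frobenius of `𝔭 = 𝔮 ∩ 𝓞 K = N_{E/K} 𝔮`, so
`Φ (N_{E/K} 𝔮) ≠ 1`.
-/

set_option autoImplicit false
set_option linter.style.haveILetI false
set_option linter.unusedSectionVars false

open NumberField IsDedekindDomain

noncomputable section

namespace Fermat.Agent.S14x.AL.H7

open Fermat.Agent.S14x.Asm Fermat.Agent.S14x.AL

section Setup

variable {K L F : Type} [Field K] [NumberField K] [Field L] [NumberField L] [Field F]
  [NumberField F] [Algebra K L] [Algebra L F] [Algebra K F] [IsScalarTower K L F]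
  [IsGalois K L] [IsGalois K F]

/-- if `H` restricts onto `Gal(L/K) ≠ 1`, then `L ⊄ F^H`. -/
theorem h7_not_le (p : ℕ) (hp : p.Prime) (hdeg : Module.finrank K L = p)
    (H : Subgroup (F ≃ₐ[K] F))
    (hH : ∀ ρ : L ≃ₐ[K] L, ∃ g ∈ H, RestrictsTo K L F g ρ) :
    ¬ (IsScalarTower.toAlgHom K L F).fieldRange ≤ IntermediateField.fixedField H := by
  intro hle
  have hcard : Nat.card (L ≃ₐ[K] L) = p := by rw [IsGalois.card_aut_eq_finrank, hdeg]
  have hone : ∀ ρ : L ≃ₐ[K] L, ρ = 1 := by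
    intro ρ
    obtain ⟨g, hg, hgρ⟩ := hH ρ
    ext x
    have hx : algebraMap L F x ∈ IntermediateField.fixedField H := hle ⟨x, rfl⟩
    have h1 : g (algebraMap L F x) = algebraMap L F x := by
      have := (IntermediateField.mem_fixedField_iff H (algebraMap L F x)).mp hx g hg
      exact this
    have h2 := hgρ x
    rw [h1] at h2
    exact ((algebraMap L F).injective h2).symm
  have hsub : Subsingleton (L ≃ₐ[K] L) := ⟨fun a b => (hone a).trans (hone b).symm⟩
  have : Nat.card (L ≃ₐ[K] L) = 1 := Nat.card_unique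
  rw [hcard] at this
  exact hp.one_lt.ne' this

end Setup

/-- **[F6]** verbatim `AL.StRef`. -/
theorem stRef : StRef := by
  intro hDgen p K L F _ _ _ _ _ _ _ _ _ _ _ _ m _ hp hdeg hUnr _hC H hH Φ hΦ
  classical
  -- the fields `E = F^H` and `M = L E`
  let E : IntermediateField K F := IntermediateField.fixedField H
  let M : IntermediateField E F := compositum K L F E
  have hfin : Module.finrank E M = p :=
    compositum_finrank E hp hdeg (h7_not_le p hp hdeg H hH)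
  have hm0 : Ideal.span {(m : 𝓞 E)} ≠ ⊥ := by
    rw [Ne, Ideal.span_singleton_eq_bot]
    exact_mod_cast NeZero.ne m
  obtain ⟨𝔮, q, P, σ, h𝔮, hq, hcard, hcop, hP, hPu, hσ, hσ1⟩ :=
    hDgen E M (by rw [hfin]; exact hp.one_lt) (Ideal.span {(m : 𝓞 E)}) hm0
  refine ⟨𝔮, h𝔮, by rw [hcard]; exact hq, ?_, ?_⟩
  · -- `m ∉ 𝔮`
    intro hm
    have hle : Ideal.span {(m : 𝓞 E)} ≤ 𝔮 := (Ideal.span_singleton_le_iff_mem _).mpr hm
    rw [sup_eq_left.mpr hle] at hcop
    exact h𝔮.ne_top hcop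
  · -- `Φ (N 𝔮) ≠ 1`
    have habs𝔮 : Ideal.absNorm 𝔮 = q := by
      rw [← hcard, Ideal.absNorm_apply, Submodule.cardQuot_apply]
    have h𝔮0 : 𝔮 ≠ ⊥ := by
      intro h0
      rw [h0, Ideal.absNorm_bot] at habs𝔮
      exact hq.ne_zero habs𝔮.symm
    let 𝔔 : HeightOneSpectrum (𝓞 E) := ⟨𝔮, h𝔮, h𝔮0⟩
    have h𝔔 : 𝔔 ∈ LFN.degOne E := by
      show (Ideal.absNorm 𝔮).Prime
      rw [habs𝔮]; exact hq
    obtain ⟨𝔭, _h𝔭deg, hunder, habs, hrel⟩ := (LFN.H6.stNRM K E).1 𝔔 h𝔔
    have hunder' : 𝔮.under (𝓞 K) = 𝔭.asIdeal := hunder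
    have hrel' : Ideal.relNorm (𝓞 K) 𝔮 = 𝔭.asIdeal := hrel
    have hcard𝔭 : Nat.card (𝓞 K ⧸ 𝔭.asIdeal) = q := by
      have : Ideal.absNorm 𝔭.asIdeal = Ideal.absNorm 𝔮 := habs
      rw [habs𝔮, Ideal.absNorm_apply, Submodule.cardQuot_apply] at this
      exact this
    rw [hrel']
    intro h1
    have hfrob : IsFrobAt K L 𝔭.asIdeal (Φ 𝔭.asIdeal) :=
      hΦ.frob 𝔭.asIdeal 𝔭.isPrime 𝔭.ne_bot (by simp)
    -- the prime of `L` below `P`
    have hPLK : (P.under (𝓞 L)).under (𝓞 K) = 𝔭.asIdeal := by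
      rw [Ideal.under_under, ← hunder', ← hPu, Ideal.under_under]
    have hPL0 : P.under (𝓞 L) ≠ ⊥ := by
      intro h0
      rw [h0] at hPLK
      apply 𝔭.ne_bot
      rw [← hPLK]
      exact Ideal.under_bot _ _
    have hTriv : Art.H10.TrivInertia K (P.under (𝓞 L)) := fun g hg =>
      hUnr (P.under (𝓞 L)) inferInstance hPL0 g hg
    have hres : Art.H10.h10_resBC K L σ = Φ 𝔭.asIdeal := by
      apply Art.H10.h10_eq_of_forall_sub_mem hTriv
      intro x
      have h2 := Art.H10.h10_baseChange_sub_mem (K := K) (L := L) hσ x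
      rw [hPu, hcard] at h2
      have h3 : Φ 𝔭.asIdeal • x - x ^ q ∈ P.under (𝓞 L) := by
        have := hfrob x
        rw [hcard𝔭] at this
        have hle : 𝔭.asIdeal.map (algebraMap (𝓞 K) (𝓞 L)) ≤ P.under (𝓞 L) := by
          rw [Ideal.map_le_iff_le_comap, ← Ideal.under_def, hPLK]
        exact hle this
      have h4 : (Art.H10.h10_resBC K L σ) • x - Φ 𝔭.asIdeal • x =
          ((Art.H10.h10_resBC K L σ) • x - x ^ q) - (Φ 𝔭.asIdeal • x - x ^ q) := by ring
      rw [h4]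
      exact (P.under (𝓞 L)).sub_mem h2 h3
    apply hσ1
    apply compRes_injective E
    rw [map_one]
    show Art.H10.h10_resBC K L σ = 1
    rw [hres, h1]

end Fermat.Agent.S14x.AL.H7
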