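import Mathlib

/-!
# S14, package AL, leaf [AL-4a]: the cyclotomic side of Artin's lemma (helper8)

`K = ℚ(ζ_p)`, `L/K` Galois, `L/ℚ` Galois, with the TWIST of `Asm.StNoExt`
(`τ ζ = ζ ^ s ⟹ σ τ = τ σ ^ s`), `p ≥ 3`; `m` prime to `p`, `F = L(ζ_m)`.

* `mem_range_of_commute` : an element of `L` on which `Gal(L/ℚ)` acts commutatively lies in `K`
  (the maximal abelian subextension of `L/ℚ` is `K`).
* `irreducible_cyclotomic` : `Φ_m` is irreducible over `L` (i.e. `L ∩ ℚ(ζ_m) = ℚ`).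
* `exists_aut` : every pair `(σ, t) ∈ Gal(L/K) × (ℤ/m)ˣ` is induced by some `g ∈ Gal(F/K)`.

Mathlib only.
-/

set_option autoImplicit false
set_option linter.style.haveILetI false
set_option linter.unusedSectionVars false
set_option linter.unusedVariables false

namespace Fermat.Agent.S14x.AL.H8C

open NumberField Polynomial IntermediateField

/-- The twist hypothesis of `Asm.StNoExt` (verbatim). -/
def Twist (p : ℕ) (K L : Type*) [Field K] [Field L] [Algebra K L] [CharZero L] : Prop :=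
  ∀ (ζ : L) (τ : L ≃ₐ[ℚ] L) (s : ℕ), IsPrimitiveRoot ζ p → τ ζ = ζ ^ s →
    ∀ (σ : L ≃ₐ[K] L) (x : L), σ (τ x) = τ ((σ ^ s) x)

section Step1

variable {p : ℕ} [Fact p.Prime] (K L : Type*) [Field K] [NumberField K] [Field L] [NumberField L]
  [Algebra K L] [IsCyclotomicExtension {p} ℚ K] [IsGalois ℚ L]

/-- For every unit `t` mod `p` there is `τ ∈ Gal(L/ℚ)` raising the `p`-th roots of unity of `K`
to the power `t`. -/
theorem exists_aut_pow (t : (ZMod p)ˣ) :
    ∃ τ : L ≃ₐ[ℚ] L, ∀ ζ : K, ζ ^ p = 1 →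
      τ (algebraMap K L ζ) = (algebraMap K L ζ) ^ (t : ZMod p).val := by
  haveI : NeZero p := ⟨(Fact.out : p.Prime).ne_zero⟩
  let τ₀ : K ≃ₐ[ℚ] K := (IsCyclotomicExtension.Rat.galEquivZMod p K).symm t
  refine ⟨τ₀.liftNormal L, fun ζ hζ => ?_⟩
  rw [AlgEquiv.liftNormal_commutes, IsCyclotomicExtension.Rat.galEquivZMod_apply_of_pow_eq p K τ₀ hζ,
    map_pow]
  simp only [τ₀, MulEquiv.apply_symm_apply]

/-- There are a primitive `p`-th root of unity `ζ ∈ K` and `τ ∈ Gal(L/ℚ)` with `τ ζ = ζ ^ 2`. -/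
theorem exists_aut_sq (hp3 : 3 ≤ p) :
    ∃ (ζ : K) (τ : L ≃ₐ[ℚ] L), IsPrimitiveRoot ζ p ∧
      τ (algebraMap K L ζ) = (algebraMap K L ζ) ^ 2 := by
  have hp : p.Prime := Fact.out
  haveI : NeZero p := ⟨hp.ne_zero⟩
  have hcop : Nat.Coprime 2 p := by
    rw [Nat.coprime_primes Nat.prime_two hp]
    omega
  obtain ⟨τ, hτ⟩ := exists_aut_pow K L (ZMod.unitOfCoprime 2 hcop)
  have hζ₀ := IsCyclotomicExtension.zeta_spec p ℚ K
  refine ⟨IsCyclotomicExtension.zeta p ℚ K, τ, hζ₀, ?_⟩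
  rw [hτ _ hζ₀.pow_eq_one]
  congr 1
  rw [ZMod.coe_unitOfCoprime]
  haveI : Fact (2 < p) := ⟨by omega⟩
  have h2 : ((2 : ℕ) : ZMod p) = 2 := by norm_num
  rw [h2, ZMod.val_two_eq_two_mod, Nat.mod_eq_of_lt (by omega : 2 < p)]

variable [IsGalois K L]

/-- **The maximal abelian subextension of `L/ℚ` is `K`**: an element of `L` on which any two
elements of `Gal(L/ℚ)` commute lies in `K`. -/
theorem mem_range_of_commute (hp3 : 3 ≤ p) (htw : Twist p K L) (x : L)
    (hx : ∀ g h : L ≃ₐ[ℚ] L, g (h x) = h (g x)) : x ∈ Set.range (algebraMap K L) := by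
  obtain ⟨ζ, τ, hζ, hτ⟩ := exists_aut_sq K L hp3
  rw [IsGalois.mem_range_algebraMap_iff_fixed]
  intro σ
  have h1 := htw (algebraMap K L ζ) τ 2 (hζ.map_of_injective (algebraMap K L).injective) hτ σ x
  have h2 := hx (σ.restrictScalars ℚ) τ
  rw [AlgEquiv.restrictScalars_apply, AlgEquiv.restrictScalars_apply] at h2
  rw [h2] at h1
  have h3 : σ x = (σ ^ 2) x := τ.injective h1
  rw [pow_two, AlgEquiv.mul_apply] at h3
  exact (σ.injective h3).symm

end Step1

section Step2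

/-- `F = L(ζ_m)` is normal over `ℚ` when `L` is. -/
theorem normal_rat (L F : Type*) [Field L] [NumberField L] [Field F] [NumberField F]
    [Algebra L F] [IsGalois ℚ L] (m : ℕ) [NeZero m] [IsCyclotomicExtension {m} L F] :
    Normal ℚ F := by
  obtain ⟨f, hfsep, hf⟩ := IsGalois.is_separable_splitting_field ℚ L
  haveI := hf
  have hf0 : f ≠ 0 := hfsep.ne_zero
  haveI : IsSplittingField L F ((cyclotomic m ℚ).map (algebraMap ℚ L)) := by
    rw [map_cyclotomic]
    exact IsCyclotomicExtension.splitting_field_cyclotomic m L F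
  haveI := IsSplittingField.mul (K := L) (L := F) f (cyclotomic m ℚ) hf0 (cyclotomic_ne_zero m ℚ)
  exact Normal.of_isSplittingField (f * cyclotomic m ℚ)

/-- `F = L(ζ_m)` is Galois over `ℚ` when `L` is. -/
theorem isGalois_rat (L F : Type*) [Field L] [NumberField L] [Field F] [NumberField F]
    [Algebra L F] [IsGalois ℚ L] (m : ℕ) [NeZero m] [IsCyclotomicExtension {m} L F] :
    IsGalois ℚ F := by
  haveI := normal_rat L F m
  exact IsGalois.mk

/-- Any two automorphisms of `F` over `ℚ` commute on `ℚ(ζ)`, `ζ` an `m`-th root of unity. -/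
theorem commute_on_adjoin {F : Type*} [Field F] [CharZero F] {m : ℕ} [NeZero m] {ζ : F}
    (hζ : IsPrimitiveRoot ζ m) (g h : F ≃ₐ[ℚ] F) (y : F)
    (hy : y ∈ ℚ⟮ζ⟯) : g (h y) = h (g y) := by
  have hζm : ζ ^ m = 1 := hζ.pow_eq_one
  obtain ⟨a, -, ha⟩ := hζ.eq_pow_of_pow_eq_one (ξ := g ζ) (by rw [← map_pow, hζm, map_one])
  obtain ⟨b, -, hb⟩ := hζ.eq_pow_of_pow_eq_one (ξ := h ζ) (by rw [← map_pow, hζm, map_one])
  have hgen : g (h ζ) = h (g ζ) := by
    rw [← ha, ← hb, map_pow, map_pow, ← ha, ← hb, ← pow_mul, ← pow_mul, mul_comm]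
  have hint : IsIntegral ℚ ζ := (hζ.isIntegral (NeZero.pos m)).tower_top
  have hle : Algebra.adjoin ℚ {ζ} ≤
      AlgHom.equalizer ((g : F →ₐ[ℚ] F).comp (h : F →ₐ[ℚ] F))
        ((h : F →ₐ[ℚ] F).comp (g : F →ₐ[ℚ] F)) := by
    rw [Algebra.adjoin_le_iff]
    intro z hz
    rw [Set.mem_singleton_iff] at hz
    subst hz
    exact hgen
  have hy' : y ∈ Algebra.adjoin ℚ {ζ} := by
    rw [← IntermediateField.adjoin_simple_toSubalgebra_of_isAlgebraic hint.isAlgebraic]
    exact hy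
  exact hle hy'

/-- An element of `L` whose image in `F = L(ζ_m)` lies in `ℚ(ζ_m)` is acted upon commutatively
by `Gal(L/ℚ)`. -/
theorem commute_of_mem (L F : Type*) [Field L] [NumberField L] [Field F] [NumberField F]
    [Algebra L F] [IsGalois ℚ L] (m : ℕ) [NeZero m] [IsCyclotomicExtension {m} L F] {ζ : F}
    (hζ : IsPrimitiveRoot ζ m) (x : L) (hx : algebraMap L F x ∈ ℚ⟮ζ⟯) (g h : L ≃ₐ[ℚ] L) :
    g (h x) = h (g x) := by
  haveI := normal_rat L F m
  have h1 := commute_on_adjoin hζ (g.liftNormal F) (h.liftNormal F) _ hx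
  rw [AlgEquiv.liftNormal_commutes, AlgEquiv.liftNormal_commutes, AlgEquiv.liftNormal_commutes,
    AlgEquiv.liftNormal_commutes] at h1
  exact (algebraMap L F).injective h1

end Step2

section Step3

open Module

/-- `k(ζ_{n₁}) ∩ k(ζ_{n₂}) = k` for coprime `n₁`, `n₂`, when the cyclotomic polynomials are
irreducible over `k` (generic base field, to avoid instance diamonds over `ℚ`). -/
theorem adjoin_inf_adjoin_eq_bot_aux {k F : Type*} [Field k] [Field F] [Algebra k F]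
    [Algebra.IsIntegral k F] {n₁ n₂ : ℕ} [NeZero n₁]
    [NeZero n₂] (hcop : n₁.Coprime n₂) (hi₁ : Irreducible (cyclotomic n₁ k))
    (hi₂ : Irreducible (cyclotomic n₂ k)) (hi₃ : Irreducible (cyclotomic (n₁ * n₂) k))
    {ζ₁ ζ₂ : F} (h₁ : IsPrimitiveRoot ζ₁ n₁)
    (h₂ : IsPrimitiveRoot ζ₂ n₂) : k⟮ζ₁⟯ ⊓ k⟮ζ₂⟯ = ⊥ := by
  haveI := h₁.intermediateField_adjoin_isCyclotomicExtension k
  haveI := h₂.intermediateField_adjoin_isCyclotomicExtension k
  haveI : NeZero (n₁ * n₂) := ⟨mul_ne_zero (NeZero.ne n₁) (NeZero.ne n₂)⟩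
  have hξ : IsPrimitiveRoot (ζ₁ * ζ₂) (n₁ * n₂) := by
    have ho₁ := h₁.eq_orderOf
    have ho₂ := h₂.eq_orderOf
    have h := (Commute.all ζ₁ ζ₂).orderOf_mul_eq_mul_orderOf_of_coprime (by rwa [← ho₁, ← ho₂])
    have := IsPrimitiveRoot.orderOf (ζ₁ * ζ₂)
    rwa [h, ← ho₁, ← ho₂] at this
  haveI := hξ.intermediateField_adjoin_isCyclotomicExtension k
  have f₁ : finrank k k⟮ζ₁⟯ = n₁.totient := IsCyclotomicExtension.finrank k⟮ζ₁⟯ hi₁
  have f₂ : finrank k k⟮ζ₂⟯ = n₂.totient := IsCyclotomicExtension.finrank k⟮ζ₂⟯ hi₂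
  have f₃ : finrank k k⟮ζ₁ * ζ₂⟯ = (n₁ * n₂).totient :=
    IsCyclotomicExtension.finrank k⟮ζ₁ * ζ₂⟯ hi₃
  haveI : FiniteDimensional k k⟮ζ₁⟯ := IsCyclotomicExtension.finiteDimensional {n₁} k _
  haveI : FiniteDimensional k k⟮ζ₂⟯ := IsCyclotomicExtension.finiteDimensional {n₂} k _
  have hle : k⟮ζ₁ * ζ₂⟯ ≤ k⟮ζ₁⟯ ⊔ k⟮ζ₂⟯ := by
    rw [adjoin_simple_le_iff]
    exact mul_mem ((le_sup_left : k⟮ζ₁⟯ ≤ k⟮ζ₁⟯ ⊔ k⟮ζ₂⟯) (mem_adjoin_simple_self k ζ₁))
      ((le_sup_right : k⟮ζ₂⟯ ≤ k⟮ζ₁⟯ ⊔ k⟮ζ₂⟯) (mem_adjoin_simple_self k ζ₂))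
  have h3 : finrank k ↥(k⟮ζ₁⟯ ⊔ k⟮ζ₂⟯) = finrank k k⟮ζ₁⟯ * finrank k k⟮ζ₂⟯ := by
    refine le_antisymm (finrank_sup_le _ _) ?_
    rw [f₁, f₂, ← Nat.totient_mul hcop, ← f₃]
    exact finrank_le_of_le_right hle
  exact (LinearDisjoint.of_finrank_sup h3).inf_eq_bot

/-- `ℚ(ζ_{n₁}) ∩ ℚ(ζ_{n₂}) = ℚ` for coprime `n₁`, `n₂` (inside any number field). -/
theorem adjoin_inf_adjoin_eq_bot {F : Type*} [Field F] [NumberField F] {n₁ n₂ : ℕ} [NeZero n₁]
    [NeZero n₂] (hcop : n₁.Coprime n₂) {ζ₁ ζ₂ : F} (h₁ : IsPrimitiveRoot ζ₁ n₁)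
    (h₂ : IsPrimitiveRoot ζ₂ n₂) : ℚ⟮ζ₁⟯ ⊓ ℚ⟮ζ₂⟯ = ⊥ :=
  adjoin_inf_adjoin_eq_bot_aux hcop (cyclotomic.irreducible_rat (NeZero.pos n₁))
    (cyclotomic.irreducible_rat (NeZero.pos n₂))
    (cyclotomic.irreducible_rat (Nat.mul_pos (NeZero.pos n₁) (NeZero.pos n₂))) h₁ h₂

/-- The image of `K = ℚ(ζ₀)` in `F` lies in `ℚ(ζ₀)`. -/
theorem algebraMap_mem_adjoin {K F : Type*} [Field K] [NumberField K] [Field F] [NumberField F]
    [Algebra K F] {n : ℕ} [NeZero n] [IsCyclotomicExtension {n} ℚ K] {ζ₀ : K}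
    (hζ₀ : IsPrimitiveRoot ζ₀ n) (x : K) : algebraMap K F x ∈ ℚ⟮algebraMap K F ζ₀⟯ := by
  have htop := IsCyclotomicExtension.adjoin_primitive_root_eq_top (A := ℚ) hζ₀
  have hx : x ∈ Algebra.adjoin ℚ {ζ₀} := by rw [htop]; exact Algebra.mem_top
  have hmap : (IsScalarTower.toAlgHom ℚ K F) x ∈
      (Algebra.adjoin ℚ {ζ₀}).map (IsScalarTower.toAlgHom ℚ K F) :=
    Subalgebra.mem_map.mpr ⟨x, hx, rfl⟩
  rw [AlgHom.map_adjoin, Set.image_singleton] at hmap
  exact IntermediateField.algebra_adjoin_le_adjoin ℚ _ hmap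

/-- Generic degree argument: if `k(ζ_m) ∩ L = k` inside `F = L(ζ_m)` and `Φ_m` is irreducible over
`k`, then `Φ_m` is irreducible over `L`. -/
theorem irreducible_of_inf_eq_bot {k L F : Type*} [Field k] [Field L] [Field F] [Algebra k L]
    [Algebra L F] [Algebra k F] [IsScalarTower k L F] [FiniteDimensional k F]
    {m : ℕ} [NeZero m] [IsCyclotomicExtension {m} L F] (hirr : Irreducible (cyclotomic m k))
    {ζ : F} (hζ : IsPrimitiveRoot ζ m)
    (hbot : k⟮ζ⟯ ⊓ (IsScalarTower.toAlgHom k L F).fieldRange = ⊥) :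
    Irreducible (cyclotomic m L) := by
  haveI := hζ.intermediateField_adjoin_isCyclotomicExtension k
  haveI : IsGalois k k⟮ζ⟯ := IsCyclotomicExtension.isGalois {m} k k⟮ζ⟯
  have hld : k⟮ζ⟯.LinearDisjoint ↥(IsScalarTower.toAlgHom k L F).fieldRange :=
    LinearDisjoint.of_inf_eq_bot hbot
  have hld' : k⟮ζ⟯.LinearDisjoint L := by
    rw [linearDisjoint_iff', AlgHom.fieldRange_toSubalgebra] at hld
    exact hld
  have hrank := hld'.adjoin_rank_eq_rank_left_of_isAlgebraic (.inl inferInstance)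
  have htop : adjoin L (k⟮ζ⟯ : Set F) = ⊤ := by
    have h1 : adjoin L ({ζ} : Set F) = ⊤ :=
      IntermediateField.adjoin_eq_top_of_algebra L _
        (IsCyclotomicExtension.adjoin_primitive_root_eq_top hζ)
    rw [eq_top_iff, ← h1]
    apply IntermediateField.adjoin.mono
    intro z hz
    rw [Set.mem_singleton_iff] at hz
    subst hz
    exact mem_adjoin_simple_self k z
  rw [htop, rank_top'] at hrank
  have hfin : finrank L F = m.totient := by
    have h2 : finrank L F = finrank k k⟮ζ⟯ := by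
      unfold finrank
      rw [hrank]
    rw [h2]
    exact IsCyclotomicExtension.finrank k⟮ζ⟯ hirr
  have hint : IsIntegral L ζ := (hζ.isIntegral (NeZero.pos m)).tower_top
  have hmin : minpoly L ζ = cyclotomic m L := by
    have hroot : aeval ζ (cyclotomic m L) = 0 := by
      have := hζ.isRoot_cyclotomic (NeZero.pos m)
      rw [IsRoot.def, ← map_cyclotomic m (algebraMap L F), eval_map, ← aeval_def] at this
      exact this
    have hdvd : minpoly L ζ ∣ cyclotomic m L := minpoly.dvd L ζ hroot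
    have hdeg : (minpoly L ζ).natDegree = m.totient := by
      rw [← IsPrimitiveRoot.powerBasis_dim L hζ, ← PowerBasis.finrank, hfin]
    exact (eq_of_monic_of_dvd_of_natDegree_le (minpoly.monic hint) (cyclotomic.monic m L) hdvd
      (by rw [hdeg, natDegree_cyclotomic])).symm
  rw [← hmin]
  exact minpoly.irreducible hint

end Step3

section Step4

/-- `ℚ(ζ_m) ∩ L = ℚ` inside `F = L(ζ_m)`: the twist forces every abelian subfield of `L` into
`K = ℚ(ζ_p)`, and `ℚ(ζ_p) ∩ ℚ(ζ_m) = ℚ`. -/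
theorem adjoin_inf_range_eq_bot {p : ℕ} [Fact p.Prime] (K L F : Type*) [Field K] [NumberField K]
    [Field L] [NumberField L] [Field F] [NumberField F] [Algebra K L] [Algebra L F] [Algebra K F]
    [IsScalarTower K L F] [IsCyclotomicExtension {p} ℚ K] [IsGalois ℚ L] [IsGalois K L] (m : ℕ)
    [NeZero m] [IsCyclotomicExtension {m} L F] (hp3 : 3 ≤ p) (hmp : m.Coprime p)
    (htw : Twist p K L) {ζ : F} (hζ : IsPrimitiveRoot ζ m) :
    ℚ⟮ζ⟯ ⊓ (IsScalarTower.toAlgHom ℚ L F).fieldRange = ⊥ := by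
  haveI : NeZero p := ⟨(Fact.out : p.Prime).ne_zero⟩
  rw [eq_bot_iff]
  rintro y ⟨hy1, hy2⟩
  obtain ⟨x, rfl⟩ := hy2
  have hy1' : algebraMap L F x ∈ ℚ⟮ζ⟯ := hy1
  have hx : x ∈ Set.range (algebraMap K L) :=
    mem_range_of_commute K L hp3 htw x (fun g h => commute_of_mem L F m hζ x hy1' g h)
  obtain ⟨x₀, rfl⟩ := hx
  have hζ₀ := IsCyclotomicExtension.zeta_spec p ℚ K
  have hmem : algebraMap K F x₀ ∈ ℚ⟮algebraMap K F (IsCyclotomicExtension.zeta p ℚ K)⟯ :=
    algebraMap_mem_adjoin hζ₀ x₀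
  have heq : algebraMap L F (algebraMap K L x₀) = algebraMap K F x₀ :=
    (IsScalarTower.algebraMap_apply K L F x₀).symm
  have hbot := adjoin_inf_adjoin_eq_bot hmp hζ
    (hζ₀.map_of_injective (algebraMap K F).injective)
  rw [← hbot]
  refine ⟨hy1, ?_⟩
  change algebraMap L F (algebraMap K L x₀) ∈ _
  rw [heq]
  exact hmem

/-- **[AL-4a]** `Φ_m` is irreducible over `L` (`m` prime to `p`): `[L(ζ_m) : L] = φ(m)`. -/
theorem irreducible_cyclotomic {p : ℕ} [Fact p.Prime] (K L : Type*) [Field K] [NumberField K]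
    [Field L] [NumberField L] [Algebra K L]
    [IsCyclotomicExtension {p} ℚ K] [IsGalois ℚ L] [IsGalois K L] (m : ℕ)
    [NeZero m] (hp3 : 3 ≤ p) (hmp : m.Coprime p)
    (htw : Twist p K L) : Irreducible (cyclotomic m L) := by
  let F := CyclotomicField m L
  haveI : NumberField F := IsCyclotomicExtension.numberField {m} L F
  have hζ := IsCyclotomicExtension.zeta_spec m L F
  exact irreducible_of_inf_eq_bot (cyclotomic.irreducible_rat (NeZero.pos m)) hζ
    (adjoin_inf_range_eq_bot K L F m hp3 hmp htw hζ)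

end Step4



section Step5

/-- `F = L(ζ_m)` is Galois over `K` when `L/ℚ` is Galois. -/
theorem isGalois_base (K L F : Type*) [Field K] [NumberField K] [Field L] [NumberField L]
    [Field F] [NumberField F] [Algebra K L] [Algebra L F] [Algebra K F] [IsScalarTower K L F]
    [IsGalois ℚ L] (m : ℕ) [NeZero m] [IsCyclotomicExtension {m} L F] : IsGalois K F := by
  haveI := isGalois_rat L F m
  exact IsGalois.tower_top_of_isGalois ℚ K F

/-- Powers of an `m`-th root of unity depend only on the exponent modulo `m`. -/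
lemma pow_eq_pow_of_cast_eq {F : Type*} [Monoid F] {m : ℕ} {ξ : F} (hξ : ξ ^ m = 1) {a b : ℕ}
    (h : (a : ZMod m) = (b : ZMod m)) : ξ ^ a = ξ ^ b := by
  have hmod : a % m = b % m := (ZMod.natCast_eq_natCast_iff' a b m).mp h
  have key : ∀ c : ℕ, ξ ^ c = ξ ^ (c % m) := by
    intro c
    conv_lhs => rw [← Nat.div_add_mod c m]
    rw [pow_add, pow_mul, hξ, one_pow, one_mul]
  rw [key a, key b, hmod]

/-- **Joint injectivity**: an automorphism of `F = L(ζ_m)` over `K` which is trivial on `L` and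
fixes a primitive `m`-th root of unity is trivial. -/
theorem eq_one_of_restrict {K L F : Type*} [Field K] [Field L] [Field F] [Algebra K L]
    [Algebra L F] [Algebra K F] [IsScalarTower K L F] {m : ℕ} [NeZero m]
    [IsCyclotomicExtension {m} L F] {ζ : F} (hζ : IsPrimitiveRoot ζ m) (g : F ≃ₐ[K] F)
    (h1 : ∀ x : L, g (algebraMap L F x) = algebraMap L F x) (h2 : g ζ = ζ) : g = 1 := by
  let gL : F →ₐ[L] F := { (g : F →+* F) with commutes' := h1 }
  have hgL : gL = AlgHom.id L F := by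
    apply (hζ.powerBasis L).algHom_ext
    rw [IsPrimitiveRoot.powerBasis_gen]
    exact h2
  ext y
  have : gL y = y := by rw [hgL]; rfl
  exact this

/-- **Joint surjectivity**: if `Φ_m` is irreducible over `L` and `F = L(ζ_m)` is normal over `K`,
every pair `(σ, t) ∈ Gal(L/K) × (ℤ/m)ˣ` is induced by an automorphism of `F` over `K`. -/
theorem exists_aut_of_irreducible {K L F : Type*} [Field K] [Field L] [Field F] [Algebra K L]
    [Algebra L F] [Algebra K F] [IsScalarTower K L F] [Normal K F] {m : ℕ} [NeZero m]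
    [IsCyclotomicExtension {m} L F] (hirr : Irreducible (cyclotomic m L))
    (σ : L ≃ₐ[K] L) (t : (ZMod m)ˣ) :
    ∃ g : F ≃ₐ[K] F, (∀ x : L, g (algebraMap L F x) = algebraMap L F (σ x)) ∧
      ∀ ξ : F, ξ ^ m = 1 → g ξ = ξ ^ (t : ZMod m).val := by
  have hζ := IsCyclotomicExtension.zeta_spec m L F
  set ζ := IsCyclotomicExtension.zeta m L F with hζdef
  have hζm : ζ ^ m = 1 := hζ.pow_eq_one
  let g₀ : F ≃ₐ[K] F := σ.liftNormal F
  obtain ⟨a, -, ha⟩ := hζ.eq_pow_of_pow_eq_one (ξ := g₀ ζ) (by rw [← map_pow, hζm, map_one])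
  -- `a` is a unit mod `m`
  have hprim : IsPrimitiveRoot (g₀ ζ) m := hζ.map_of_injective g₀.injective
  have hacop : Nat.Coprime a m := by
    rw [← ha] at hprim
    exact (hζ.pow_iff_coprime (NeZero.pos m) a).mp hprim
  let t₀ : (ZMod m)ˣ := ZMod.unitOfCoprime a hacop
  let h : F ≃ₐ[L] F := (IsCyclotomicExtension.autEquivPow F hirr).symm (t * t₀⁻¹)
  have hh : h ζ = ζ ^ ((t * t₀⁻¹ : (ZMod m)ˣ) : ZMod m).val := by
    have h3 := hζ.autToPow_spec L h
    have h4 : hζ.autToPow L h = t * t₀⁻¹ :=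
      (IsCyclotomicExtension.autEquivPow F hirr).apply_symm_apply (t * t₀⁻¹)
    rw [h4] at h3
    exact h3.symm
  let g : F ≃ₐ[K] F := (h.restrictScalars K) * g₀
  have hgL : ∀ x : L, g (algebraMap L F x) = algebraMap L F (σ x) := by
    intro x
    change h (g₀ (algebraMap L F x)) = _
    rw [AlgEquiv.liftNormal_commutes, h.commutes]
  have hgζ : g ζ = ζ ^ (t : ZMod m).val := by
    change h (g₀ ζ) = _
    rw [← ha, map_pow, hh, ← pow_mul]
    apply pow_eq_pow_of_cast_eq hζm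
    have e1 : ((((t * t₀⁻¹ : (ZMod m)ˣ) : ZMod m).val : ℕ) : ZMod m) =
        ((t * t₀⁻¹ : (ZMod m)ˣ) : ZMod m) := ZMod.natCast_zmod_val _
    have e2 : (((t : ZMod m).val : ℕ) : ZMod m) = (t : ZMod m) := ZMod.natCast_zmod_val _
    have e3 : (a : ZMod m) = (t₀ : ZMod m) := (ZMod.coe_unitOfCoprime a hacop).symm
    rw [Nat.cast_mul, e1, e2, e3, Units.val_mul, mul_assoc, ← Units.val_mul, inv_mul_cancel,
      Units.val_one, mul_one]
  refine ⟨g, hgL, fun ξ hξ => ?_⟩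
  obtain ⟨i, -, hi⟩ := hζ.eq_pow_of_pow_eq_one hξ
  rw [← hi, map_pow, hgζ, ← pow_mul, ← pow_mul, mul_comm]

/-- **[AL-4a], joint surjectivity in the setting of `Asm.StNoExt`**: for `m` prime to `p`, every
pair `(σ, t) ∈ Gal(L/K) × (ℤ/m)ˣ` is induced by an automorphism of `F = L(ζ_m)` over `K`. -/
theorem exists_aut {p : ℕ} [Fact p.Prime] (K L F : Type*) [Field K] [NumberField K]
    [Field L] [NumberField L] [Field F] [NumberField F] [Algebra K L] [Algebra L F] [Algebra K F]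
    [IsScalarTower K L F] [IsCyclotomicExtension {p} ℚ K] [IsGalois ℚ L] [IsGalois K L] (m : ℕ)
    [NeZero m] [IsCyclotomicExtension {m} L F] (hp3 : 3 ≤ p) (hmp : m.Coprime p)
    (htw : Twist p K L) (σ : L ≃ₐ[K] L) (t : (ZMod m)ˣ) :
    ∃ g : F ≃ₐ[K] F, (∀ x : L, g (algebraMap L F x) = algebraMap L F (σ x)) ∧
      ∀ ξ : F, ξ ^ m = 1 → g ξ = ξ ^ (t : ZMod m).val := by
  haveI := isGalois_base K L F m
  exact exists_aut_of_irreducible (irreducible_cyclotomic K L m hp3 hmp htw) σ t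

/-- The cyclotomic character `autToPow` is determined by the action on one primitive root. -/
lemma autToPow_eq_of_apply {K F : Type*} [Field K] [Field F] [Algebra K F] {m : ℕ} [NeZero m]
    {ζ : F} (hζ : IsPrimitiveRoot ζ m) (g : F ≃ₐ[K] F) (t : (ZMod m)ˣ)
    (h : g ζ = ζ ^ (t : ZMod m).val) : hζ.autToPow K g = t := by
  have h1 := hζ.autToPow_spec K g
  rw [h] at h1
  have h2 := hζ.pow_inj (ZMod.val_lt _) (ZMod.val_lt _) h1
  exact Units.ext (ZMod.val_injective m h2)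

/-- **Joint injectivity**, in terms of the restriction to `L` and the cyclotomic character. -/
theorem eq_one_of_restrictNormalHom {K L F : Type*} [Field K] [Field L] [Field F] [Algebra K L]
    [Algebra L F] [Algebra K F] [IsScalarTower K L F] [Normal K L] {m : ℕ} [NeZero m]
    [IsCyclotomicExtension {m} L F] {ζ : F} (hζ : IsPrimitiveRoot ζ m) (g : F ≃ₐ[K] F)
    (h1 : AlgEquiv.restrictNormalHom L g = 1) (h2 : hζ.autToPow K g = 1) : g = 1 := by
  apply eq_one_of_restrict (L := L) hζ g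
  · intro x
    have := AlgEquiv.restrictNormal_commutes g L x
    rw [← this]
    have h3 : g.restrictNormal L = 1 := h1
    rw [h3]
    rfl
  · have h3 := hζ.autToPow_spec K g
    rw [h2] at h3
    rw [← h3]
    rcases Nat.lt_or_ge 1 m with hm | hm
    · haveI : Fact (1 < m) := ⟨hm⟩
      rw [Units.val_one, ZMod.val_one, pow_one]
    · have hm1 : m = 1 := le_antisymm hm (NeZero.pos m)
      subst hm1
      have : ζ = 1 := by simpa using hζ.pow_eq_one
      rw [this, one_pow]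

/-- **Joint surjectivity**, in terms of the restriction to `L` and the cyclotomic character. -/
theorem exists_restrictNormalHom_eq {K L F : Type*} [Field K] [Field L] [Field F]
    [Algebra K L] [Algebra L F] [Algebra K F] [IsScalarTower K L F] [Normal K L] [Normal K F]
    {m : ℕ} [NeZero m] [IsCyclotomicExtension {m} L F] (hirr : Irreducible (cyclotomic m L))
    {ζ : F} (hζ : IsPrimitiveRoot ζ m) (σ : L ≃ₐ[K] L) (t : (ZMod m)ˣ) :
    ∃ g : F ≃ₐ[K] F, AlgEquiv.restrictNormalHom L g = σ ∧ hζ.autToPow K g = t := by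
  obtain ⟨g, hg1, hg2⟩ := exists_aut_of_irreducible (K := K) (F := F) hirr σ t
  refine ⟨g, ?_, autToPow_eq_of_apply hζ g t (hg2 ζ hζ.pow_eq_one)⟩
  ext x
  apply (algebraMap L F).injective
  have := AlgEquiv.restrictNormal_commutes g L x
  rw [← hg1 x, ← this]
  rfl

/-- **[AL-4a], packaged**: in the setting of `Asm.StNoExt` (`p ≥ 3`, twist) and for `m` prime to
`p`, the map `Gal(L(ζ_m)/K) → Gal(L/K) × (ℤ/m)ˣ`, `g ↦ (g|_L, cyclotomic character of g)`, is
bijective. -/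
theorem bijective_restrict_prod {p : ℕ} [Fact p.Prime] (K L F : Type*) [Field K] [NumberField K]
    [Field L] [NumberField L] [Field F] [NumberField F] [Algebra K L] [Algebra L F] [Algebra K F]
    [IsScalarTower K L F] [IsCyclotomicExtension {p} ℚ K] [IsGalois ℚ L] [IsGalois K L] (m : ℕ)
    [NeZero m] [IsCyclotomicExtension {m} L F] (hp3 : 3 ≤ p) (hmp : m.Coprime p)
    (htw : Twist p K L) {ζ : F} (hζ : IsPrimitiveRoot ζ m) :
    Function.Bijective
      (fun g : F ≃ₐ[K] F => ((AlgEquiv.restrictNormalHom L g : L ≃ₐ[K] L), hζ.autToPow K g)) := by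
  haveI := isGalois_base K L F m
  constructor
  · intro g₁ g₂ h
    simp only [Prod.mk.injEq] at h
    have h1 : AlgEquiv.restrictNormalHom L (g₁⁻¹ * g₂) = 1 := by
      rw [map_mul, map_inv, h.1, inv_mul_cancel]
    have h2 : hζ.autToPow K (g₁⁻¹ * g₂) = 1 := by
      rw [map_mul, map_inv, h.2, inv_mul_cancel]
    have := eq_one_of_restrictNormalHom (L := L) hζ _ h1 h2
    exact (inv_mul_eq_one.mp this)
  · rintro ⟨σ, t⟩
    obtain ⟨g, hg1, hg2⟩ := exists_restrictNormalHom_eq (K := K) (F := F)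
      (irreducible_cyclotomic K L m hp3 hmp htw) hζ σ t
    exact ⟨g, by simp only [hg1, hg2]⟩

end Step5

end Fermat.Agent.S14x.AL.H8C
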