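import Fermat.Agent.S14x.AL.H20_Leaves
import Fermat.Agent.S14x.AL.H8_Cyclo

/-!
# S14, package AL, leaf [F2]: `StProd p` (helper8)

`Gal(L(ζ_m)/K) = Gal(L/K) × (ℤ/m)ˣ` for `K = ℚ(ζ_p)`, `L/K` of degree `p` with the twist,
`gcd(m, p) = 1`: VERBATIM helper20's Prop `StProd p` (`AL/H20_Leaves.lean`), from `H8_Cyclo`.
-/

set_option autoImplicit false
set_option linter.style.haveILetI false

open NumberField

namespace Fermat.Agent.S14x.AL.H8P

open Fermat.Agent.S14x.AL Fermat.Agent.S14x.AL.H8C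

/-- `Gal(L/K)` is commutative when `[L : K]` is prime. -/
theorem comm_of_prime_finrank {K L : Type*} [Field K] [Field L] [Algebra K L]
    [FiniteDimensional K L] [IsGalois K L] {p : ℕ} (hp : p.Prime)
    (hdeg : Module.finrank K L = p) (σ τ : L ≃ₐ[K] L) : σ * τ = τ * σ := by
  haveI : Fact p.Prime := ⟨hp⟩
  have hcard : Nat.card (L ≃ₐ[K] L) = p := by
    rw [IsGalois.card_aut_eq_finrank, hdeg]
  haveI : IsCyclic (L ≃ₐ[K] L) := isCyclic_of_prime_card hcard
  obtain ⟨g, hg⟩ := IsCyclic.exists_generator (α := L ≃ₐ[K] L)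
  obtain ⟨a, rfl⟩ := Subgroup.mem_zpowers_iff.mp (hg σ)
  obtain ⟨b, rfl⟩ := Subgroup.mem_zpowers_iff.mp (hg τ)
  rw [← zpow_add, ← zpow_add, add_comm]

/-- **[F2]** `StProd p`, verbatim. -/
theorem stProd (p : ℕ) : StProd p := by
  intro hp3 hp K L F _ _ _ _ _ _ _ _ _ _ _ _ _ m _ _ hdeg htw hmp
  haveI : Fact p.Prime := ⟨hp⟩
  have htw' : H8C.Twist p K L := htw
  haveI hgal : IsGalois K F := isGalois_base K L F m
  have hζ := IsCyclotomicExtension.zeta_spec m L F
  refine ⟨hgal, ?_, ?_⟩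
  · -- commutativity from joint injectivity
    intro σ τ
    have aux : ∀ {G : Type} [Group G] (a b : G), a * b = b * a → a * b * a⁻¹ * b⁻¹ = 1 := by
      intro G _ a b h
      rw [h, mul_assoc b, mul_inv_cancel, mul_one, mul_inv_cancel]
    have hc : σ * τ * σ⁻¹ * τ⁻¹ = 1 := by
      apply eq_one_of_restrictNormalHom (L := L) hζ
      · rw [map_mul, map_mul, map_mul, map_inv, map_inv]
        exact aux _ _ (comm_of_prime_finrank hp hdeg _ _)
      · rw [map_mul, map_mul, map_mul, map_inv, map_inv]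
        exact aux _ _ (mul_comm _ _)
    rw [mul_inv_eq_one, mul_inv_eq_iff_eq_mul] at hc
    exact hc
  · intro ρ t ht
    obtain ⟨g, hg1, hg2⟩ := exists_aut K L F m hp3 hmp htw' ρ (ZMod.unitOfCoprime t ht)
    refine ⟨g, hg1, fun ξ hξ => ?_⟩
    rw [hg2 ξ hξ]
    apply pow_eq_pow_of_cast_eq hξ
    rw [ZMod.natCast_zmod_val, ZMod.coe_unitOfCoprime]

end Fermat.Agent.S14x.AL.H8P
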