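import Fermat.Agent.S14x.AL.H20_Leaves
import Fermat.Agent.S14x.AL.H9_Compositum

/-!
# S14, package AL, leaf [F3] `StOneField` (helper9)

`E := fixedField H`, `M := E(L)` (`compositum`), `C := E(ζ_{m'})`, all inside `F = L(ζ_m)`.
-/

set_option autoImplicit false
set_option linter.style.haveILetI false
set_option linter.unusedSectionVars false

open NumberField IntermediateField

noncomputable section

namespace Fermat.Agent.S14x.AL

open Fermat.Agent.S14x.Asm

section Unram

variable {K L Ω : Type} [Field K] [NumberField K] [Field L] [NumberField L] [Field Ω]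
  [NumberField Ω] [Algebra K L] [Algebra K Ω] [Algebra L Ω] [IsScalarTower K L Ω]
  [IsGalois K L] [IsGalois K Ω] (F : IntermediateField K Ω)

/-- The compositum `F(L) / F` is unramified everywhere if `L / K` is: the inertia groups of
`F(L)/F` inject into those of `L/K`. -/
theorem compositum_unramified (h : UnramifiedEverywhere K L) :
    UnramifiedEverywhere F (compositum K L Ω F) := by
  intro P hP hP0 σ hσ
  haveI := hP
  have hρ : compRes F σ = 1 := by
    apply h (P.under (𝓞 L)) inferInstance (Ideal.under_ne_bot (𝓞 L) hP0)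
    intro y
    rw [Ideal.under_def, Ideal.mem_comap]
    have h1 := hσ (algebraMap (𝓞 L) (𝓞 (compositum K L Ω F)) y)
    have h2 : algebraMap (𝓞 L) (𝓞 (compositum K L Ω F)) (compRes F σ • y - y) =
        σ • (algebraMap (𝓞 L) (𝓞 (compositum K L Ω F)) y) -
          algebraMap (𝓞 L) (𝓞 (compositum K L Ω F)) y := by
      rw [map_sub]
      congr 1
      apply RingOfIntegers.coe_injective
      exact compRes_spec F σ (y : L)
    rw [h2]
    exact h1
  apply eq_one_of_fix
  intro x
  rw [← compRes_spec, hρ]
  rfl

end Unram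

section OneField

variable {K L F : Type} [Field K] [NumberField K] [Field L] [NumberField L] [Field F]
  [NumberField F] [Algebra K L] [Algebra L F] [Algebra K F] [IsScalarTower K L F]
  [IsGalois K L] [IsGalois K F]

/-- If every `ρ ∈ Gal(L/K)` is the restriction of an element of `H` and `Gal(L/K) ≠ 1`, then
`L ⊄ fixedField H`. -/
theorem h9_not_le_fixedField {p : ℕ} (hp : p.Prime) (hdeg : Module.finrank K L = p)
    (H : Subgroup (F ≃ₐ[K] F))
    (h2 : ∀ ρ : L ≃ₐ[K] L, ∃ g ∈ H, RestrictsTo K L F g ρ) :
    ¬ (IsScalarTower.toAlgHom K L F).fieldRange ≤ IntermediateField.fixedField H := by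
  intro hle
  have hcard : Nat.card (L ≃ₐ[K] L) = p := by rw [IsGalois.card_aut_eq_finrank, hdeg]
  haveI : Nontrivial (L ≃ₐ[K] L) := by
    rw [← Finite.one_lt_card_iff_nontrivial, hcard]
    exact hp.one_lt
  obtain ⟨ρ, hρ⟩ := exists_ne (1 : L ≃ₐ[K] L)
  obtain ⟨g, hgH, hg⟩ := h2 ρ
  apply hρ
  ext x
  apply (algebraMap L F).injective
  rw [← hg x]
  have hx : algebraMap L F x ∈ IntermediateField.fixedField H := hle ⟨x, rfl⟩
  exact ((IntermediateField.mem_fixedField_iff H _).mp hx) g hgH

/-- `L ⊆ E(ζ')` if `H ∩ ker χ_{m'} ≤ Gal(F/L)`. -/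
theorem h9_compositum_le_adjoin {m' : ℕ} (H : Subgroup (F ≃ₐ[K] F))
    (h1 : ∀ g ∈ H, ActsBy K F m' g 1 → RestrictsTo K L F g 1)
    {ζ' : F} (hζ' : IsPrimitiveRoot ζ' m') (hm' : 0 < m') :
    compositum K L F (IntermediateField.fixedField H) ≤
      IntermediateField.adjoin (IntermediateField.fixedField H) {ζ'} := by
  set E : IntermediateField K F := IntermediateField.fixedField H with hE
  haveI : IsGalois E F := IsGalois.tower_top_intermediateField E
  rw [compositum, IntermediateField.adjoin_le_iff]
  rintro _ ⟨x, rfl⟩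
  rw [SetLike.mem_coe, ← IsGalois.fixedField_fixingSubgroup (IntermediateField.adjoin E {ζ'}),
    IntermediateField.mem_fixedField_iff]
  intro g hg
  -- `g` fixes `ζ'`
  have hgζ : g ζ' = ζ' :=
    (IntermediateField.mem_fixingSubgroup_iff _ g).mp hg ζ'
      (IntermediateField.mem_adjoin_simple_self E ζ')
  -- `g` as an element of `H`
  have hgH : g.restrictScalars K ∈ H := by
    rw [← IntermediateField.fixingSubgroup_fixedField H, ← hE,
      IntermediateField.mem_fixingSubgroup_iff]
    intro y hy
    exact g.commutes ⟨y, hy⟩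
  have hact : ActsBy K F m' (g.restrictScalars K) 1 := by
    intro ξ hξ
    haveI : NeZero m' := ⟨hm'.ne'⟩
    obtain ⟨i, -, rfl⟩ := hζ'.eq_pow_of_pow_eq_one hξ
    rw [pow_one, map_pow]
    congr 1
  have := h1 _ hgH hact x
  exact this

theorem stOneField : StOneField := by
  intro p K L F _ _ _ _ _ _ _ _ _ _ _ _ m m' _ _ hp hdeg hunr hK hm'm hcomm H h1 h2 𝔄 h𝔄0 h𝔄m
  have hm'0 : m' ≠ 0 := fun h => NeZero.ne m (by rw [h, zero_dvd_iff] at hm'm; exact hm'm)
  haveI : NeZero m' := ⟨hm'0⟩
  obtain ⟨ζ, hζ⟩ := IsCyclotomicExtension.exists_isPrimitiveRoot L F (S := {m}) rfl (NeZero.ne m)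
  have hζ' : IsPrimitiveRoot (ζ ^ (m / m')) m' :=
    hζ.pow (NeZero.pos m) (Nat.div_mul_cancel hm'm).symm
  have hMC := h9_compositum_le_adjoin (K := K) (L := L) H h1 hζ' (Nat.pos_of_ne_zero hm'0)
  haveI hCcyc : IsCyclotomicExtension {m'} (IntermediateField.fixedField H)
      (IntermediateField.adjoin (IntermediateField.fixedField H) {ζ ^ (m / m')}) :=
    hζ'.intermediateField_adjoin_isCyclotomicExtension (IntermediateField.fixedField H)
  letI algMC : Algebra (compositum K L F (IntermediateField.fixedField H))
      (IntermediateField.adjoin (IntermediateField.fixedField H) {ζ ^ (m / m')}) :=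
    (IntermediateField.inclusion hMC).toRingHom.toAlgebra
  haveI towMC : IsScalarTower (IntermediateField.fixedField H)
      (compositum K L F (IntermediateField.fixedField H))
      (IntermediateField.adjoin (IntermediateField.fixedField H) {ζ ^ (m / m')}) :=
    IsScalarTower.of_algebraMap_eq fun _ => rfl
  haveI hE : IsTotallyComplex (IntermediateField.fixedField H) := by
    haveI := hK
    exact isTotallyComplex_of_algebra K _
  refine ⟨IntermediateField.fixedField H, compositum K L F (IntermediateField.fixedField H),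
    IntermediateField.adjoin (IntermediateField.fixedField H) {ζ ^ (m / m')},
    inferInstance, inferInstance, inferInstance, inferInstance, inferInstance, inferInstance,
    inferInstance, inferInstance, inferInstance, inferInstance, algMC, inferInstance,
    inferInstance, inferInstance, towMC, inferInstance, m', inferInstance, hCcyc,
    hE, ?_, ?_, ?_, 𝔄, h𝔄0, h𝔄m, rfl⟩
  · exact compositum_finrank _ hp hdeg (h9_not_le_fixedField hp hdeg H h2)
  · exact compositum_unramified _ hunr
  · exact fun σ hσ => eq_one_of_fix _ σ hσ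

end OneField

end Fermat.Agent.S14x.AL
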