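import Fermat.Agent.S14x.AL.H20_Closed
import Fermat.Agent.S14x.AL.H14_PairAsmOf
import Fermat.Agent.S14x.AL.H7_PairData
import Fermat.Agent.S14x.AL.H8_Prod
import Fermat.Agent.S14x.AL.H9_OneField
import Fermat.Agent.S14x.AL.H10_Leaves
import Fermat.Agent.S14x.AL.H16_DegOne
import Fermat.Agent.S14x.AL.H7_Ref
import Fermat.Agent.S14x.LFN.H22_Final
import Fermat.Agent.S14x.Cnt.H23_Final

/-!
# S14 / package AL (helper20): reciprocity (R), hypothesis-free

* `h20_stPair p : StPair p`   (Artin's lemma for pairs of primes)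
* `h20_stKerLe' p : StKerLe' p`
* `h20_stR' p : StR' p`       (the Artin map of `L/K` kills the principal ideals)
-/

set_option autoImplicit false

open NumberField

noncomputable section

namespace Fermat.Agent.S14x.AL

open Fermat.Agent.S14x.Asm

/-- **Artin's lemma for pairs of primes.** -/
theorem h20_stPair (p : ℕ) [Fact p.Prime] : StPair p :=
  H14.stPair_of p (H7.stPairDataAsm p) (H8P.stProd p) stOneField H10.stDegOne H16.stDegOne'
    H7.stRef H10.stFrobF

/-- (U), hypothesis-free. -/
theorem h20_stU : StU := LFN.Final.stU_of_cnt Cnt.stCNT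

/-- `ker Φ ≤ P_K N(I_L)`. -/
theorem h20_stKerLe' (p : ℕ) [Fact p.Prime] : StKerLe' p :=
  h20_stKerLe'_of_pair p (h20_stPair p) h20_stU LFN.Final.stDgen

/-- **(R)**: the Artin map of `L/K` kills the principal ideals. -/
theorem h20_stR' (p : ℕ) [Fact p.Prime] : StR' p :=
  h20_stR'_of_pair p (h20_stPair p) h20_stU LFN.Final.stDgen

end Fermat.Agent.S14x.AL
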