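import Fermat.Agent.S14x.Asm.Defs

/-!
# S14 / package AL (helper20): interface propositions of Artin's lemma and the descent

Notation as in `Asm/Defs.lean`.  `K = ℚ(ζ_p)`, `L/K` Galois of degree `p`, unramified everywhere,
`L/ℚ` Galois with the twist `σ τ = τ σ^s`.

* `Twist p K L`       : the twist hypothesis of `StNoExt`.
* `StKerLe' p`, `StR' p` : `StKerLe p`, `StR p` with the two extra hypotheses `IsGalois ℚ L` and
  `Twist` (available in `StNoExt`).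
* `DescData K L p 𝔞`   : "the ideal `𝔞` of `K` is the norm of an ideal, prime to `m`, of a field
  `E ⊇ K` such that `M = L E` is cyclic of degree `p` over `E` and contained in `E(ζ_m)`".
* `StStep`             : leaf D1, the descent step: `DescData 𝔞` and `Φ 𝔞 = 1` imply
  `𝔞 ∼ 1` modulo `P_K N(I_L)`.
* `StPair p`           : leaf F, Artin's lemma for pairs of primes.
* `StKey p`            : the key statement consumed by the algebraic descent (leaf D2).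
-/

set_option autoImplicit false

open NumberField

noncomputable section

namespace Fermat.Agent.S14x.AL

open Fermat.Agent.S14x.Asm

/-- The twist hypothesis of `StNoExt`: `σ τ = τ σ ^ s` whenever `τ ζ = ζ ^ s`. -/
def Twist (p : ℕ) (K L : Type) [Field K] [Field L] [NumberField L] [Algebra K L] : Prop :=
  ∀ (ζ : L) (τ : L ≃ₐ[ℚ] L) (s : ℕ), IsPrimitiveRoot ζ p → τ ζ = ζ ^ s →
    ∀ (σ : L ≃ₐ[K] L) (x : L), σ (τ x) = τ ((σ ^ s) x)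

/-- `StKerLe p` with the extra hypotheses `IsGalois ℚ L` and `Twist`. -/
def StKerLe' (p : ℕ) [Fact p.Prime] : Prop :=
  3 ≤ p → ∀ (K L : Type) [Field K] [NumberField K] [Field L] [NumberField L] [Algebra K L]
    [IsCyclotomicExtension {p} ℚ K] [IsGalois K L] [IsGalois ℚ L],
    Module.finrank K L = p →
    UnramifiedEverywhere K L →
    Twist p K L →
    ∀ Φ : Ideal (𝓞 K) → (L ≃ₐ[K] L), IsArtinMap K L ⊤ Φ →
      ∀ 𝔞 : Ideal (𝓞 K), 𝔞 ≠ ⊥ → Φ 𝔞 = 1 → NormEquiv K L ⊤ 𝔞 ⊤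

/-- `StR p` with the extra hypotheses `IsGalois ℚ L` and `Twist`. -/
def StR' (p : ℕ) [Fact p.Prime] : Prop :=
  3 ≤ p → ∀ (K L : Type) [Field K] [NumberField K] [Field L] [NumberField L] [Algebra K L]
    [IsCyclotomicExtension {p} ℚ K] [IsGalois K L] [IsGalois ℚ L],
    Module.finrank K L = p →
    UnramifiedEverywhere K L →
    Twist p K L →
    ∀ Φ : Ideal (𝓞 K) → (L ≃ₐ[K] L), IsArtinMap K L ⊤ Φ →
      ∀ β : 𝓞 K, β ≠ 0 → Φ (Ideal.span {β}) = 1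

/-- **Assembly of (R)**, primed form. -/
def StRAsm' (p : ℕ) [Fact p.Prime] : Prop := StKerLe' p → StLw → StR' p

/-- The data produced by Artin's lemma for an ideal `𝔞` of `K`: a tower `K ⊆ E ⊆ M ⊆ C`,
`L ⊆ M`, with `M/E` Galois of degree `p`, unramified everywhere, `C = E(ζ_m)`, `E` totally
complex, the restriction `Gal(M/E) → Gal(L/K)` injective, and an ideal `𝔄` of `E`, prime to `m`,
with `N_{E/K} 𝔄 = 𝔞`. -/
def DescData (K L : Type) [Field K] [NumberField K] [Field L] [NumberField L] [Algebra K L]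
    (p : ℕ) (𝔞 : Ideal (𝓞 K)) : Prop :=
  ∃ (E M C : Type) (_ : Field E) (_ : NumberField E) (_ : Field M) (_ : NumberField M)
    (_ : Field C) (_ : NumberField C) (_ : Algebra K E) (_ : Algebra E M) (_ : Algebra L M)
    (_ : Algebra K M) (_ : Algebra M C) (_ : Algebra E C) (_ : IsScalarTower K L M)
    (_ : IsScalarTower K E M) (_ : IsScalarTower E M C) (_ : IsGalois E M)
    (m : ℕ) (_ : NeZero m) (_ : IsCyclotomicExtension {m} E C),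
    IsTotallyComplex E ∧ Module.finrank E M = p ∧ UnramifiedEverywhere E M ∧
    (∀ σ : M ≃ₐ[E] M, (∀ x : L, σ (algebraMap L M x) = algebraMap L M x) → σ = 1) ∧
    ∃ 𝔄 : Ideal (𝓞 E), 𝔄 ≠ ⊥ ∧ 𝔄 ⊔ Ideal.span {(m : 𝓞 E)} = ⊤ ∧ Ideal.relNorm (𝓞 K) 𝔄 = 𝔞

/-- **Leaf D1 (descent step)**: an ideal of `K` with trivial Artin symbol which comes with
descent data is `∼ 1` modulo `P_K N(I_L)`. -/
def StStep : Prop :=
  StArtinExists → StFunct → StCy →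
  ∀ (p : ℕ) (K L : Type) [Field K] [NumberField K] [Field L] [NumberField L] [Algebra K L]
    [IsGalois K L], p.Prime → Module.finrank K L = p → UnramifiedEverywhere K L →
    ∀ Φ : Ideal (𝓞 K) → (L ≃ₐ[K] L), IsArtinMap K L ⊤ Φ →
      ∀ 𝔞 : Ideal (𝓞 K), 𝔞 ≠ ⊥ → DescData K L p 𝔞 → Φ 𝔞 = 1 → NormEquiv K L ⊤ 𝔞 ⊤

/-- **Leaf F (Artin's lemma for pairs of primes)**: for two primes `𝔭₁, 𝔭₂` of `K` there is an
ideal `𝔟` of `K` with nontrivial Artin symbol such that all the ideals `𝔭_i ^ a * 𝔟 ^ c` have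
descent data.  (`𝔟 = N_{E/K} 𝔮`, `E = E₁ E₂`, `𝔮` from `StDgen` for `L E / E`; the data for
`𝔭_i ^ a 𝔟 ^ c` are `E_i`, `L E_i`, `E_i(ζ_{m_i})`, `𝔄 = 𝔓_i ^ a (N_{E/E_i} 𝔮) ^ c`.) -/
def StPair (p : ℕ) [Fact p.Prime] : Prop :=
  StDgen →
  3 ≤ p → ∀ (K L : Type) [Field K] [NumberField K] [Field L] [NumberField L] [Algebra K L]
    [IsCyclotomicExtension {p} ℚ K] [IsGalois K L] [IsGalois ℚ L],
    Module.finrank K L = p →
    UnramifiedEverywhere K L →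
    Twist p K L →
    ∀ Φ : Ideal (𝓞 K) → (L ≃ₐ[K] L), IsArtinMap K L ⊤ Φ →
      ∀ 𝔭₁ 𝔭₂ : Ideal (𝓞 K), 𝔭₁.IsPrime → 𝔭₁ ≠ ⊥ → 𝔭₂.IsPrime → 𝔭₂ ≠ ⊥ →
        ∃ 𝔟 : Ideal (𝓞 K), 𝔟 ≠ ⊥ ∧ Φ 𝔟 ≠ 1 ∧
          ∀ a c : ℕ, DescData K L p (𝔭₁ ^ a * 𝔟 ^ c) ∧ DescData K L p (𝔭₂ ^ a * 𝔟 ^ c)

/-- **The key statement** consumed by the algebraic descent: for two primes there is `𝔟` with
`Φ 𝔟 ≠ 1` and `𝔭_i 𝔟 ^ c ∼ 1` whenever `Φ (𝔭_i 𝔟 ^ c) = 1`. -/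
def StKey (p : ℕ) [Fact p.Prime] : Prop :=
  3 ≤ p → ∀ (K L : Type) [Field K] [NumberField K] [Field L] [NumberField L] [Algebra K L]
    [IsCyclotomicExtension {p} ℚ K] [IsGalois K L] [IsGalois ℚ L],
    Module.finrank K L = p →
    UnramifiedEverywhere K L →
    Twist p K L →
    ∀ Φ : Ideal (𝓞 K) → (L ≃ₐ[K] L), IsArtinMap K L ⊤ Φ →
      ∀ 𝔭₁ 𝔭₂ : Ideal (𝓞 K), 𝔭₁.IsPrime → 𝔭₁ ≠ ⊥ → 𝔭₂.IsPrime → 𝔭₂ ≠ ⊥ →
        ∃ 𝔟 : Ideal (𝓞 K), 𝔟 ≠ ⊥ ∧ Φ 𝔟 ≠ 1 ∧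
          ∀ c : ℕ, (Φ (𝔭₁ * 𝔟 ^ c) = 1 → NormEquiv K L ⊤ (𝔭₁ * 𝔟 ^ c) ⊤) ∧
            (Φ (𝔭₂ * 𝔟 ^ c) = 1 → NormEquiv K L ⊤ (𝔭₂ * 𝔟 ^ c) ⊤)

/-- **Leaf D2 (algebraic descent)**: the key statement implies `ker Φ ≤ P_K N(I_L)`. -/
def StDesc (p : ℕ) [Fact p.Prime] : Prop := StKey p → StKerLe' p

/-- **Deliverable of AL**, primed form. -/
def StAL' (p : ℕ) [Fact p.Prime] : Prop :=
  StArtinExists → StN → StFunct → StCy → StDgen → StKerLe' p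

end Fermat.Agent.S14x.AL
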