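import Mathlib
import Fermat.Agent.S14x.AL.H20_Defs

/-!
# S14 / AL (helper13): assembly of reciprocity `StRAsm'`

`StKerLe' p → StLw → StR' p`: if the kernel of the Artin map of `L/K` is contained in
`P_K N(I_L)` and `P_K N(I_L)` is not everything, then every principal ideal has trivial Artin
symbol (otherwise its symbol generates the Galois group and every ideal would be `∼ 1`).
-/

set_option autoImplicit false

namespace Fermat.Agent.S14x.AL.H13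

open NumberField Fermat.Agent.S14x.Asm Fermat.Agent.S14x.AL

/-- Powers of a nonzero ideal under an Artin map away from `⊤`. -/
theorem artin_pow {K L : Type} [Field K] [NumberField K] [Field L] [NumberField L] [Algebra K L]
    {Φ : Ideal (𝓞 K) → (L ≃ₐ[K] L)} (hΦ : IsArtinMap K L ⊤ Φ) {𝔟 : Ideal (𝓞 K)} (h𝔟 : 𝔟 ≠ ⊥)
    (j : ℕ) : Φ (𝔟 ^ j) = Φ 𝔟 ^ j := by
  induction j with
  | zero => simpa using hΦ.map_one
  | succ j ih =>
    rw [pow_succ, pow_succ, hΦ.map_mul _ _ (pow_ne_zero j h𝔟) h𝔟 (by simp) (by simp), ih]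

theorem stRAsm' (p : ℕ) [Fact p.Prime] : StRAsm' p := by
  intro hKer hLw hp3 K L _ _ _ _ _ _ _ _ hdeg hunr htw Φ hΦ β hβ
  have hp : p.Prime := Fact.out
  have hTC : IsTotallyComplex K :=
    IsCyclotomicExtension.Rat.isTotallyComplex K (n := p) (by omega)
  obtain ⟨𝔞₀, h𝔞₀, hnot⟩ := hLw K L (hdeg ▸ hp) hTC hunr
  by_contra hne
  -- `g := Φ (β)` has order `p` and generates the Galois group
  have hcard : Nat.card (L ≃ₐ[K] L) = p := by
    rw [IsGalois.card_aut_eq_finrank, hdeg]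
  have hβ0 : Ideal.span {β} ≠ (⊥ : Ideal (𝓞 K)) := by
    simpa [Ideal.span_singleton_eq_bot] using hβ
  obtain ⟨k, hk⟩ : ∃ k : ℕ, Φ 𝔞₀ * Φ (Ideal.span {β}) ^ k = 1 := by
    have hmem : (Φ 𝔞₀)⁻¹ ∈ Submonoid.powers (Φ (Ideal.span {β})) :=
      mem_powers_of_prime_card hcard hne
    obtain ⟨k, hk⟩ := hmem
    refine ⟨k, ?_⟩
    simp only at hk
    rw [hk, mul_inv_cancel]
  have h1 : Φ (𝔞₀ * Ideal.span {β} ^ k) = 1 := by
    rw [hΦ.map_mul _ _ h𝔞₀ (pow_ne_zero k hβ0) (by simp) (by simp), artin_pow hΦ hβ0, hk]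
  have h2 := hKer hp3 K L hdeg hunr htw Φ hΦ (𝔞₀ * Ideal.span {β} ^ k)
    (mul_ne_zero h𝔞₀ (pow_ne_zero k hβ0)) h1
  obtain ⟨a, b, 𝔄, 𝔅, ha, hb, -, -, h𝔄, h𝔅, h𝔄m, h𝔅m, heq⟩ := h2
  apply hnot
  refine ⟨a * β ^ k, b, 𝔄, 𝔅, mul_ne_zero ha (pow_ne_zero k hβ), hb, Submodule.mem_top, by simp,
    h𝔄, h𝔅, h𝔄m, h𝔅m, ?_⟩
  rw [← heq, ← Ideal.span_singleton_mul_span_singleton, ← Ideal.span_singleton_pow]
  ring

end Fermat.Agent.S14x.AL.H13
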