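import Mathlib
import Fermat.Agent.S14x.AL.H20_Defs

/-!
# S14 / AL leaf D1 (helper13): the descent step `StStep`

An ideal `𝔞` of `K` with trivial Artin symbol which comes with descent data
(`𝔞 = N_{E/K} 𝔄`, `M = L E` cyclic of degree `p` over `E` inside `E(ζ_m)`) is `∼ 1` modulo
`P_K N(I_L)`: the Artin symbol of `𝔄` in `M/E` restricts to that of `𝔞` (functoriality), hence is
trivial; the cyclotomic case gives `(a) 𝔄 N𝔄' = (b) N𝔅'`; take norms to `K`.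
-/

set_option autoImplicit false

namespace Fermat.Agent.S14x.AL.H13

open NumberField Fermat.Agent.S14x.Asm Fermat.Agent.S14x.AL

/-- A Galois group of prime order is commutative. -/
theorem gal_comm_of_prime (E M : Type) [Field E] [Field M] [Algebra E M]
    [FiniteDimensional E M] [IsGalois E M] {p : ℕ} (hp : p.Prime)
    (hdeg : Module.finrank E M = p) : ∀ σ τ : M ≃ₐ[E] M, σ * τ = τ * σ := by
  have : Fact p.Prime := ⟨hp⟩
  have hcard : Nat.card (M ≃ₐ[E] M) = p := by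
    rw [IsGalois.card_aut_eq_finrank, hdeg]
  have := isCyclic_of_prime_card hcard
  intro σ τ
  exact (IsCyclic.isMulCommutative (α := M ≃ₐ[E] M)).is_comm.comm σ τ

/-- The relative norm to `K` of an ideal of `M` through an intermediate field. -/
theorem relNorm_tower (K E M : Type) [Field K] [NumberField K] [Field E] [NumberField E]
    [Field M] [NumberField M] [Algebra K E] [Algebra E M] [Algebra K M] [IsScalarTower K E M]
    (I : Ideal (𝓞 M)) :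
    Ideal.relNorm (𝓞 K) (Ideal.relNorm (𝓞 E) I) = Ideal.relNorm (𝓞 K) I :=
  Ideal.relNorm_relNorm (𝓞 K) (𝓞 E) I

theorem stStep : StStep := by
  intro hArt hFunct hCy p K L _ _ _ _ _ _ hp hdeg hunr Φ hΦ 𝔞 h𝔞 hdesc hΦ𝔞
  obtain ⟨E, M, C, iE, iNE, iM, iNM, iC, iNC, iKE, iEM, iLM, iKM, iMC, iEC, iKLM, iKEM, iEMC,
    iGal, m, iNe, iCyc, hTC, hfin, hunrEM, hinj, 𝔄, h𝔄0, h𝔄m, hN⟩ := hdesc
  have hcommL : ∀ σ τ : L ≃ₐ[K] L, σ * τ = τ * σ := gal_comm_of_prime K L hp hdeg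
  have hcommM : ∀ σ τ : M ≃ₐ[E] M, σ * τ = τ * σ := gal_comm_of_prime E M hp hfin
  have hUOK : UnramifiedOutside K L ⊤ := fun 𝔭 _ _ _ P hP hP0 _ σ hσ => hunr P hP hP0 σ hσ
  have hUOE : UnramifiedOutside E M (Ideal.span {(m : 𝓞 E)}) :=
    fun 𝔭 _ _ _ P hP hP0 _ σ hσ => hunrEM P hP hP0 σ hσ
  obtain ⟨Ψ, hΨ⟩ := hArt E M hcommM _ hUOE
  have hfun := hFunct K L E M hcommL hcommM ⊤ (Ideal.span {(m : 𝓞 E)})
    (by rw [Ideal.map_top]; exact le_top) hUOK hUOE Φ Ψ hΦ hΨ 𝔄 h𝔄0 h𝔄m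
  have hΨ1 : Ψ 𝔄 = 1 := by
    apply hinj
    intro x
    rw [hfun x, hN, hΦ𝔞]
    rfl
  have hp' : (Module.finrank E M).Prime := hfin ▸ hp
  obtain ⟨a, b, 𝔄', 𝔅', ha, hb, -, -, h𝔄', h𝔅', -, -, heq⟩ :=
    hCy E M C m hTC hp' Ψ hΨ 𝔄 h𝔄0 h𝔄m hΨ1
  have key := congrArg (Ideal.relNorm (𝓞 K)) heq
  simp only [map_mul, Ideal.relNorm_singleton, Ideal.relNorm_top, hN] at key
  rw [relNorm_tower K E M 𝔄', relNorm_tower K E M 𝔅', ← relNorm_tower K L M 𝔄',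
    ← relNorm_tower K L M 𝔅'] at key
  refine ⟨Algebra.intNorm (𝓞 K) (𝓞 E) a, Algebra.intNorm (𝓞 K) (𝓞 E) b,
    Ideal.relNorm (𝓞 L) 𝔄', Ideal.relNorm (𝓞 L) 𝔅', ?_, ?_, Submodule.mem_top, ?_, ?_, ?_, ?_, ?_,
    key⟩
  · exact Algebra.intNorm_ne_zero.2 ha
  · exact Algebra.intNorm_ne_zero.2 hb
  · simp
  · exact Ideal.relNorm_eq_bot_iff.not.2 h𝔄'
  · exact Ideal.relNorm_eq_bot_iff.not.2 h𝔅'
  · simp
  · simp

end Fermat.Agent.S14x.AL.H13
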