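import Fermat.Agent.S14x.AL.H14_PairDefs

/-!
# S14 / package AL, leaf [F7b] (helper14): `StPair p` from `StPairData p` and the leaves

Ideal-theoretic half of the assembly of Artin's lemma for pairs of primes: given the field
`F = L(ζ_m)`, the subgroups `H₁`, `H₂` of `Gal(F/K)` and the Frobenius elements of `𝔭₁`, `𝔭₂`
(`StPairData`), the leaves `StDegOne`, `StRef` (applied to `H₁ ⊓ H₂`), `StDegOne'` and `StOneField`
give the ideal `𝔟` and the descent data for all `𝔭_i ^ a * 𝔟 ^ c`.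
-/

set_option autoImplicit false
set_option linter.unusedSectionVars false
set_option linter.unusedVariables false
set_option linter.style.haveILetI false

open NumberField

noncomputable section

namespace Fermat.Agent.S14x.AL.H14

open Fermat.Agent.S14x.Asm Fermat.Agent.S14x.AL

/-- A nonzero prime of a Dedekind domain not containing `x` is coprime to `(x)`. -/
theorem sup_span_eq_top_of_notMem {R : Type*} [CommRing R] [IsDedekindDomain R] {P : Ideal R}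
    (hP : P.IsPrime) (hP0 : P ≠ ⊥) {x : R} (hx : x ∉ P) : P ⊔ Ideal.span {x} = ⊤ := by
  have hmax : P.IsMaximal := hP.isMaximal hP0
  by_contra hne
  have hle : P ≤ P ⊔ Ideal.span {x} := le_sup_left
  have heq : P = P ⊔ Ideal.span {x} := hmax.eq_of_le hne hle
  apply hx
  rw [heq]
  exact Ideal.mem_sup_right (Ideal.mem_span_singleton_self x)

/-- Products of powers of two ideals coprime to `J` are coprime to `J`. -/
theorem pow_mul_pow_sup_eq_top {R : Type*} [CommRing R] {I₁ I₂ J : Ideal R}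
    (h₁ : I₁ ⊔ J = ⊤) (h₂ : I₂ ⊔ J = ⊤) (a c : ℕ) : I₁ ^ a * I₂ ^ c ⊔ J = ⊤ := by
  rw [← Ideal.isCoprime_iff_sup_eq] at h₁ h₂ ⊢
  exact IsCoprime.mul_left (h₁.pow_left) (h₂.pow_left)

/-- **One prime**: from `PrimeData` for `𝔭` and `H₁`, and a prime `𝔮` of absolute degree one of the
fixed field of a subgroup `H ≤ H₁`, prime to `m`: descent data for `𝔭 ^ a * (N 𝔮) ^ c`. -/
theorem descData_of_primeData (hOne : StOneField) (hDeg : StDegOne) (hDeg' : StDegOne')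
    (p : ℕ) (hp : p.Prime) (K L F : Type) [Field K] [NumberField K] [Field L] [NumberField L]
    [Field F] [NumberField F] [Algebra K L] [Algebra L F] [Algebra K F] [IsScalarTower K L F]
    [IsGalois K L] [IsGalois K F] (m : ℕ) [NeZero m] [IsCyclotomicExtension {m} L F]
    (hdeg : Module.finrank K L = p) (hunr : UnramifiedEverywhere K L) (hK : IsTotallyComplex K)
    (hcomm : ∀ σ τ : F ≃ₐ[K] F, σ * τ = τ * σ)
    (𝔭 : Ideal (𝓞 K)) (h𝔭0 : 𝔭 ≠ ⊥)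
    (H₁ H : Subgroup (F ≃ₐ[K] F)) (hH : H ≤ H₁) (hdata : PrimeData K L F m 𝔭 H₁)
    (𝔮 : Ideal (𝓞 ↥(IntermediateField.fixedField H))) (h𝔮 : 𝔮.IsPrime)
    (h𝔮c : (Nat.card (𝓞 ↥(IntermediateField.fixedField H) ⧸ 𝔮)).Prime)
    (h𝔮m : (m : 𝓞 ↥(IntermediateField.fixedField H)) ∉ 𝔮) (a c : ℕ) :
    DescData K L p (𝔭 ^ a * (Ideal.relNorm (𝓞 K) 𝔮) ^ c) := by
  obtain ⟨hm𝔭, h1, h2, P, g, hP, hP0, hPu, hgH, hfrob⟩ := hdata
  -- the prime of `E₁` below `P`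
  have h𝔓N : Ideal.relNorm (𝓞 K) (P.under (𝓞 ↥(IntermediateField.fixedField H₁))) = 𝔭 := by
    rw [← hPu]
    exact hDeg K F H₁ P hP hP0 g hgH hfrob
  have h𝔓prime : (P.under (𝓞 ↥(IntermediateField.fixedField H₁))).IsPrime :=
    Ideal.IsPrime.under _ P
  have h𝔓0 : P.under (𝓞 ↥(IntermediateField.fixedField H₁)) ≠ ⊥ := by
    intro h0
    rw [h0] at h𝔓N
    apply h𝔭0
    rw [← h𝔓N]
    exact Ideal.relNorm_eq_bot_iff.mpr rfl
  have h𝔓m : (m : 𝓞 ↥(IntermediateField.fixedField H₁)) ∉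
      P.under (𝓞 ↥(IntermediateField.fixedField H₁)) := by
    intro hmem
    apply hm𝔭
    rw [← hPu]
    rw [Ideal.under_def, Ideal.mem_comap, map_natCast] at hmem ⊢
    exact hmem
  -- the prime of `E₁` below `𝔮`
  obtain ⟨𝔮', h𝔮'prime, h𝔮'0, h𝔮'N, h𝔮'n⟩ :=
    hDeg' K F (IntermediateField.fixedField H₁) (IntermediateField.fixedField H)
      (IntermediateField.fixedField_le hH) 𝔮 h𝔮 h𝔮c
  have h𝔮'm : (m : 𝓞 ↥(IntermediateField.fixedField H₁)) ∉ 𝔮' := h𝔮'n m h𝔮m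
  -- the ideal `𝔄`
  have hA0 : (P.under (𝓞 ↥(IntermediateField.fixedField H₁))) ^ a * 𝔮' ^ c ≠ ⊥ := by
    rw [← Ideal.zero_eq_bot]
    apply mul_ne_zero
    · exact pow_ne_zero _ (by rwa [Ideal.zero_eq_bot])
    · exact pow_ne_zero _ (by rwa [Ideal.zero_eq_bot])
  have hAm : (P.under (𝓞 ↥(IntermediateField.fixedField H₁))) ^ a * 𝔮' ^ c ⊔
      Ideal.span {(m : 𝓞 ↥(IntermediateField.fixedField H₁))} = ⊤ :=
    pow_mul_pow_sup_eq_top (sup_span_eq_top_of_notMem h𝔓prime h𝔓0 h𝔓m)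
      (sup_span_eq_top_of_notMem h𝔮'prime h𝔮'0 h𝔮'm) a c
  have hmain := hOne p K L F m m hp hdeg hunr hK (dvd_refl m) hcomm H₁ h1 h2 _ hA0 hAm
  rw [map_mul, map_pow, map_pow, h𝔓N, h𝔮'N] at hmain
  exact hmain

/-- **[F7b]** `StPair p` from `StPairData p` and the leaves. -/
theorem stPairOfData (p : ℕ) [Fact p.Prime] : StPairOfData p := by
  intro hData hOne hDeg hDeg' hRef hDgen hp3 K L _ _ _ _ _ _ _ _ hdeg hunr htw Φ hΦ 𝔭₁ 𝔭₂
    h1 h10 h2 h20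
  have hp : p.Prime := Fact.out
  haveI : NeZero p := ⟨hp.ne_zero⟩
  obtain ⟨F, iF, iNF, iLF, iKF, iST, iG, m, iNZ, iCy, hcomm, H₁, H₂, hd1, hd2, hH⟩ :=
    hData hp3 K L hdeg hunr htw Φ hΦ 𝔭₁ 𝔭₂ h1 h10 h2 h20
  obtain ⟨𝔮, h𝔮, h𝔮c, h𝔮m, hΦ𝔮⟩ := hRef hDgen p K L F m hp hdeg hunr hcomm (H₁ ⊓ H₂) hH Φ hΦ
  have hK : IsTotallyComplex K := IsCyclotomicExtension.Rat.isTotallyComplex (n := p) K (by omega)
  have h𝔮0 : 𝔮 ≠ ⊥ := by
    rintro rfl
    have hinf : Infinite (𝓞 ↥(IntermediateField.fixedField (H₁ ⊓ H₂)) ⧸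
        (⊥ : Ideal (𝓞 ↥(IntermediateField.fixedField (H₁ ⊓ H₂))))) :=
      (RingEquiv.quotientBot _).toEquiv.infinite_iff.mpr inferInstance
    rw [Nat.card_eq_zero_of_infinite] at h𝔮c
    exact Nat.not_prime_zero h𝔮c
  refine ⟨Ideal.relNorm (𝓞 K) 𝔮, ?_, hΦ𝔮, fun a c => ⟨?_, ?_⟩⟩
  · intro h0
    exact h𝔮0 (Ideal.relNorm_eq_bot_iff.mp h0)
  · exact descData_of_primeData hOne hDeg hDeg' p hp K L F m hdeg hunr hK hcomm 𝔭₁ h10
      H₁ (H₁ ⊓ H₂) inf_le_left hd1 𝔮 h𝔮 h𝔮c h𝔮m a c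
  · exact descData_of_primeData hOne hDeg hDeg' p hp K L F m hdeg hunr hK hcomm 𝔭₂ h20
      H₂ (H₁ ⊓ H₂) inf_le_right hd2 𝔮 h𝔮 h𝔮c h𝔮m a c

end Fermat.Agent.S14x.AL.H14
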