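import Fermat.Agent.S14x.Asm.Defs

/-!
# S14 / AL (helper15): cyclotomic extensions are unramified outside `m`

* `h15_eq_of_pow_eq_one_of_sub_mem` : `m`-th roots of unity are distinct modulo an ideal not
  containing `m`;
* `h15_unramifiedOutside_cyclotomic` : `E(ζ_m)/E` is unramified outside `m`
  (in the sense of `Asm.UnramifiedOutside`);
* `h15_unramifiedOutside_of_tower` : unramifiedness outside `𝔪` descends to Galois
  subextensions.
-/

set_option autoImplicit false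
set_option linter.unusedSectionVars false
set_option linter.style.haveILetI false

open NumberField
open scoped Pointwise

namespace Fermat.Agent.S14x.AL.H15

open Fermat.Agent.S14x.Asm

/-- roots of unity of order `m` are distinct modulo an ideal not containing `m`. -/
theorem h15_eq_of_pow_eq_one_of_sub_mem {R : Type*} [CommRing R] [IsDomain R] (m : ℕ)
    (I : Ideal R) (hm : (m : R) ∉ I) {x y : R} (hx : x ^ m = 1) (hy : y ^ m = 1)
    (h : x - y ∈ I) : x = y := by
  have hm0 : m ≠ 0 := by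
    rintro rfl
    exact hm (by simp)
  obtain ⟨k, rfl⟩ : ∃ k, m = k + 1 := ⟨m - 1, by omega⟩
  set z : R := x * y ^ k with hz
  have hyk : y * y ^ k = 1 := by rw [← pow_succ', hy]
  have hz1 : z - 1 ∈ I := by
    have : z - 1 = (x - y) * y ^ k := by rw [hz, sub_mul, hyk]
    rw [this]
    exact I.mul_mem_right _ h
  have hzm : z ^ (k + 1) = 1 := by
    rw [hz, mul_pow, hx, one_mul, ← pow_mul, mul_comm, pow_mul, hy, one_pow]
  have hzone : z = 1 := by
    by_contra hne
    have hgeom : (∑ i ∈ Finset.range (k + 1), z ^ i) * (z - 1) = 0 := by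
      rw [geom_sum_mul, hzm, sub_self]
    have hsum : ∑ i ∈ Finset.range (k + 1), z ^ i = 0 := by
      rcases mul_eq_zero.mp hgeom with h0 | h0
      · exact h0
      · exact absurd (sub_eq_zero.mp h0) hne
    have hmk : Ideal.Quotient.mk I z = 1 := by
      rw [← map_one (Ideal.Quotient.mk I)]
      exact Ideal.Quotient.eq.mpr hz1
    have h2 : Ideal.Quotient.mk I (((k + 1 : ℕ) : R)) = 0 := by
      have := congrArg (Ideal.Quotient.mk I) hsum
      rw [map_sum, map_zero] at this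
      simp only [map_pow, hmk, one_pow, Finset.sum_const, Finset.card_range] at this
      rw [map_natCast]
      simpa using this
    exact hm (Ideal.Quotient.eq_zero_iff_mem.mp h2)
  calc x = x * (y * y ^ k) := by rw [hyk, mul_one]
    _ = z * y := by rw [hz]; ring
    _ = y := by rw [hzone, one_mul]

section Cyclotomic

variable (E C : Type) [Field E] [NumberField E] [Field C] [NumberField C] [Algebra E C]
  (m : ℕ) [NeZero m] [IsCyclotomicExtension {m} E C]

/-- an automorphism of a cyclotomic extension fixing the `m`-th roots of unity is trivial. -/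
theorem h15_eq_one_of_fix_roots (σ : C ≃ₐ[E] C) (h : ∀ ζ : C, ζ ^ m = 1 → σ ζ = ζ) : σ = 1 := by
  have htop := ((IsCyclotomicExtension.iff_adjoin_eq_top {m} E C).mp inferInstance).2
  have : (σ : C →ₐ[E] C) = AlgHom.id E C := by
    apply AlgHom.ext_of_adjoin_eq_top htop
    rintro x ⟨n, hn, -, hx⟩
    rw [Set.mem_singleton_iff] at hn
    subst hn
    exact h x hx
  ext x
  exact DFunLike.congr_fun this x

/-- **a cyclotomic extension `E(ζ_m)/E` is unramified outside `m`**. -/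
theorem h15_unramifiedOutside_cyclotomic :
    UnramifiedOutside E C (Ideal.span {((m : ℕ) : 𝓞 E)}) := by
  intro 𝔭 h𝔭 h𝔭0 hcop P hP hP0 hle σ hσ
  have hmP : ((m : ℕ) : 𝓞 C) ∉ P := by
    intro hm
    have h1 : Ideal.span {((m : ℕ) : 𝓞 E)} ≤ P.under (𝓞 E) := by
      rw [Ideal.span_le, Set.singleton_subset_iff]
      show ((m : ℕ) : 𝓞 E) ∈ P.comap (algebraMap (𝓞 E) (𝓞 C))
      rw [Ideal.mem_comap, map_natCast]
      exact hm
    have h2 : P.under (𝓞 E) = ⊤ := by
      rw [eq_top_iff, ← hcop]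
      exact sup_le hle h1
    have h3 : (1 : 𝓞 E) ∈ P.under (𝓞 E) := by rw [h2]; trivial
    have h4 : (1 : 𝓞 C) ∈ P := by
      have := Ideal.mem_comap.mp h3
      rwa [map_one] at this
    exact hP.ne_top ((Ideal.eq_top_iff_one P).mpr h4)
  apply h15_eq_one_of_fix_roots E C m σ
  intro ζ hζ
  have hint : IsIntegral ℤ ζ := by
    refine ⟨Polynomial.X ^ m - 1, Polynomial.monic_X_pow_sub_C 1 (NeZero.ne m), ?_⟩
    simp [hζ]
  let ζ' : 𝓞 C := ⟨ζ, hint⟩
  have hc : (ζ' : C) = ζ := rfl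
  have hζ' : ζ' ^ m = 1 := RingOfIntegers.ext (by
    show ((ζ' : C)) ^ m = 1
    rw [hc, hζ])
  have h5 : (σ • ζ') ^ m = 1 := by rw [← smul_pow', hζ', smul_one]
  have h6 : σ • ζ' = ζ' := h15_eq_of_pow_eq_one_of_sub_mem m P hmP h5 hζ' (hσ ζ')
  have h7 : ((σ • ζ' : 𝓞 C) : C) = σ (ζ' : C) := rfl
  rw [← hc, ← h7, h6]

end Cyclotomic

section Tower

variable (E M C : Type) [Field E] [NumberField E] [Field M] [NumberField M] [Field C]
  [NumberField C] [Algebra E M] [Algebra M C] [Algebra E C] [IsScalarTower E M C]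
  [IsGalois E M] [IsGalois E C]

/-- a nonzero prime of the ring of integers is maximal, so it equals the trace of any prime
above it. -/
theorem h15_under_eq {K L : Type*} [Field K] [NumberField K] [Field L] [NumberField L]
    [Algebra K L] {𝔭 : Ideal (𝓞 K)} (h𝔭 : 𝔭.IsPrime) (h0 : 𝔭 ≠ ⊥) {P : Ideal (𝓞 L)}
    (hP : P.IsPrime) (hle : 𝔭 ≤ P.under (𝓞 K)) : P.under (𝓞 K) = 𝔭 := by
  have hmax : 𝔭.IsMaximal := h𝔭.isMaximal h0
  have hne : P.under (𝓞 K) ≠ ⊤ := (Ideal.IsPrime.under (𝓞 K) P).ne_top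
  exact (hmax.eq_of_le hne hle).symm

/-- **triviality of inertia descends to Galois subextensions**. -/
theorem h15_inertiaTrivialAt_of_tower {𝔭 : Ideal (𝓞 E)} (h𝔭 : 𝔭.IsPrime) (h0 : 𝔭 ≠ ⊥)
    (h : InertiaTrivialAt E C 𝔭) : InertiaTrivialAt E M 𝔭 := by
  intro P hP hP0 hle τ hτ
  have hPu : P.under (𝓞 E) = 𝔭 := h15_under_eq h𝔭 h0 hP hle
  haveI : P.LiesOver 𝔭 := ⟨hPu.symm⟩
  haveI := hP
  haveI := h𝔭
  obtain ⟨⟨Q, hQ, hQP⟩⟩ := (inferInstance : Nonempty (P.primesOver (𝓞 C)))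
  haveI := hQ
  haveI := hQP
  haveI : Q.LiesOver 𝔭 := Ideal.LiesOver.trans Q P 𝔭
  have hQ0 : Q ≠ ⊥ := Ideal.ne_bot_of_liesOver_of_ne_bot h0 Q
  have hQbot : Q.inertia Gal(C/E) = ⊥ := by
    rw [Subgroup.eq_bot_iff_forall]
    intro σ hσ
    exact h Q hQ hQ0 (by rw [← Ideal.over_def Q 𝔭]) σ hσ
  have h1 : Nat.card (Q.inertia Gal(C/E)) = 1 := by
    rw [hQbot]; exact Subgroup.card_bot
  rw [Ideal.card_inertia_eq_ramificationIdxIn 𝔭 Q,
    Ideal.ramificationIdxIn_eq_ramificationIdx 𝔭 Q Gal(C/E),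
    Ideal.ramificationIdx_tower P Q] at h1
  have h2 : P.ramificationIdx (𝓞 E) = 1 := Nat.eq_one_of_mul_eq_one_right h1
  have h3 : Nat.card (P.inertia Gal(M/E)) = 1 := by
    rw [Ideal.card_inertia_eq_ramificationIdxIn 𝔭 P,
      Ideal.ramificationIdxIn_eq_ramificationIdx 𝔭 P Gal(M/E), h2]
  have h4 : P.inertia Gal(M/E) = ⊥ := Subgroup.card_eq_one.mp h3
  have h5 : τ ∈ P.inertia Gal(M/E) := hτ
  rw [h4, Subgroup.mem_bot] at h5
  exact h5

/-- **unramifiedness outside `𝔪` descends to Galois subextensions**. -/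
theorem h15_unramifiedOutside_of_tower {𝔪 : Ideal (𝓞 E)} (h : UnramifiedOutside E C 𝔪) :
    UnramifiedOutside E M 𝔪 :=
  fun 𝔭 h𝔭 h0 hcop => h15_inertiaTrivialAt_of_tower E M C h𝔭 h0 (h 𝔭 h𝔭 h0 hcop)

end Tower

end Fermat.Agent.S14x.AL.H15
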