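import Mathlib

/-!
# S14 / AL (helper15): norms in totally complex fields

* `h15_norm_nonneg` : the norm of an element of a totally complex number field is `≥ 0`;
* `h15_absNorm_congr` : `a ≡ b mod m` implies `N(a) ≡ N(b) mod m` (absolute norms of the
  principal ideals), for a totally complex field.
-/

set_option autoImplicit false

open NumberField

namespace Fermat.Agent.S14x.AL.H15

section NormSign

variable (K : Type*) [Field K] [NumberField K]

open scoped Classical in
/-- the product of the complex embeddings over the fibre of a complex place. -/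
theorem h15_prod_fiber (w : InfinitePlace K) (hw : w.IsComplex) (x : K) :
    ∏ φ ∈ (Finset.univ.filter fun φ : K →+* ℂ => InfinitePlace.mk φ = w), φ x =
      ((Complex.normSq (w.embedding x) : ℝ) : ℂ) := by
  have hne : w.embedding ≠ NumberField.ComplexEmbedding.conjugate w.embedding := by
    intro h
    have h1 : NumberField.ComplexEmbedding.IsReal w.embedding :=
      NumberField.ComplexEmbedding.isReal_iff.mpr h.symm
    exact (InfinitePlace.not_isReal_iff_isComplex.mpr hw) (InfinitePlace.isReal_iff.mpr h1)
  have hset : (Finset.univ.filter fun φ : K →+* ℂ => InfinitePlace.mk φ = w) =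
      {w.embedding, NumberField.ComplexEmbedding.conjugate w.embedding} := by
    ext φ
    simp only [Finset.mem_filter, Finset.mem_univ, true_and, Finset.mem_insert,
      Finset.mem_singleton]
    conv_lhs => rw [← InfinitePlace.mk_embedding w, InfinitePlace.mk_eq_iff]
    constructor
    · rintro (h | h)
      · exact Or.inl h
      · right
        rw [← h, NumberField.ComplexEmbedding.conjugate, star_star]
    · rintro (h | h)
      · exact Or.inl h
      · right
        rw [h, NumberField.ComplexEmbedding.conjugate, star_star]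
  rw [hset, Finset.prod_pair hne, NumberField.ComplexEmbedding.conjugate_coe_eq,
    Complex.mul_conj]

/-- the norm of an element of a totally complex number field is nonnegative. -/
theorem h15_norm_nonneg [IsTotallyComplex K] (x : K) : 0 ≤ Algebra.norm ℚ x := by
  classical
  have h := Algebra.norm_eq_prod_embeddings ℚ ℂ x
  rw [← Fintype.prod_equiv (RingHom.equivRatAlgHom K ℂ) (fun f => f x)
    (fun φ => φ x) (fun _ => by simp [RingHom.equivRatAlgHom_apply]),
    ← Finset.prod_fiberwise Finset.univ InfinitePlace.mk (fun φ => φ x)] at h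
  have h2 : ∀ w : InfinitePlace K,
      ∏ φ ∈ (Finset.univ.filter fun φ : K →+* ℂ => InfinitePlace.mk φ = w), φ x =
        ((Complex.normSq (w.embedding x) : ℝ) : ℂ) :=
    fun w => h15_prod_fiber K w (IsTotallyComplex.isComplex w) x
  rw [Finset.prod_congr rfl (fun w _ => h2 w), ← Complex.ofReal_prod] at h
  have h3 : ((Algebra.norm ℚ x : ℚ) : ℝ) = ∏ w : InfinitePlace K,
      Complex.normSq (w.embedding x) := by
    apply Complex.ofReal_injective
    rw [← h]
    simp
  have h4 : (0 : ℝ) ≤ ((Algebra.norm ℚ x : ℚ) : ℝ) := by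
    rw [h3]
    exact Finset.prod_nonneg fun w _ => Complex.normSq_nonneg _
  exact_mod_cast h4

end NormSign

section NormCong

variable (K : Type*) [Field K] [NumberField K]

/-- the integral norm is compatible with congruences modulo a natural number. -/
theorem h15_intNorm_congr (m : ℕ) {a b : 𝓞 K}
    (hab : a - b ∈ Ideal.span {((m : ℕ) : 𝓞 K)}) :
    ((Algebra.norm ℤ a : ℤ) : ZMod m) = ((Algebra.norm ℤ b : ℤ) : ZMod m) := by
  classical
  obtain ⟨c, hc⟩ := Ideal.mem_span_singleton'.mp hab
  have ha : a = b + c * (m : 𝓞 K) := by rw [hc]; ring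
  let bs := Module.Free.chooseBasis ℤ (𝓞 K)
  rw [Algebra.norm_eq_matrix_det bs, Algebra.norm_eq_matrix_det bs]
  have key : ∀ A : Matrix (Module.Free.ChooseBasisIndex ℤ (𝓞 K))
      (Module.Free.ChooseBasisIndex ℤ (𝓞 K)) ℤ,
      ((A.det : ℤ) : ZMod m) = ((Int.castRingHom (ZMod m)).mapMatrix A).det := fun A =>
    RingHom.map_det (Int.castRingHom (ZMod m)) A
  rw [key, key]
  congr 1
  rw [ha, map_add, map_mul, map_natCast, map_add, map_mul, map_natCast]
  have : ((m : ℕ) : Matrix (Module.Free.ChooseBasisIndex ℤ (𝓞 K))
      (Module.Free.ChooseBasisIndex ℤ (𝓞 K)) (ZMod m)) = 0 := by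
    ext i j
    by_cases hij : i = j
    · subst hij
      simp [Matrix.natCast_apply]
    · simp [Matrix.natCast_apply, hij]
  rw [this, mul_zero, add_zero]

/-- in a totally complex field, the absolute norm of a principal ideal is the norm of a
generator. -/
theorem h15_absNorm_span_eq [IsTotallyComplex K] (a : 𝓞 K) :
    ((Ideal.absNorm (Ideal.span {a}) : ℕ) : ℤ) = Algebra.norm ℤ a := by
  rw [Ideal.absNorm_span_singleton, Int.natCast_natAbs, abs_eq_self]
  have h := h15_norm_nonneg K (a : K)
  rw [← Algebra.coe_norm_int] at h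
  exact_mod_cast h

/-- **norm congruence**: in a totally complex field, `a ≡ b mod m` implies
`N(a) ≡ N(b) mod m`. -/
theorem h15_absNorm_congr [IsTotallyComplex K] (m : ℕ) {a b : 𝓞 K}
    (hab : a - b ∈ Ideal.span {((m : ℕ) : 𝓞 K)}) :
    ((Ideal.absNorm (Ideal.span {a}) : ℕ) : ZMod m) =
      ((Ideal.absNorm (Ideal.span {b}) : ℕ) : ZMod m) := by
  have h := h15_intNorm_congr K m hab
  rw [← h15_absNorm_span_eq K a, ← h15_absNorm_span_eq K b] at h
  simpa using h

/-- powers of an `m`-th root of unity only depend on the exponent modulo `m`. -/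
theorem h15_pow_eq_pow_of_zmod_eq {M : Type*} [Monoid M] {z : M} {m : ℕ} (hz : z ^ m = 1)
    {k l : ℕ} (h : (k : ZMod m) = (l : ZMod m)) : z ^ k = z ^ l := by
  rw [pow_eq_pow_mod k hz, pow_eq_pow_mod l hz]
  congr 1
  exact (ZMod.natCast_eq_natCast_iff' k l m).mp h

end NormCong

end Fermat.Agent.S14x.AL.H15
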