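import Fermat.Agent.S14x.Asm.Defs
import Fermat.Agent.S14x.Art.H10_FrobFunct
import Fermat.Agent.S14x.AL.H15_NormCong
import Fermat.Agent.S14x.AL.H15_CycUnram

/-!
# S14 / AL (helper15): the cyclotomic case (Cy) from (U), (N), density and Artin maps

`stCyAsm : Asm.StCyAsm`, i.e. `StArtinExists → StN → StU → StDgen → StCy`, verbatim.

Route: for `E ⊆ M ⊆ C = E(ζ_m)`, `M/E` of prime degree `p`, `E` totally complex: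
* `C/E` and `M/E` are unramified outside `m` (`H15_CycUnram`);
* the Artin map `Ψ` of `C/E` acts on `μ_m` by `ζ ↦ ζ ^ N𝔞` (`h15_artin_root`), hence
  `Ψ((a)) = Ψ((b))` for `a ≡ b mod m` (norms are positive: `H15_NormCong`);
* the Artin map `Φ` of `M/E` is the restriction of `Ψ` (`h15_artin_restrict`), so `Φ` is constant
  on the classes modulo `P_m N(I_M)` (with (N));
* `Φ` takes `p` distinct values on `𝔮^0, …, 𝔮^(p-1)` (density), so an ideal of `ker Φ` not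
  equivalent to `1` would give `p + 1` pairwise inequivalent ideals, contradicting (U).
-/

set_option autoImplicit false
set_option linter.unusedSectionVars false
set_option linter.style.haveILetI false

open NumberField
open scoped Pointwise

namespace Fermat.Agent.S14x.AL.H15

open Fermat.Agent.S14x.Asm

section Induction

/-- coprimality to `𝔪` passes to factors. -/
theorem h15_sup_eq_top_of_mul_left {R : Type*} [CommRing R] {𝔞 𝔟 𝔪 : Ideal R}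
    (h : 𝔞 * 𝔟 ⊔ 𝔪 = ⊤) : 𝔞 ⊔ 𝔪 = ⊤ :=
  eq_top_iff.mpr (h ▸ sup_le_sup_right Ideal.mul_le_left 𝔪)

theorem h15_sup_eq_top_of_mul_right {R : Type*} [CommRing R] {𝔞 𝔟 𝔪 : Ideal R}
    (h : 𝔞 * 𝔟 ⊔ 𝔪 = ⊤) : 𝔟 ⊔ 𝔪 = ⊤ :=
  eq_top_iff.mpr (h ▸ sup_le_sup_right Ideal.mul_le_right 𝔪)

/-- coprimality to `𝔪` passes to products. -/
theorem h15_mul_sup_eq_top {R : Type*} [CommRing R] {𝔞 𝔟 𝔪 : Ideal R}
    (ha : 𝔞 ⊔ 𝔪 = ⊤) (hb : 𝔟 ⊔ 𝔪 = ⊤) : 𝔞 * 𝔟 ⊔ 𝔪 = ⊤ := by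
  rw [← Ideal.isCoprime_iff_sup_eq] at ha hb ⊢
  exact IsCoprime.mul_left ha hb

/-- **induction on the nonzero ideals prime to `𝔪`** of a Dedekind domain. -/
theorem h15_ideal_induction {R : Type*} [CommRing R] [IsDedekindDomain R] (𝔪 : Ideal R)
    (P : Ideal R → Prop) (h1 : P ⊤)
    (hmul : ∀ 𝔭 𝔞 : Ideal R, 𝔭.IsPrime → 𝔭 ≠ ⊥ → 𝔭 ⊔ 𝔪 = ⊤ → 𝔞 ≠ ⊥ → 𝔞 ⊔ 𝔪 = ⊤ →
      P 𝔞 → P (𝔭 * 𝔞)) :
    ∀ 𝔞 : Ideal R, 𝔞 ≠ ⊥ → 𝔞 ⊔ 𝔪 = ⊤ → P 𝔞 := by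
  intro 𝔞
  induction 𝔞 using UniqueFactorizationMonoid.induction_on_prime with
  | h₁ => intro h; exact absurd rfl h
  | h₂ x hx =>
    intro _ _
    have : x = ⊤ := Ideal.isUnit_iff.mp hx
    rw [this]; exact h1
  | h₃ a p ha hp ih =>
    intro h0 hcop
    have hp0 : p ≠ ⊥ := hp.ne_zero
    have hpp : p.IsPrime := Ideal.isPrime_of_prime hp
    have ha0 : a ≠ ⊥ := ha
    exact hmul p a hpp hp0 (h15_sup_eq_top_of_mul_left hcop) ha0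
      (h15_sup_eq_top_of_mul_right hcop) (ih ha0 (h15_sup_eq_top_of_mul_right hcop))

end Induction

section General

variable {K L : Type} [Field K] [NumberField K] [Field L] [NumberField L] [Algebra K L]

/-- a prime of `L` above a prime of `K` prime to `m` does not contain `m`. -/
theorem h15_natCast_notMem (m : ℕ) {𝔭 : Ideal (𝓞 K)}
    (hcop : 𝔭 ⊔ Ideal.span {((m : ℕ) : 𝓞 K)} = ⊤) {P : Ideal (𝓞 L)} (hP : P.IsPrime)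
    (hle : 𝔭 ≤ P.under (𝓞 K)) : ((m : ℕ) : 𝓞 L) ∉ P := by
  intro hm
  have h1 : Ideal.span {((m : ℕ) : 𝓞 K)} ≤ P.under (𝓞 K) := by
    rw [Ideal.span_le, Set.singleton_subset_iff]
    show ((m : ℕ) : 𝓞 K) ∈ P.comap (algebraMap (𝓞 K) (𝓞 L))
    rw [Ideal.mem_comap, map_natCast]
    exact hm
  have h2 : P.under (𝓞 K) = ⊤ := by
    rw [eq_top_iff, ← hcop]
    exact sup_le hle h1
  have h3 : (1 : 𝓞 K) ∈ P.under (𝓞 K) := by rw [h2]; trivial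
  have h4 : (1 : 𝓞 L) ∈ P := by
    have := Ideal.mem_comap.mp h3
    rwa [map_one] at this
  exact hP.ne_top ((Ideal.eq_top_iff_one P).mpr h4)

/-- a prime of `L` above a given nonzero prime of `K`. -/
theorem h15_exists_prime_over {𝔭 : Ideal (𝓞 K)} (h𝔭 : 𝔭.IsPrime) :
    ∃ P : Ideal (𝓞 L), P.IsPrime ∧ P.under (𝓞 K) = 𝔭 := by
  haveI := h𝔭
  obtain ⟨⟨P, hP, hPp⟩⟩ := (inferInstance : Nonempty (𝔭.primesOver (𝓞 L)))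
  exact ⟨P, hP, (hPp.over).symm⟩

/-- a root of unity in `L`, as an element of `𝓞 L`. -/
theorem h15_exists_integer_of_pow_eq_one {m : ℕ} (hm : m ≠ 0) {ζ : L} (hζ : ζ ^ m = 1) :
    ∃ ζ' : 𝓞 L, (ζ' : L) = ζ ∧ ζ' ^ m = 1 := by
  have hint : IsIntegral ℤ ζ := by
    refine ⟨Polynomial.X ^ m - 1, Polynomial.monic_X_pow_sub_C 1 hm, ?_⟩
    simp [hζ]
  refine ⟨⟨ζ, hint⟩, rfl, RingOfIntegers.ext ?_⟩
  show ζ ^ m = 1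
  exact hζ

/-- the Frobenius at a prime `𝔭` prime to `m` acts on the `m`-th roots of unity by `ζ ↦ ζ ^ N𝔭`. -/
theorem h15_frob_root (m : ℕ) [NeZero m] {𝔭 : Ideal (𝓞 K)} (h𝔭 : 𝔭.IsPrime)
    (hcop : 𝔭 ⊔ Ideal.span {((m : ℕ) : 𝓞 K)} = ⊤) {σ : L ≃ₐ[K] L} (hσ : IsFrobAt K L 𝔭 σ)
    (ζ : L) (hζ : ζ ^ m = 1) : σ ζ = ζ ^ (Ideal.absNorm 𝔭) := by
  obtain ⟨P, hP, hPu⟩ := h15_exists_prime_over (L := L) h𝔭
  have hmP : ((m : ℕ) : 𝓞 L) ∉ P := h15_natCast_notMem m hcop hP (by rw [hPu])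
  have hle : 𝔭.map (algebraMap (𝓞 K) (𝓞 L)) ≤ P := by
    rw [Ideal.map_le_iff_le_comap]
    exact hPu.symm.le
  obtain ⟨ζ', hc, hζ'⟩ := h15_exists_integer_of_pow_eq_one (NeZero.ne m) hζ
  have h1 : σ • ζ' - ζ' ^ Nat.card (𝓞 K ⧸ 𝔭) ∈ P := hle (hσ ζ')
  have h5 : (σ • ζ') ^ m = 1 := by rw [← smul_pow', hζ', smul_one]
  have h6 : (ζ' ^ Nat.card (𝓞 K ⧸ 𝔭)) ^ m = 1 := by rw [← pow_mul, mul_comm, pow_mul, hζ', one_pow]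
  have h7 : σ • ζ' = ζ' ^ Nat.card (𝓞 K ⧸ 𝔭) :=
    h15_eq_of_pow_eq_one_of_sub_mem m P hmP h5 h6 h1
  have h8 : ((σ • ζ' : 𝓞 L) : L) = σ (ζ' : L) := rfl
  have h9 : Ideal.absNorm 𝔭 = Nat.card (𝓞 K ⧸ 𝔭) := by
    rw [Ideal.absNorm_apply, Submodule.cardQuot_apply]
  rw [← hc, ← h8, h7, h9]
  rfl

/-- **cyclotomic formula**: an Artin map away from `m` acts on the `m`-th roots of unity by
`ζ ↦ ζ ^ N𝔞`. -/
theorem h15_artin_root (m : ℕ) [NeZero m] {Ψ : Ideal (𝓞 K) → (L ≃ₐ[K] L)}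
    (hΨ : IsArtinMap K L (Ideal.span {((m : ℕ) : 𝓞 K)}) Ψ) :
    ∀ 𝔞 : Ideal (𝓞 K), 𝔞 ≠ ⊥ → 𝔞 ⊔ Ideal.span {((m : ℕ) : 𝓞 K)} = ⊤ →
      ∀ ζ : L, ζ ^ m = 1 → Ψ 𝔞 ζ = ζ ^ (Ideal.absNorm 𝔞) := by
  apply h15_ideal_induction
  · intro ζ _
    rw [hΨ.map_one, Ideal.absNorm_top, pow_one]
    rfl
  · intro 𝔭 𝔞 h𝔭 h𝔭0 h𝔭c h𝔞0 h𝔞c ih ζ hζ
    rw [hΨ.map_mul 𝔭 𝔞 h𝔭0 h𝔞0 h𝔭c h𝔞c, AlgEquiv.mul_apply, ih ζ hζ, map_pow,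
      h15_frob_root m h𝔭 h𝔭c (hΨ.frob 𝔭 h𝔭 h𝔭0 h𝔭c) ζ hζ, ← pow_mul, map_mul]

end General

section CycCongr

variable (E C : Type) [Field E] [NumberField E] [Field C] [NumberField C] [Algebra E C]
  (m : ℕ) [NeZero m] [IsCyclotomicExtension {m} E C]

/-- `a ≡ b mod 𝔪` and `(a) + 𝔪 = 1` imply `(b) + 𝔪 = 1`. -/
theorem h15_span_sup_eq_top_of_sub_mem {R : Type*} [CommRing R] {𝔪 : Ideal R} {a b : R}
    (hab : a - b ∈ 𝔪) (ha : Ideal.span {a} ⊔ 𝔪 = ⊤) : Ideal.span {b} ⊔ 𝔪 = ⊤ := by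
  rw [eq_top_iff, ← ha]
  refine sup_le ?_ le_sup_right
  rw [Ideal.span_le, Set.singleton_subset_iff]
  have : a = b + (a - b) := by ring
  rw [this]
  exact Ideal.add_mem _ (Ideal.mem_sup_left (Ideal.subset_span rfl)) (Ideal.mem_sup_right hab)

/-- **the Artin map of `E(ζ_m)/E` is trivial on the ray modulo `m`** (`E` totally complex):
`a ≡ b mod m` implies `Ψ((a)) = Ψ((b))`. -/
theorem h15_artin_cyc_congr [IsTotallyComplex E] {Ψ : Ideal (𝓞 E) → (C ≃ₐ[E] C)}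
    (hΨ : IsArtinMap E C (Ideal.span {((m : ℕ) : 𝓞 E)}) Ψ) {a b : 𝓞 E} (ha : a ≠ 0)
    (hb : b ≠ 0) (hab : a - b ∈ Ideal.span {((m : ℕ) : 𝓞 E)})
    (hacop : Ideal.span {a} ⊔ Ideal.span {((m : ℕ) : 𝓞 E)} = ⊤) :
    Ψ (Ideal.span {a}) = Ψ (Ideal.span {b}) := by
  have hbcop := h15_span_sup_eq_top_of_sub_mem hab hacop
  have ha0 : Ideal.span {a} ≠ ⊥ := by
    rw [Ne, Ideal.span_singleton_eq_bot]; exact ha
  have hb0 : Ideal.span {b} ≠ ⊥ := by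
    rw [Ne, Ideal.span_singleton_eq_bot]; exact hb
  have hN := h15_absNorm_congr E m hab
  have key : (Ψ (Ideal.span {b}))⁻¹ * Ψ (Ideal.span {a}) = 1 := by
    apply h15_eq_one_of_fix_roots E C m
    intro ζ hζ
    rw [AlgEquiv.mul_apply, h15_artin_root m hΨ _ ha0 hacop ζ hζ,
      h15_pow_eq_pow_of_zmod_eq hζ hN, ← h15_artin_root m hΨ _ hb0 hbcop ζ hζ]
    exact (Ψ (Ideal.span {b})).symm_apply_apply ζ
  exact (inv_mul_eq_one.mp key).symm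

end CycCongr

section Restrict

variable (E M C : Type) [Field E] [NumberField E] [Field M] [NumberField M] [Field C]
  [NumberField C] [Algebra E M] [Algebra M C] [Algebra E C] [IsScalarTower E M C]
  [IsGalois E M] [IsGalois E C]

/-- **restriction**: the Artin map of `M/E` is the restriction of the Artin map of `C/E`. -/
theorem h15_artin_restrict {𝔪 : Ideal (𝓞 E)} (hM : UnramifiedOutside E M 𝔪)
    {Φ : Ideal (𝓞 E) → (M ≃ₐ[E] M)} {Ψ : Ideal (𝓞 E) → (C ≃ₐ[E] C)}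
    (hΦ : IsArtinMap E M 𝔪 Φ) (hΨ : IsArtinMap E C 𝔪 Ψ) :
    ∀ 𝔞 : Ideal (𝓞 E), 𝔞 ≠ ⊥ → 𝔞 ⊔ 𝔪 = ⊤ → Φ 𝔞 = AlgEquiv.restrictNormalHom M (Ψ 𝔞) := by
  apply h15_ideal_induction
  · rw [hΦ.map_one, hΨ.map_one, map_one]
  · intro 𝔭 𝔞 h𝔭 h𝔭0 h𝔭c h𝔞0 h𝔞c ih
    rw [hΦ.map_mul 𝔭 𝔞 h𝔭0 h𝔞0 h𝔭c h𝔞c, hΨ.map_mul 𝔭 𝔞 h𝔭0 h𝔞0 h𝔭c h𝔞c, map_mul, ih]
    congr 1
    -- the prime case
    obtain ⟨Q, hQ, hQu⟩ := h15_exists_prime_over (L := C) h𝔭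
    set P : Ideal (𝓞 M) := Q.under (𝓞 M) with hPdef
    have hP : P.IsPrime := Ideal.IsPrime.under (𝓞 M) Q
    have hPu : P.under (𝓞 E) = 𝔭 := by rw [hPdef, Ideal.under_under, hQu]
    have hP0 : P ≠ ⊥ := by
      intro h
      rw [h] at hPu
      apply h𝔭0
      rw [← hPu]
      exact Ideal.under_bot (𝓞 E) (𝓞 M)
    have hTriv : Art.H10.TrivInertia E P := fun g hg =>
      hM 𝔭 h𝔭 h𝔭0 h𝔭c P hP hP0 (by rw [hPu]) g hg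
    apply Art.H10.h10_eq_of_forall_sub_mem hTriv
    intro x
    have h1 : Φ 𝔭 • x - x ^ Nat.card (𝓞 E ⧸ 𝔭) ∈ P := by
      have hle : 𝔭.map (algebraMap (𝓞 E) (𝓞 M)) ≤ P := by
        rw [Ideal.map_le_iff_le_comap]
        exact hPu.symm.le
      exact hle (hΦ.frob 𝔭 h𝔭 h𝔭0 h𝔭c x)
    have h2 : (AlgEquiv.restrictNormalHom M (Ψ 𝔭)) • x - x ^ Nat.card (𝓞 E ⧸ 𝔭) ∈ P := by
      rw [hPdef, Ideal.under_def, Ideal.mem_comap, map_sub, map_pow,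
        Art.H10.h10_algebraMap_restrict_smul]
      have hle : 𝔭.map (algebraMap (𝓞 E) (𝓞 C)) ≤ Q := by
        rw [Ideal.map_le_iff_le_comap]
        exact hQu.symm.le
      exact hle (hΨ.frob 𝔭 h𝔭 h𝔭0 h𝔭c (algebraMap (𝓞 M) (𝓞 C) x))
    have h3 : Φ 𝔭 • x - (AlgEquiv.restrictNormalHom M (Ψ 𝔭)) • x =
        (Φ 𝔭 • x - x ^ Nat.card (𝓞 E ⧸ 𝔭)) -
          ((AlgEquiv.restrictNormalHom M (Ψ 𝔭)) • x - x ^ Nat.card (𝓞 E ⧸ 𝔭)) := by ring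
    rw [h3]
    exact P.sub_mem h1 h2

end Restrict

section Classes

variable (E M : Type) [Field E] [NumberField E] [Field M] [NumberField M] [Algebra E M]

/-- `NormEquiv` is symmetric. -/
theorem h15_normEquiv_symm {𝔪 𝔞 𝔟 : Ideal (𝓞 E)} (h : NormEquiv E M 𝔪 𝔞 𝔟) :
    NormEquiv E M 𝔪 𝔟 𝔞 := by
  obtain ⟨a, b, 𝔄, 𝔅, ha, hb, hab, hac, h𝔄, h𝔅, h𝔄c, h𝔅c, heq⟩ := h
  refine ⟨b, a, 𝔅, 𝔄, hb, ha, ?_, h15_span_sup_eq_top_of_sub_mem hab hac, h𝔅, h𝔄, h𝔅c, h𝔄c,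
    heq.symm⟩
  have : b - a = -(a - b) := by ring
  rw [this]
  exact 𝔪.neg_mem hab

/-- an Artin map which is trivial on norms and on the ray modulo `𝔪` is constant on the classes
modulo `P_𝔪 N(I_M)`. -/
theorem h15_artin_eq_of_normEquiv {𝔪 : Ideal (𝓞 E)} {Φ : Ideal (𝓞 E) → (M ≃ₐ[E] M)}
    (hΦ : IsArtinMap E M 𝔪 Φ)
    (hnorm : ∀ 𝔄 : Ideal (𝓞 M), 𝔄 ≠ ⊥ → Ideal.relNorm (𝓞 E) 𝔄 ⊔ 𝔪 = ⊤ →
      Φ (Ideal.relNorm (𝓞 E) 𝔄) = 1)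
    (hray : ∀ a b : 𝓞 E, a ≠ 0 → b ≠ 0 → a - b ∈ 𝔪 → Ideal.span {a} ⊔ 𝔪 = ⊤ →
      Φ (Ideal.span {a}) = Φ (Ideal.span {b}))
    {𝔞 𝔟 : Ideal (𝓞 E)} (h𝔞0 : 𝔞 ≠ ⊥) (h𝔞c : 𝔞 ⊔ 𝔪 = ⊤) (h𝔟0 : 𝔟 ≠ ⊥) (h𝔟c : 𝔟 ⊔ 𝔪 = ⊤)
    (h : NormEquiv E M 𝔪 𝔞 𝔟) : Φ 𝔞 = Φ 𝔟 := by
  obtain ⟨a, b, 𝔄, 𝔅, ha, hb, hab, hac, h𝔄, h𝔅, h𝔄c, h𝔅c, heq⟩ := h
  have hbc := h15_span_sup_eq_top_of_sub_mem hab hac
  have ha0 : Ideal.span {a} ≠ ⊥ := by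
    rw [Ne, Ideal.span_singleton_eq_bot]; exact ha
  have hb0 : Ideal.span {b} ≠ ⊥ := by
    rw [Ne, Ideal.span_singleton_eq_bot]; exact hb
  have hN𝔄 : Ideal.relNorm (𝓞 E) 𝔄 ≠ ⊥ := by
    rw [Ne, Ideal.relNorm_eq_bot_iff]; exact h𝔄
  have hN𝔅 : Ideal.relNorm (𝓞 E) 𝔅 ≠ ⊥ := by
    rw [Ne, Ideal.relNorm_eq_bot_iff]; exact h𝔅
  have h1 := congrArg Φ heq
  rw [hΦ.map_mul _ _ (mul_ne_zero ha0 h𝔞0) hN𝔄 (h15_mul_sup_eq_top hac h𝔞c) h𝔄c,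
    hΦ.map_mul _ _ ha0 h𝔞0 hac h𝔞c,
    hΦ.map_mul _ _ (mul_ne_zero hb0 h𝔟0) hN𝔅 (h15_mul_sup_eq_top hbc h𝔟c) h𝔅c,
    hΦ.map_mul _ _ hb0 h𝔟0 hbc h𝔟c, hnorm 𝔄 h𝔄 h𝔄c, hnorm 𝔅 h𝔅 h𝔅c, mul_one, mul_one,
    hray a b ha hb hab hac] at h1
  exact mul_left_cancel h1

/-- powers of an ideal prime to `𝔪`. -/
theorem h15_pow_sup_eq_top {R : Type*} [CommRing R] {𝔮 𝔪 : Ideal R} (h : 𝔮 ⊔ 𝔪 = ⊤) (i : ℕ) :
    𝔮 ^ i ⊔ 𝔪 = ⊤ := by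
  induction i with
  | zero => rw [pow_zero, Ideal.one_eq_top, top_sup_eq]
  | succ i ih => rw [pow_succ]; exact h15_mul_sup_eq_top ih h

/-- an Artin map on the powers of an ideal. -/
theorem h15_artin_pow {𝔪 : Ideal (𝓞 E)} {Φ : Ideal (𝓞 E) → (M ≃ₐ[E] M)}
    (hΦ : IsArtinMap E M 𝔪 Φ) {𝔮 : Ideal (𝓞 E)} (h0 : 𝔮 ≠ ⊥) (hc : 𝔮 ⊔ 𝔪 = ⊤) (i : ℕ) :
    Φ (𝔮 ^ i) = Φ 𝔮 ^ i := by
  induction i with
  | zero => rw [pow_zero, pow_zero, Ideal.one_eq_top, hΦ.map_one]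
  | succ i ih =>
    rw [pow_succ, pow_succ, hΦ.map_mul _ _ (pow_ne_zero i h0) h0 (h15_pow_sup_eq_top hc i) hc, ih]

end Classes

section Assembly

/-- in a group of prime order, a nontrivial element has injective powers below `p`. -/
theorem h15_pow_inj_of_prime_card {G : Type*} [Group G] {p : ℕ} (hp : p.Prime)
    (hcard : Nat.card G = p) {g : G} (hg : g ≠ 1) {i j : ℕ} (hi : i < p) (hj : j < p)
    (h : g ^ i = g ^ j) : i = j := by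
  haveI : Finite G := Nat.finite_of_card_ne_zero (hcard ▸ hp.ne_zero)
  have hord : orderOf g = p := by
    have hdvd : orderOf g ∣ p := hcard ▸ orderOf_dvd_natCard g
    rcases (Nat.dvd_prime hp).mp hdvd with h1 | h1
    · exact absurd (orderOf_eq_one_iff.mp h1) hg
    · exact h1
  have := pow_eq_pow_iff_modEq.mp h
  rw [hord] at this
  exact Nat.ModEq.eq_of_lt_of_lt this hi hj

/-- **(Cy) from (U), (N), density and the existence of Artin maps** (`Asm.StCyAsm`, verbatim). -/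
theorem stCyAsm : StCyAsm := by
  intro hAE hN hU hD E M C _ _ _ _ _ _ _ _ _ _ m _ _ _ hTC hprime Φ hΦ 𝔞 h𝔞0 h𝔞c hΦ𝔞
  classical
  haveI : IsTotallyComplex E := hTC
  haveI : IsGalois E C := IsCyclotomicExtension.isGalois {m} E C
  set 𝔪 : Ideal (𝓞 E) := Ideal.span {((m : ℕ) : 𝓞 E)} with h𝔪
  have h𝔪0 : 𝔪 ≠ ⊥ := by
    rw [h𝔪, Ne, Ideal.span_singleton_eq_bot]
    exact_mod_cast NeZero.ne m
  set p := Module.finrank E M with hp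
  have hcard : Nat.card (M ≃ₐ[E] M) = p := IsGalois.card_aut_eq_finrank E M
  -- commutativity
  have hcommC : ∀ σ τ : C ≃ₐ[E] C, σ * τ = τ * σ := fun σ τ =>
    (IsCyclotomicExtension.isMulCommutative {m} E C).is_comm.comm σ τ
  have hcommM : ∀ σ τ : M ≃ₐ[E] M, σ * τ = τ * σ := by
    haveI : Fact p.Prime := ⟨hprime⟩
    haveI : IsCyclic (M ≃ₐ[E] M) := isCyclic_of_prime_card hcard
    intro σ τ
    exact (IsCyclic.commGroup (α := M ≃ₐ[E] M)).mul_comm σ τ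
  -- unramifiedness
  have hCu : UnramifiedOutside E C 𝔪 := h15_unramifiedOutside_cyclotomic E C m
  have hMu : UnramifiedOutside E M 𝔪 := h15_unramifiedOutside_of_tower E M C hCu
  -- the Artin map of `C / E`
  obtain ⟨Ψ, hΨ⟩ := hAE E C hcommC 𝔪 hCu
  have hres := h15_artin_restrict E M C hMu hΦ hΨ
  have hray : ∀ a b : 𝓞 E, a ≠ 0 → b ≠ 0 → a - b ∈ 𝔪 → Ideal.span {a} ⊔ 𝔪 = ⊤ →
      Φ (Ideal.span {a}) = Φ (Ideal.span {b}) := by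
    intro a b ha hb hab hac
    have hbc := h15_span_sup_eq_top_of_sub_mem hab hac
    have ha0 : Ideal.span {a} ≠ ⊥ := by
      rw [Ne, Ideal.span_singleton_eq_bot]; exact ha
    have hb0 : Ideal.span {b} ≠ ⊥ := by
      rw [Ne, Ideal.span_singleton_eq_bot]; exact hb
    rw [hres _ ha0 hac, hres _ hb0 hbc, h15_artin_cyc_congr E C m hΨ ha hb hab hac]
  have hnorm : ∀ 𝔄 : Ideal (𝓞 M), 𝔄 ≠ ⊥ → Ideal.relNorm (𝓞 E) 𝔄 ⊔ 𝔪 = ⊤ →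
      Φ (Ideal.relNorm (𝓞 E) 𝔄) = 1 := hN E M hcommM 𝔪 hMu Φ hΦ
  have hclass : ∀ {𝔟 𝔠 : Ideal (𝓞 E)}, 𝔟 ≠ ⊥ → 𝔟 ⊔ 𝔪 = ⊤ → 𝔠 ≠ ⊥ → 𝔠 ⊔ 𝔪 = ⊤ →
      NormEquiv E M 𝔪 𝔟 𝔠 → Φ 𝔟 = Φ 𝔠 := fun h1 h2 h3 h4 h =>
    h15_artin_eq_of_normEquiv E M hΦ hnorm hray h1 h2 h3 h4 h
  -- a prime with nontrivial Frobenius
  obtain ⟨𝔮, q, P, σ, h𝔮, hq, h𝔮card, h𝔮c, hP, hPu, hfrob, hσ⟩ :=
    hD E M (hp ▸ hprime.one_lt) 𝔪 h𝔪0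
  have h𝔮0 : 𝔮 ≠ ⊥ := by
    intro h
    have h9 : Ideal.absNorm 𝔮 = Nat.card (𝓞 E ⧸ 𝔮) := by
      rw [Ideal.absNorm_apply, Submodule.cardQuot_apply]
    rw [h𝔮card, h, Ideal.absNorm_bot] at h9
    exact hq.ne_zero h9.symm
  have hP0 : P ≠ ⊥ := by
    intro h
    rw [h] at hPu
    apply h𝔮0
    rw [← hPu]
    exact Ideal.under_bot (𝓞 E) (𝓞 M)
  have hg : Φ 𝔮 = σ := by
    have hTriv : Art.H10.TrivInertia E P := fun g hg =>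
      hMu 𝔮 h𝔮 h𝔮0 h𝔮c P hP hP0 (by rw [hPu]) g hg
    apply Art.H10.h10_eq_of_forall_sub_mem hTriv
    intro x
    have h1 : Φ 𝔮 • x - x ^ Nat.card (𝓞 E ⧸ 𝔮) ∈ P := by
      have hle : 𝔮.map (algebraMap (𝓞 E) (𝓞 M)) ≤ P := by
        rw [Ideal.map_le_iff_le_comap]
        exact hPu.symm.le
      exact hle (hΦ.frob 𝔮 h𝔮 h𝔮0 h𝔮c x)
    have h2 : σ • x - x ^ Nat.card (𝓞 E ⧸ 𝔮) ∈ P := by
      have := hfrob x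
      rwa [hPu] at this
    have h3 : Φ 𝔮 • x - σ • x =
        (Φ 𝔮 • x - x ^ Nat.card (𝓞 E ⧸ 𝔮)) - (σ • x - x ^ Nat.card (𝓞 E ⧸ 𝔮)) := by ring
    rw [h3]
    exact P.sub_mem h1 h2
  have hg1 : Φ 𝔮 ≠ 1 := hg ▸ hσ
  have hpow : ∀ i : ℕ, Φ (𝔮 ^ i) = Φ 𝔮 ^ i := h15_artin_pow E M hΦ h𝔮0 h𝔮c
  have hinj : ∀ {i j : ℕ}, i < p → j < p → Φ 𝔮 ^ i = Φ 𝔮 ^ j → i = j := fun hi hj h =>
    h15_pow_inj_of_prime_card hprime hcard hg1 hi hj h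
  have hp0 : 0 < p := hprime.pos
  -- the family of `p + 1` ideals
  by_contra hcon
  let f : Fin (p + 1) → Ideal (𝓞 E) := Fin.cons 𝔞 (fun j : Fin p => 𝔮 ^ (j : ℕ))
  have hf : ∀ i, f i ≠ ⊥ ∧ f i ⊔ 𝔪 = ⊤ := by
    intro i
    refine Fin.cases ?_ (fun j => ?_) i
    · exact ⟨h𝔞0, h𝔞c⟩
    · exact ⟨pow_ne_zero _ h𝔮0, h15_pow_sup_eq_top h𝔮c _⟩
  have hzero : ∀ j : Fin p, ¬ NormEquiv E M 𝔪 𝔞 (𝔮 ^ (j : ℕ)) := by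
    intro j h
    have h1 := hclass h𝔞0 h𝔞c (pow_ne_zero _ h𝔮0) (h15_pow_sup_eq_top h𝔮c _) h
    rw [hΦ𝔞, hpow] at h1
    have h2 : (j : ℕ) = 0 := hinj j.2 hp0 (by rw [pow_zero]; exact h1.symm)
    rw [h2, pow_zero, Ideal.one_eq_top] at h
    exact hcon h
  have hpair : ∀ i j, i ≠ j → ¬ NormEquiv E M 𝔪 (f i) (f j) := by
    intro i j
    refine Fin.cases ?_ (fun i' => ?_) i <;> refine Fin.cases ?_ (fun j' => ?_) j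
    · intro h; exact absurd rfl h
    · intro _
      exact hzero j'
    · intro _ h
      exact hzero i' (h15_normEquiv_symm E M h)
    · intro hne h
      have h1 := hclass (pow_ne_zero _ h𝔮0) (h15_pow_sup_eq_top h𝔮c _) (pow_ne_zero _ h𝔮0)
        (h15_pow_sup_eq_top h𝔮c _) h
      rw [hpow, hpow] at h1
      have h2 : (i' : ℕ) = (j' : ℕ) := hinj i'.2 j'.2 h1
      exact hne (by rw [Fin.ext h2])
  have := hU E M 𝔪 h𝔪0 (p + 1) f hf hpair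
  omega

end Assembly

end Fermat.Agent.S14x.AL.H15
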