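import Fermat.Agent.S14x.AL.H20_Final
import Fermat.Agent.S14x.AL.H13_Step
import Fermat.Agent.S14x.AL.H15_CyAsm
import Fermat.Agent.S14x.HQ.H18_Final
import Fermat.Agent.S14x.Art.H28_AsmArt
import Fermat.Agent.S14x.Art.H10_Funct

/-!
# S14 / package AL (helper20): reciprocity (R) with the landed deliverables wired in

`h20_stR'_of_pair : StPair p → StU → StDgen → StR' p`
(ART: `StArtinExists`, `StN`, `StFunct`; HQ: `StLw`; AL: `StStep`, `StCyAsm`, `StDesc`,
`StRAsm'` are wired in; open: `StPair p` (Artin's lemma, AL), `StU`, `StDgen` (LFN)).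
-/

set_option autoImplicit false

open NumberField

noncomputable section

namespace Fermat.Agent.S14x.AL

open Fermat.Agent.S14x.Asm

/-- (Cy) from the LFN deliverables. -/
theorem h20_stCy (hU : StU) (hDgen : StDgen) : StCy :=
  H15.stCyAsm Art.H28.stArtinExists Art.H28.stN hU hDgen

/-- `ker Φ ≤ P_K N(I_L)` from Artin's lemma for pairs and the LFN deliverables. -/
theorem h20_stKerLe'_of_pair (p : ℕ) [Fact p.Prime] (hPair : StPair p) (hU : StU)
    (hDgen : StDgen) : StKerLe' p :=
  h20_stAL'_of p hPair H13.stStep Art.H28.stArtinExists Art.H28.stN Art.H10.stFunct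
    (h20_stCy hU hDgen) hDgen

/-- **(R)** from Artin's lemma for pairs and the LFN deliverables. -/
theorem h20_stR'_of_pair (p : ℕ) [Fact p.Prime] (hPair : StPair p) (hU : StU)
    (hDgen : StDgen) : StR' p :=
  stRAsm' p (h20_stKerLe'_of_pair p hPair hU hDgen) HQ.h18_asm_stLw

end Fermat.Agent.S14x.AL
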