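import Fermat.Agent.S14x.AL.H20_Defs

/-!
# S14 / package AL (helper20): leaf D2, the algebraic descent `StKey p → StKerLe' p`,
and the assembly `StRAsm' p : StKerLe' p → StLw → StR' p`.

The relation `NormEquiv K L ⊤` ("`𝔞 ∼ 𝔟` modulo `P_K N(I_L)`") is a congruence on the monoid of
nonzero ideals, and `𝔞 ^ [L : K] ∼ 1`.
-/

set_option autoImplicit false

open NumberField

noncomputable section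

namespace Fermat.Agent.S14x.AL

open Fermat.Agent.S14x.Asm

section NE

variable (K L : Type) [Field K] [NumberField K] [Field L] [NumberField L] [Algebra K L]

/-- `NormEquiv K L ⊤` without the trivial conditions. -/
theorem h20_normEquiv_top_iff (𝔞 𝔟 : Ideal (𝓞 K)) :
    NormEquiv K L ⊤ 𝔞 𝔟 ↔ ∃ (a b : 𝓞 K) (𝔄 𝔅 : Ideal (𝓞 L)), a ≠ 0 ∧ b ≠ 0 ∧ 𝔄 ≠ ⊥ ∧ 𝔅 ≠ ⊥ ∧
      Ideal.span {a} * 𝔞 * Ideal.relNorm (𝓞 K) 𝔄 = Ideal.span {b} * 𝔟 * Ideal.relNorm (𝓞 K) 𝔅 := by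
  constructor
  · rintro ⟨a, b, 𝔄, 𝔅, ha, hb, -, -, h𝔄, h𝔅, -, -, h⟩
    exact ⟨a, b, 𝔄, 𝔅, ha, hb, h𝔄, h𝔅, h⟩
  · rintro ⟨a, b, 𝔄, 𝔅, ha, hb, h𝔄, h𝔅, h⟩
    exact ⟨a, b, 𝔄, 𝔅, ha, hb, Submodule.mem_top, sup_top_eq _, h𝔄, h𝔅, sup_top_eq _,
      sup_top_eq _, h⟩

variable {K L}

theorem h20_ne_refl (𝔞 : Ideal (𝓞 K)) : NormEquiv K L ⊤ 𝔞 𝔞 := by
  rw [h20_normEquiv_top_iff]
  exact ⟨1, 1, ⊤, ⊤, one_ne_zero, one_ne_zero, top_ne_bot, top_ne_bot, rfl⟩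

theorem h20_ne_symm {𝔞 𝔟 : Ideal (𝓞 K)} (h : NormEquiv K L ⊤ 𝔞 𝔟) : NormEquiv K L ⊤ 𝔟 𝔞 := by
  rw [h20_normEquiv_top_iff] at h ⊢
  obtain ⟨a, b, 𝔄, 𝔅, ha, hb, h𝔄, h𝔅, h⟩ := h
  exact ⟨b, a, 𝔅, 𝔄, hb, ha, h𝔅, h𝔄, h.symm⟩

theorem h20_ne_trans {𝔞 𝔟 𝔠 : Ideal (𝓞 K)} (h₁ : NormEquiv K L ⊤ 𝔞 𝔟)
    (h₂ : NormEquiv K L ⊤ 𝔟 𝔠) : NormEquiv K L ⊤ 𝔞 𝔠 := by
  rw [h20_normEquiv_top_iff] at h₁ h₂ ⊢
  obtain ⟨a, b, 𝔄, 𝔅, ha, hb, h𝔄, h𝔅, h⟩ := h₁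
  obtain ⟨c, d, 𝔄', 𝔅', hc, hd, h𝔄', h𝔅', h'⟩ := h₂
  refine ⟨a * c, b * d, 𝔄 * 𝔄', 𝔅 * 𝔅', mul_ne_zero ha hc, mul_ne_zero hb hd,
    mul_ne_zero h𝔄 h𝔄', mul_ne_zero h𝔅 h𝔅', ?_⟩
  rw [← Ideal.span_singleton_mul_span_singleton, ← Ideal.span_singleton_mul_span_singleton,
    map_mul, map_mul]
  calc Ideal.span {a} * Ideal.span {c} * 𝔞 * (Ideal.relNorm (𝓞 K) 𝔄 * Ideal.relNorm (𝓞 K) 𝔄')
      = (Ideal.span {a} * 𝔞 * Ideal.relNorm (𝓞 K) 𝔄) *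
          (Ideal.span {c} * Ideal.relNorm (𝓞 K) 𝔄') := by ring
    _ = (Ideal.span {b} * 𝔟 * Ideal.relNorm (𝓞 K) 𝔅) *
          (Ideal.span {c} * Ideal.relNorm (𝓞 K) 𝔄') := by rw [h]
    _ = (Ideal.span {c} * 𝔟 * Ideal.relNorm (𝓞 K) 𝔄') *
          (Ideal.span {b} * Ideal.relNorm (𝓞 K) 𝔅) := by ring
    _ = (Ideal.span {d} * 𝔠 * Ideal.relNorm (𝓞 K) 𝔅') *
          (Ideal.span {b} * Ideal.relNorm (𝓞 K) 𝔅) := by rw [h']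
    _ = Ideal.span {b} * Ideal.span {d} * 𝔠 *
          (Ideal.relNorm (𝓞 K) 𝔅 * Ideal.relNorm (𝓞 K) 𝔅') := by ring

theorem h20_ne_mul {𝔞 𝔟 𝔞' 𝔟' : Ideal (𝓞 K)} (h₁ : NormEquiv K L ⊤ 𝔞 𝔟)
    (h₂ : NormEquiv K L ⊤ 𝔞' 𝔟') : NormEquiv K L ⊤ (𝔞 * 𝔞') (𝔟 * 𝔟') := by
  rw [h20_normEquiv_top_iff] at h₁ h₂ ⊢
  obtain ⟨a, b, 𝔄, 𝔅, ha, hb, h𝔄, h𝔅, h⟩ := h₁
  obtain ⟨c, d, 𝔄', 𝔅', hc, hd, h𝔄', h𝔅', h'⟩ := h₂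
  refine ⟨a * c, b * d, 𝔄 * 𝔄', 𝔅 * 𝔅', mul_ne_zero ha hc, mul_ne_zero hb hd,
    mul_ne_zero h𝔄 h𝔄', mul_ne_zero h𝔅 h𝔅', ?_⟩
  rw [← Ideal.span_singleton_mul_span_singleton, ← Ideal.span_singleton_mul_span_singleton,
    map_mul, map_mul]
  calc Ideal.span {a} * Ideal.span {c} * (𝔞 * 𝔞') *
        (Ideal.relNorm (𝓞 K) 𝔄 * Ideal.relNorm (𝓞 K) 𝔄')
      = (Ideal.span {a} * 𝔞 * Ideal.relNorm (𝓞 K) 𝔄) *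
          (Ideal.span {c} * 𝔞' * Ideal.relNorm (𝓞 K) 𝔄') := by ring
    _ = (Ideal.span {b} * 𝔟 * Ideal.relNorm (𝓞 K) 𝔅) *
          (Ideal.span {d} * 𝔟' * Ideal.relNorm (𝓞 K) 𝔅') := by rw [h, h']
    _ = Ideal.span {b} * Ideal.span {d} * (𝔟 * 𝔟') *
          (Ideal.relNorm (𝓞 K) 𝔅 * Ideal.relNorm (𝓞 K) 𝔅') := by ring

theorem h20_ne_mul_top {𝔞 𝔞' : Ideal (𝓞 K)} (h₁ : NormEquiv K L ⊤ 𝔞 ⊤)
    (h₂ : NormEquiv K L ⊤ 𝔞' ⊤) : NormEquiv K L ⊤ (𝔞 * 𝔞') ⊤ := by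
  have := h20_ne_mul h₁ h₂
  rwa [Ideal.mul_top] at this

theorem h20_ne_pow_top {𝔞 : Ideal (𝓞 K)} (h : NormEquiv K L ⊤ 𝔞 ⊤) (n : ℕ) :
    NormEquiv K L ⊤ (𝔞 ^ n) ⊤ := by
  induction n with
  | zero => rw [pow_zero, Ideal.one_eq_top]; exact h20_ne_refl _
  | succ n ih => rw [pow_succ]; exact h20_ne_mul_top ih h

/-- cancellation of a factor equivalent to `1`. -/
theorem h20_ne_cancel {𝔞 𝔵 : Ideal (𝓞 K)} (h₁ : NormEquiv K L ⊤ (𝔞 * 𝔵) ⊤)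
    (h₂ : NormEquiv K L ⊤ 𝔵 ⊤) : NormEquiv K L ⊤ 𝔞 ⊤ := by
  have h3 : NormEquiv K L ⊤ (𝔞 * ⊤) (𝔞 * 𝔵) := h20_ne_mul (h20_ne_refl 𝔞) (h20_ne_symm h₂)
  rw [Ideal.mul_top] at h3
  exact h20_ne_trans h3 h₁

/-- principal ideals are equivalent to `1`. -/
theorem h20_ne_span {β : 𝓞 K} (hβ : β ≠ 0) : NormEquiv K L ⊤ (Ideal.span {β}) ⊤ := by
  rw [h20_normEquiv_top_iff]
  refine ⟨1, β, ⊤, ⊤, one_ne_zero, hβ, top_ne_bot, top_ne_bot, ?_⟩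
  rw [Ideal.span_singleton_one, Ideal.relNorm_top, Ideal.mul_top, Ideal.mul_top,
    Ideal.top_mul, Ideal.mul_top]

/-- `𝔞 ^ [L : K] = N_{L/K}(𝔞 𝓞_L) ∼ 1`. -/
theorem h20_ne_pow_finrank {𝔞 : Ideal (𝓞 K)} (h𝔞 : 𝔞 ≠ ⊥) :
    NormEquiv K L ⊤ (𝔞 ^ Module.finrank K L) ⊤ := by
  rw [h20_normEquiv_top_iff]
  have hinj : Function.Injective (algebraMap (𝓞 K) (𝓞 L)) :=
    FaithfulSMul.algebraMap_injective (𝓞 K) (𝓞 L)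
  have hmap : 𝔞.map (algebraMap (𝓞 K) (𝓞 L)) ≠ ⊥ := by
    rw [Ne, Ideal.map_eq_bot_iff_of_injective hinj]
    exact h𝔞
  refine ⟨1, 1, ⊤, 𝔞.map (algebraMap (𝓞 K) (𝓞 L)), one_ne_zero, one_ne_zero, top_ne_bot,
    hmap, ?_⟩
  rw [Ideal.relNorm_algebraMap, Ideal.relNorm_top,
    ← IsFractionRing.finrank_eq (𝓞 K) K (𝓞 L) L, Ideal.mul_top, Ideal.mul_top]

/-- exponents of a fixed ideal may be changed modulo `[L : K]`. -/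
theorem h20_ne_pow_congr {𝔮 𝔞 : Ideal (𝓞 K)} (h𝔮 : 𝔮 ≠ ⊥) {a b : ℕ}
    (hab : a ≡ b [MOD Module.finrank K L]) (h : NormEquiv K L ⊤ (𝔞 * 𝔮 ^ a) ⊤) :
    NormEquiv K L ⊤ (𝔞 * 𝔮 ^ b) ⊤ := by
  rcases le_total a b with hle | hle
  · obtain ⟨k, hk⟩ := (Nat.modEq_iff_dvd' hle).mp hab
    have hb : b = a + Module.finrank K L * k := by omega
    have h2 : NormEquiv K L ⊤ ((𝔮 ^ k) ^ Module.finrank K L) ⊤ :=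
      h20_ne_pow_finrank (pow_ne_zero k h𝔮)
    have h3 := h20_ne_mul_top h h2
    have e : 𝔞 * 𝔮 ^ a * (𝔮 ^ k) ^ Module.finrank K L = 𝔞 * 𝔮 ^ b := by
      rw [hb, pow_add, pow_mul, ← pow_mul, ← pow_mul, mul_comm k, mul_assoc]
    rwa [e] at h3
  · obtain ⟨k, hk⟩ := (Nat.modEq_iff_dvd' hle).mp hab.symm
    have ha : a = b + Module.finrank K L * k := by omega
    have h2 : NormEquiv K L ⊤ ((𝔮 ^ k) ^ Module.finrank K L) ⊤ :=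
      h20_ne_pow_finrank (pow_ne_zero k h𝔮)
    have e : 𝔞 * 𝔮 ^ b * (𝔮 ^ k) ^ Module.finrank K L = 𝔞 * 𝔮 ^ a := by
      rw [ha, pow_add, pow_mul, ← pow_mul, ← pow_mul, mul_comm k, mul_assoc]
    rw [← e] at h
    exact h20_ne_cancel h h2

end NE

section Group

variable {G : Type*} [Group G]

theorem h20_orderOf_eq {p : ℕ} (hp : p.Prime) (hcard : Nat.card G = p) {σ : G} (hσ : σ ≠ 1) :
    orderOf σ = p := by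
  have hdvd : orderOf σ ∣ p := hcard ▸ orderOf_dvd_natCard σ
  rcases (Nat.dvd_prime hp).mp hdvd with h | h
  · exact absurd (orderOf_eq_one_iff.mp h) hσ
  · exact h

theorem h20_exists_pow {p : ℕ} (hp : p.Prime) (hcard : Nat.card G = p) {σ : G} (hσ : σ ≠ 1)
    (g : G) : ∃ e : ℕ, g * σ ^ e = 1 := by
  have : Fact p.Prime := ⟨hp⟩
  have : Finite G := Nat.finite_of_card_ne_zero (hcard ▸ hp.ne_zero)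
  have htop : Subgroup.zpowers σ = ⊤ := zpowers_eq_top_of_prime_card hcard hσ
  have hmem : g⁻¹ ∈ Subgroup.zpowers σ := htop ▸ Subgroup.mem_top _
  rw [← mem_powers_iff_mem_zpowers] at hmem
  obtain ⟨e, he⟩ := hmem
  exact ⟨e, by simp only at he; rw [he, mul_inv_cancel]⟩

theorem h20_dvd_of_pow_eq_one {p : ℕ} (hp : p.Prime) (hcard : Nat.card G = p) {σ : G}
    (hσ : σ ≠ 1) {n : ℕ} (h : σ ^ n = 1) : p ∣ n := by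
  rw [← h20_orderOf_eq hp hcard hσ]
  exact orderOf_dvd_of_pow_eq_one h

theorem h20_modEq_of_pow_eq {p : ℕ} (hp : p.Prime) (hcard : Nat.card G = p) {σ : G}
    (hσ : σ ≠ 1) {a b : ℕ} (h : σ ^ a = σ ^ b) : a ≡ b [MOD p] := by
  rw [← h20_orderOf_eq hp hcard hσ]
  exact pow_eq_pow_iff_modEq.mp h

end Group

section Artin

variable {K L : Type} [Field K] [NumberField K] [Field L] [NumberField L] [Algebra K L]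

omit [NumberField K] [NumberField L] in
theorem h20_artin_mul {Φ : Ideal (𝓞 K) → (L ≃ₐ[K] L)} (hΦ : IsArtinMap K L ⊤ Φ)
    {𝔞 𝔟 : Ideal (𝓞 K)} (h𝔞 : 𝔞 ≠ ⊥) (h𝔟 : 𝔟 ≠ ⊥) : Φ (𝔞 * 𝔟) = Φ 𝔞 * Φ 𝔟 :=
  hΦ.map_mul 𝔞 𝔟 h𝔞 h𝔟 (sup_top_eq _) (sup_top_eq _)

omit [NumberField K] [NumberField L] in
theorem h20_artin_pow {Φ : Ideal (𝓞 K) → (L ≃ₐ[K] L)} (hΦ : IsArtinMap K L ⊤ Φ)
    {𝔞 : Ideal (𝓞 K)} (h𝔞 : 𝔞 ≠ ⊥) (n : ℕ) : Φ (𝔞 ^ n) = Φ 𝔞 ^ n := by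
  induction n with
  | zero => rw [pow_zero, pow_zero, Ideal.one_eq_top]; exact hΦ.map_one
  | succ n ih => rw [pow_succ, pow_succ, h20_artin_mul hΦ (pow_ne_zero n h𝔞) h𝔞, ih]

/-- **The algebraic descent** (leaf D2), for a single extension. -/
theorem h20_descent {p : ℕ} (hp : p.Prime) [IsGalois K L]
    (hdeg : Module.finrank K L = p) (Φ : Ideal (𝓞 K) → (L ≃ₐ[K] L))
    (hΦ : IsArtinMap K L ⊤ Φ)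
    (hkey : ∀ 𝔭₁ 𝔭₂ : Ideal (𝓞 K), 𝔭₁.IsPrime → 𝔭₁ ≠ ⊥ → 𝔭₂.IsPrime → 𝔭₂ ≠ ⊥ →
        ∃ 𝔟 : Ideal (𝓞 K), 𝔟 ≠ ⊥ ∧ Φ 𝔟 ≠ 1 ∧
          ∀ c : ℕ, (Φ (𝔭₁ * 𝔟 ^ c) = 1 → NormEquiv K L ⊤ (𝔭₁ * 𝔟 ^ c) ⊤) ∧
            (Φ (𝔭₂ * 𝔟 ^ c) = 1 → NormEquiv K L ⊤ (𝔭₂ * 𝔟 ^ c) ⊤))
    (𝔞 : Ideal (𝓞 K)) (h𝔞 : 𝔞 ≠ ⊥) (h1 : Φ 𝔞 = 1) : NormEquiv K L ⊤ 𝔞 ⊤ := by
  have hcard : Nat.card (L ≃ₐ[K] L) = p := (IsGalois.card_aut_eq_finrank K L).trans hdeg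
  by_cases hex : ∃ 𝔮₀ : Ideal (𝓞 K), 𝔮₀.IsPrime ∧ 𝔮₀ ≠ ⊥ ∧ Φ 𝔮₀ ≠ 1
  · obtain ⟨𝔮₀, h𝔮₀p, h𝔮₀, hσ₀⟩ := hex
    -- primes
    have hP : ∀ 𝔭 : Ideal (𝓞 K), 𝔭.IsPrime → 𝔭 ≠ ⊥ → ∀ e : ℕ, Φ 𝔭 * Φ 𝔮₀ ^ e = 1 →
        NormEquiv K L ⊤ (𝔭 * 𝔮₀ ^ e) ⊤ := by
      intro 𝔭 h𝔭p h𝔭 e he
      obtain ⟨𝔟, h𝔟, hβ, hb⟩ := hkey 𝔭 𝔮₀ h𝔭p h𝔭 h𝔮₀p h𝔮₀
      obtain ⟨c₀, hc₀⟩ := h20_exists_pow hp hcard hβ (Φ 𝔮₀)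
      obtain ⟨c, hc⟩ := h20_exists_pow hp hcard hβ (Φ 𝔭)
      have hA : NormEquiv K L ⊤ (𝔮₀ * 𝔟 ^ c₀) ⊤ := by
        apply (hb c₀).2
        rw [h20_artin_mul hΦ h𝔮₀ (pow_ne_zero _ h𝔟), h20_artin_pow hΦ h𝔟, hc₀]
      have hB : NormEquiv K L ⊤ (𝔭 * 𝔟 ^ c) ⊤ := by
        apply (hb c).1
        rw [h20_artin_mul hΦ h𝔭 (pow_ne_zero _ h𝔟), h20_artin_pow hΦ h𝔟, hc]
      have hAB := h20_ne_mul_top hB (h20_ne_pow_top hA e)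
      have e1 : 𝔭 * 𝔟 ^ c * (𝔮₀ * 𝔟 ^ c₀) ^ e = 𝔭 * 𝔮₀ ^ e * 𝔟 ^ (c + c₀ * e) := by
        rw [mul_pow, ← pow_mul, pow_add]
        ring
      rw [e1] at hAB
      -- `p ∣ c + c₀ e`
      have hpow : Φ 𝔟 ^ (c + c₀ * e) = 1 := by
        have h1 : Φ 𝔟 ^ c = (Φ 𝔭)⁻¹ := (inv_eq_of_mul_eq_one_right hc).symm
        have h2 : Φ 𝔟 ^ c₀ = (Φ 𝔮₀)⁻¹ := (inv_eq_of_mul_eq_one_right hc₀).symm
        rw [pow_add, pow_mul, h1, h2, inv_pow, ← mul_inv_rev, inv_eq_one]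
        exact mul_eq_one_comm.mp he
      obtain ⟨k, hk⟩ := h20_dvd_of_pow_eq_one hp hcard hβ hpow
      have h3 : NormEquiv K L ⊤ (𝔟 ^ (c + c₀ * e)) ⊤ := by
        rw [hk, mul_comm, pow_mul, ← hdeg]
        exact h20_ne_pow_finrank (pow_ne_zero k h𝔟)
      exact h20_ne_cancel hAB h3
    -- all ideals
    have hall : ∀ 𝔞 : Ideal (𝓞 K), 𝔞 ≠ ⊥ → ∀ e : ℕ, Φ 𝔞 * Φ 𝔮₀ ^ e = 1 →
        NormEquiv K L ⊤ (𝔞 * 𝔮₀ ^ e) ⊤ := by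
      intro 𝔞
      induction 𝔞 using UniqueFactorizationMonoid.induction_on_prime with
      | h₁ => intro h; exact absurd Ideal.zero_eq_bot h
      | h₂ x hx =>
        intro _ e he
        rw [Ideal.isUnit_iff] at hx
        subst hx
        rw [hΦ.map_one, one_mul] at he
        have hmod : 0 ≡ e [MOD Module.finrank K L] := by
          rw [hdeg]
          exact h20_modEq_of_pow_eq hp hcard hσ₀ (by rw [pow_zero, he])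
        apply h20_ne_pow_congr h𝔮₀ hmod
        rw [pow_zero, Ideal.one_eq_top, Ideal.mul_top]
        exact h20_ne_refl _
      | h₃ 𝔞 𝔭 h𝔞0 h𝔭 ih =>
        intro _ e he
        have h𝔞 : 𝔞 ≠ ⊥ := h𝔞0
        have h𝔭0 : 𝔭 ≠ ⊥ := h𝔭.ne_zero
        have h𝔭p : 𝔭.IsPrime := Ideal.isPrime_of_prime h𝔭
        obtain ⟨e₁, he₁⟩ := h20_exists_pow hp hcard hσ₀ (Φ 𝔭)
        obtain ⟨e₂, he₂⟩ := h20_exists_pow hp hcard hσ₀ (Φ 𝔞)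
        have h1 := hP 𝔭 h𝔭p h𝔭0 e₁ he₁
        have h2 := ih h𝔞 e₂ he₂
        have h3 := h20_ne_mul_top h1 h2
        have e1 : 𝔭 * 𝔮₀ ^ e₁ * (𝔞 * 𝔮₀ ^ e₂) = 𝔭 * 𝔞 * 𝔮₀ ^ (e₁ + e₂) := by
          rw [pow_add]; ring
        rw [e1] at h3
        have hmod : e₁ + e₂ ≡ e [MOD Module.finrank K L] := by
          rw [hdeg]
          apply h20_modEq_of_pow_eq hp hcard hσ₀
          have h4 : Φ 𝔮₀ ^ e₁ = (Φ 𝔭)⁻¹ := (inv_eq_of_mul_eq_one_right he₁).symm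
          have h5 : Φ 𝔮₀ ^ e₂ = (Φ 𝔞)⁻¹ := (inv_eq_of_mul_eq_one_right he₂).symm
          have h6 : Φ 𝔮₀ ^ e = (Φ (𝔭 * 𝔞))⁻¹ := (inv_eq_of_mul_eq_one_right he).symm
          rw [h6, h20_artin_mul hΦ h𝔭0 h𝔞, mul_inv_rev, ← h4, ← h5, ← pow_add, add_comm]
        exact h20_ne_pow_congr h𝔮₀ hmod h3
    have := hall 𝔞 h𝔞 0 (by rw [pow_zero, mul_one, h1])
    rwa [pow_zero, Ideal.one_eq_top, Ideal.mul_top] at this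
  · -- all primes have trivial symbol
    have hP : ∀ 𝔭 : Ideal (𝓞 K), 𝔭.IsPrime → 𝔭 ≠ ⊥ → NormEquiv K L ⊤ 𝔭 ⊤ := by
      intro 𝔭 h𝔭p h𝔭
      have hΦ𝔭 : Φ 𝔭 = 1 := by
        by_contra h
        exact hex ⟨𝔭, h𝔭p, h𝔭, h⟩
      obtain ⟨𝔟, -, -, hb⟩ := hkey 𝔭 𝔭 h𝔭p h𝔭 h𝔭p h𝔭
      have := (hb 0).1 (by rw [pow_zero, Ideal.one_eq_top, Ideal.mul_top, hΦ𝔭])
      rwa [pow_zero, Ideal.one_eq_top, Ideal.mul_top] at this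
    have hall : ∀ 𝔞 : Ideal (𝓞 K), 𝔞 ≠ ⊥ → NormEquiv K L ⊤ 𝔞 ⊤ := by
      intro 𝔞
      induction 𝔞 using UniqueFactorizationMonoid.induction_on_prime with
      | h₁ => intro h; exact absurd Ideal.zero_eq_bot h
      | h₂ x hx =>
        intro _
        rw [Ideal.isUnit_iff] at hx
        subst hx
        exact h20_ne_refl _
      | h₃ 𝔞 𝔭 h𝔞0 h𝔭 ih =>
        intro _
        exact h20_ne_mul_top (hP 𝔭 (Ideal.isPrime_of_prime h𝔭) h𝔭.ne_zero) (ih h𝔞0)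
    exact hall 𝔞 h𝔞

end Artin

/-- **Leaf D2**: the key statement implies `ker Φ ≤ P_K N(I_L)`. -/
theorem stDesc (p : ℕ) [Fact p.Prime] : StDesc p := by
  intro hkey hp3 K L _ _ _ _ _ _ _ _ hdeg hur htw Φ hΦ 𝔞 h𝔞 h1
  exact h20_descent (Fact.out : p.Prime) hdeg Φ hΦ
    (fun 𝔭₁ 𝔭₂ h1p h1 h2p h2 => hkey hp3 K L hdeg hur htw Φ hΦ 𝔭₁ 𝔭₂ h1p h1 h2p h2) 𝔞 h𝔞 h1

/-- **Assembly of (R)**, primed form: `StKerLe' p → StLw → StR' p`. -/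
theorem stRAsm' (p : ℕ) [Fact p.Prime] : StRAsm' p := by
  intro hker hLw hp3 K L _ _ _ _ _ _ _ _ hdeg hur htw Φ hΦ β hβ
  have hp : p.Prime := Fact.out
  have hcard : Nat.card (L ≃ₐ[K] L) = p := (IsGalois.card_aut_eq_finrank K L).trans hdeg
  by_contra hne
  -- `K` is totally complex
  have hK : IsTotallyComplex K := by
    have : NeZero p := ⟨hp.ne_zero⟩
    exact IsCyclotomicExtension.Rat.isTotallyComplex K (by omega : 2 < p)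
  obtain ⟨𝔞, h𝔞, hnot⟩ := hLw K L (hdeg ▸ hp) hK hur
  apply hnot
  have hβ0 : Ideal.span {β} ≠ ⊥ := by
    rw [Ne, Ideal.span_singleton_eq_bot]
    exact hβ
  obtain ⟨k, hk⟩ := h20_exists_pow hp hcard hne (Φ 𝔞)
  have h2 : Φ (𝔞 * Ideal.span {β} ^ k) = 1 := by
    rw [h20_artin_mul hΦ h𝔞 (pow_ne_zero _ hβ0), h20_artin_pow hΦ hβ0, hk]
  have h3 := hker hp3 K L hdeg hur htw Φ hΦ (𝔞 * Ideal.span {β} ^ k)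
    (mul_ne_zero h𝔞 (pow_ne_zero _ hβ0)) h2
  exact h20_ne_cancel h3 (h20_ne_pow_top (h20_ne_span hβ) k)

end Fermat.Agent.S14x.AL
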