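import Mathlib

/-!
# S14 / package AL (helper20): the abstract descent and the assembly of reciprocity (R)

Abstract setting: `I` = group of (fractional) ideals of `K` (prime to a finite set), `G = Gal(L/K)`
of prime order `p`, `Φ : I →* G` the Artin map, `PN ≤ I` the subgroup `P_K · N_{L/K}(I_L)`,
`P ≤ PN` the principal ideals.

* `ker_le_of_key` : **descent**.  If `I` is generated by a set of "primes", `a ^ p ∈ PN` for all
  `a`, and for any two primes `𝔭, 𝔮` there is `b` with `Φ b = σ` (a fixed generator) and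
  `𝔭 ≡ b ^ d(𝔭)`, `𝔮 ≡ b ^ d(𝔮)` modulo `PN` (this is what Artin's lemma + the cyclotomic case
  give, `b` = norm of an ideal of the compositum `E_𝔭 E_𝔮`), then `ker Φ ≤ PN`.
* `le_ker_of_ne_top` : **assembly**.  If moreover `PN ≠ ⊤` (first inequality, in the weak form
  sufficient for prime degree), then `PN ≤ ker Φ`; in particular `Φ` kills the principal ideals.
-/

set_option autoImplicit false

namespace Fermat.Agent.S14x.AL

variable {I G : Type*} [CommGroup I] [CommGroup G]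

/-- In a group generated by `σ` with `σ ^ p = 1`, `p` prime, every `g ≠ 1` generates. -/
theorem exists_zpow_eq_of_ne_one {p : ℕ} (hp : p.Prime) {σ : G}
    (hσ : ∀ g : G, g ∈ Subgroup.zpowers σ) (hσp : σ ^ p = 1) {g : G} (hg : g ≠ 1) (h : G) :
    ∃ k : ℤ, g ^ k = h := by
  obtain ⟨a, ha⟩ := Subgroup.mem_zpowers_iff.mp (hσ g)
  obtain ⟨b, hb⟩ := Subgroup.mem_zpowers_iff.mp (hσ h)
  have hpa : ¬ (p : ℤ) ∣ a := by
    rintro ⟨c, rfl⟩
    apply hg
    rw [← ha, zpow_mul, zpow_natCast, hσp, one_zpow]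
  have hcop : IsCoprime a (p : ℤ) :=
    ((Nat.prime_iff_prime_int.mp hp).coprime_iff_not_dvd.mpr hpa).symm
  obtain ⟨u, v, huv⟩ := hcop
  -- u * a + v * p = 1
  refine ⟨u * b, ?_⟩
  have h1 : σ ^ (u * a) = σ := by
    have : u * a = 1 - v * p := by linarith
    have h2 : σ ^ (v * (p : ℤ)) = 1 := by
      rw [mul_comm, zpow_mul, zpow_natCast, hσp, one_zpow]
    rw [this, zpow_sub, zpow_one, h2, inv_one, mul_one]
  rw [← ha, ← zpow_mul, show a * (u * b) = (u * a) * b by ring, zpow_mul, h1, hb]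

/-- **Abstract descent.** -/
theorem ker_le_of_key {p : ℕ} (hp : p.Prime) (Φ : I →* G) (PN : Subgroup I) (σ : G)
    (hσ : ∀ g : G, g ∈ Subgroup.zpowers σ) (hσp : σ ^ p = 1)
    (primes : Set I) (hgen : Subgroup.closure primes = ⊤)
    (hpow : ∀ a : I, a ^ p ∈ PN)
    (hkey : ∀ 𝔭 ∈ primes, ∀ 𝔮 ∈ primes, ∃ b : I, Φ b = σ ∧
      (∀ d : ℤ, Φ 𝔭 = σ ^ d → 𝔭 * (b ^ d)⁻¹ ∈ PN) ∧
      (∀ d : ℤ, Φ 𝔮 = σ ^ d → 𝔮 * (b ^ d)⁻¹ ∈ PN)) :
    Φ.ker ≤ PN := by
  classical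
  -- the quotient map
  let ψ : I →* I ⧸ PN := QuotientGroup.mk' PN
  have hψker : ∀ a : I, ψ a = 1 ↔ a ∈ PN := fun a => QuotientGroup.eq_one_iff a
  have hψpow : ∀ x : I ⧸ PN, x ^ p = 1 := by
    intro x
    obtain ⟨a, rfl⟩ := QuotientGroup.mk'_surjective PN x
    rw [← map_pow]
    exact (hψker _).mpr (hpow a)
  have hψzpow : ∀ (x : I ⧸ PN) (d e : ℤ), (p : ℤ) ∣ d - e → x ^ d = x ^ e := by
    intro x d e ⟨c, hc⟩
    have : d = e + p * c := by linarith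
    rw [this, zpow_add, zpow_mul, zpow_natCast, hψpow, one_zpow, mul_one]
  have hσzpow : ∀ d e : ℤ, σ ^ d = σ ^ e → σ ≠ 1 → (p : ℤ) ∣ d - e := by
    intro d e hde hσ1
    have h1 : σ ^ (d - e) = 1 := by rw [zpow_sub, hde, mul_inv_cancel]
    have hord : orderOf σ = p := by
      have hdvd : orderOf σ ∣ p := orderOf_dvd_of_pow_eq_one hσp
      rcases (Nat.dvd_prime hp).mp hdvd with h | h
      · exact absurd (orderOf_eq_one_iff.mp h) hσ1
      · exact h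
    have := orderOf_dvd_iff_zpow_eq_one.mpr h1
    rwa [hord] at this
  intro a ha
  rw [MonoidHom.mem_ker] at ha
  rw [← hψker]
  by_cases hσ1 : σ = 1
  · -- trivial group `G`: every prime is in `PN`
    have hall : ∀ 𝔭 ∈ primes, 𝔭 ∈ PN := by
      intro 𝔭 h𝔭
      obtain ⟨b, -, h1, -⟩ := hkey 𝔭 h𝔭 𝔭 h𝔭
      have h𝔭1 : Φ 𝔭 = σ ^ (0 : ℤ) := by
        obtain ⟨k, hk⟩ := Subgroup.mem_zpowers_iff.mp (hσ (Φ 𝔭))
        rw [← hk, hσ1, one_zpow, one_zpow]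
      simpa using h1 0 h𝔭1
    have htop : PN = ⊤ := by
      rw [eq_top_iff, ← hgen, Subgroup.closure_le]
      exact hall
    rw [hψker, htop]
    exact Subgroup.mem_top a
  by_cases hex : ∃ 𝔮 ∈ primes, Φ 𝔮 ≠ 1
  · obtain ⟨𝔮₀, h𝔮₀, h𝔮₀1⟩ := hex
    obtain ⟨d₀, hd₀⟩ := Subgroup.mem_zpowers_iff.mp (hσ (Φ 𝔮₀))
    obtain ⟨b₀, hb₀, hb₀𝔮, -⟩ := hkey 𝔮₀ h𝔮₀ 𝔮₀ h𝔮₀
    have hpd₀ : ¬ (p : ℤ) ∣ d₀ := by
      rintro ⟨c, rfl⟩
      apply h𝔮₀1
      rw [← hd₀, zpow_mul, zpow_natCast, hσp, one_zpow]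
    -- every `x` with `Φ x = σ ^ d` satisfies `ψ x = ψ b₀ ^ d`, first for primes
    have hprime : ∀ 𝔭 ∈ primes, ∀ d : ℤ, Φ 𝔭 = σ ^ d → ψ 𝔭 = ψ b₀ ^ d := by
      intro 𝔭 h𝔭 d hd
      obtain ⟨b, hb, hb𝔭, hb𝔮⟩ := hkey 𝔭 h𝔭 𝔮₀ h𝔮₀
      have e1 : ψ 𝔭 = ψ b ^ d := by
        have := (hψker _).mpr (hb𝔭 d hd)
        rw [map_mul, map_inv, map_zpow, mul_inv_eq_one] at this
        exact this
      have e2 : ψ 𝔮₀ = ψ b ^ d₀ := by
        have := (hψker _).mpr (hb𝔮 d₀ hd₀.symm)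
        rw [map_mul, map_inv, map_zpow, mul_inv_eq_one] at this
        exact this
      have e3 : ψ 𝔮₀ = ψ b₀ ^ d₀ := by
        have := (hψker _).mpr (hb₀𝔮 d₀ hd₀.symm)
        rw [map_mul, map_inv, map_zpow, mul_inv_eq_one] at this
        exact this
      -- `ψ b = ψ b₀` since `p ∤ d₀`
      have hcop : IsCoprime d₀ (p : ℤ) :=
        ((Nat.prime_iff_prime_int.mp hp).coprime_iff_not_dvd.mpr hpd₀).symm
      obtain ⟨u, v, huv⟩ := hcop
      have hbb : ψ b = ψ b₀ := by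
        have hx : ∀ x : I ⧸ PN, x = (x ^ d₀) ^ u := by
          intro x
          rw [← zpow_mul]
          have : (p : ℤ) ∣ 1 - d₀ * u := ⟨v, by linarith⟩
          rw [← hψzpow x 1 (d₀ * u) this, zpow_one]
        rw [hx (ψ b), hx (ψ b₀), ← e2, ← e3]
      rw [e1, hbb]
    -- the set of `x` with the property is a subgroup containing the primes
    let S : Subgroup I :=
      { carrier := {x | ∀ d : ℤ, Φ x = σ ^ d → ψ x = ψ b₀ ^ d}
        one_mem' := by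
          intro d hd
          rw [map_one] at hd ⊢
          have := hσzpow 0 d (by rw [zpow_zero]; exact hd) hσ1
          rw [← hψzpow (ψ b₀) 0 d this, zpow_zero]
        mul_mem' := by
          intro x y hx hy d hd
          obtain ⟨dx, hdx⟩ := Subgroup.mem_zpowers_iff.mp (hσ (Φ x))
          obtain ⟨dy, hdy⟩ := Subgroup.mem_zpowers_iff.mp (hσ (Φ y))
          have h1 : σ ^ (dx + dy) = σ ^ d := by
            rw [zpow_add, hdx, hdy, ← map_mul, hd]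
          rw [map_mul, hx dx hdx.symm, hy dy hdy.symm, ← zpow_add]
          exact hψzpow _ _ _ (hσzpow _ _ h1 hσ1)
        inv_mem' := by
          intro x hx d hd
          obtain ⟨dx, hdx⟩ := Subgroup.mem_zpowers_iff.mp (hσ (Φ x))
          have h1 : σ ^ (-dx) = σ ^ d := by
            rw [zpow_neg, hdx, ← map_inv, hd]
          rw [map_inv, hx dx hdx.symm, ← zpow_neg]
          exact hψzpow _ _ _ (hσzpow _ _ h1 hσ1) }
    have hS : S = ⊤ := by
      rw [eq_top_iff, ← hgen, Subgroup.closure_le]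
      exact fun 𝔭 h𝔭 => hprime 𝔭 h𝔭
    have haS : a ∈ S := hS ▸ Subgroup.mem_top a
    have := haS 0 (by rw [ha, zpow_zero])
    rwa [zpow_zero] at this
  · -- all primes have trivial symbol: all primes are in `PN`
    have hex' : ∀ 𝔮 ∈ primes, Φ 𝔮 = 1 := fun 𝔮 h𝔮 => by
      by_contra h
      exact hex ⟨𝔮, h𝔮, h⟩
    have hall : ∀ 𝔭 ∈ primes, 𝔭 ∈ PN := by
      intro 𝔭 h𝔭
      obtain ⟨b, -, h1, -⟩ := hkey 𝔭 h𝔭 𝔭 h𝔭
      simpa using h1 0 (by rw [hex' 𝔭 h𝔭, zpow_zero])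
    have htop : PN = ⊤ := by
      rw [eq_top_iff, ← hgen, Subgroup.closure_le]
      exact hall
    rw [hψker, htop]
    exact Subgroup.mem_top a

/-- **Assembly of (R), abstract form.**  If `ker Φ ≤ PN ≠ ⊤` and `G` has prime order, then
`PN ≤ ker Φ`. -/
theorem le_ker_of_ne_top {p : ℕ} (hp : p.Prime) (Φ : I →* G)
    (PN : Subgroup I) (σ : G) (hσ : ∀ g : G, g ∈ Subgroup.zpowers σ) (hσp : σ ^ p = 1)
    (hker : Φ.ker ≤ PN) (hne : PN ≠ ⊤) : PN ≤ Φ.ker := by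
  intro x hx
  rw [MonoidHom.mem_ker]
  by_contra hx1
  apply hne
  rw [eq_top_iff]
  intro y _
  obtain ⟨k, hk⟩ := exists_zpow_eq_of_ne_one hp hσ hσp hx1 (Φ y)
  have hmem : y * (x ^ k)⁻¹ ∈ Φ.ker := by
    rw [MonoidHom.mem_ker, map_mul, map_inv, map_zpow, hk, mul_inv_cancel]
  have := PN.mul_mem (hker hmem) (PN.zpow_mem hx k)
  simpa using this

/-- **(R), abstract form**: the Artin map kills the principal ideals. -/
theorem principal_le_ker {p : ℕ} (hp : p.Prime) (Φ : I →* G) (P PN : Subgroup I) (σ : G)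
    (hσ : ∀ g : G, g ∈ Subgroup.zpowers σ) (hσp : σ ^ p = 1)
    (hP : P ≤ PN) (hker : Φ.ker ≤ PN) (hne : PN ≠ ⊤) : P ≤ Φ.ker := by
  intro x hx
  rw [MonoidHom.mem_ker]
  by_contra hx1
  apply hne
  rw [eq_top_iff]
  intro y _
  obtain ⟨k, hk⟩ := exists_zpow_eq_of_ne_one hp hσ hσp hx1 (Φ y)
  have hmem : y * (x ^ k)⁻¹ ∈ Φ.ker := by
    rw [MonoidHom.mem_ker, map_mul, map_inv, map_zpow, hk, mul_inv_cancel]
  have := PN.mul_mem (hker hmem) (PN.zpow_mem (hP hx) k)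
  simpa using this

end Fermat.Agent.S14x.AL
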