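import Fermat.Agent.S14x.AL.H20_Desc
import Fermat.Agent.S14x.AL.H20_Leaves

/-!
# S14 / package AL (helper20): final wiring of (R), the leaves as hypotheses

* `h20_stKey_of`  : `StPair p` + `StStep` ⇒ `StKey p`
* `h20_stAL'_of`  : `StPair p` + `StStep` ⇒ `StAL' p`
* `h20_stR'_of`   : `StPair p` + `StStep` ⇒
  `StArtinExists → StN → StFunct → StCy → StDgen → StLw → StR' p`
-/

set_option autoImplicit false

open NumberField

noncomputable section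

namespace Fermat.Agent.S14x.AL

open Fermat.Agent.S14x.Asm

theorem h20_stKey_of (p : ℕ) [Fact p.Prime] (hPair : StPair p) (hStep : StStep)
    (hA : StArtinExists) (hF : StFunct) (hCy : StCy) (hD : StDgen) : StKey p := by
  intro hp3 K L _ _ _ _ _ _ _ _ hdeg hur htw Φ hΦ 𝔭₁ 𝔭₂ h1p h1 h2p h2
  have hp : p.Prime := Fact.out
  obtain ⟨𝔟, h𝔟, hΦ𝔟, hdd⟩ := hPair hD hp3 K L hdeg hur htw Φ hΦ 𝔭₁ 𝔭₂ h1p h1 h2p h2
  refine ⟨𝔟, h𝔟, hΦ𝔟, fun c => ⟨fun h => ?_, fun h => ?_⟩⟩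
  · have hd := (hdd 1 c).1
    rw [pow_one] at hd
    exact hStep hA hF hCy p K L hp hdeg hur Φ hΦ (𝔭₁ * 𝔟 ^ c)
      (mul_ne_zero h1 (pow_ne_zero c h𝔟)) hd h
  · have hd := (hdd 1 c).2
    rw [pow_one] at hd
    exact hStep hA hF hCy p K L hp hdeg hur Φ hΦ (𝔭₂ * 𝔟 ^ c)
      (mul_ne_zero h2 (pow_ne_zero c h𝔟)) hd h

theorem h20_stAL'_of (p : ℕ) [Fact p.Prime] (hPair : StPair p) (hStep : StStep) : StAL' p :=
  fun hA _ hF hCy hD => stDesc p (h20_stKey_of p hPair hStep hA hF hCy hD)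

theorem h20_stR'_of (p : ℕ) [Fact p.Prime] (hPair : StPair p) (hStep : StStep)
    (hA : StArtinExists) (hN : StN) (hF : StFunct) (hCy : StCy) (hD : StDgen) (hLw : StLw) :
    StR' p :=
  stRAsm' p (h20_stAL'_of p hPair hStep hA hN hF hCy hD) hLw

end Fermat.Agent.S14x.AL
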