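import Fermat.Agent.S14x.AL.H20_Leaves

/-!
# S14 / package AL (helper20): the one-field leaf, specialised to `m' = m`

`StOneField1` is `StOneField` with `m' = m` (so that `C = F = E_H(ζ_m)`); it is the only case
consumed by the assembly `StPairAsm1`.
-/

set_option autoImplicit false

open NumberField

noncomputable section

namespace Fermat.Agent.S14x.AL

open Fermat.Agent.S14x.Asm

/-- **[F3], case `m' = m`**. -/
def StOneField1 : Prop :=
  ∀ (p : ℕ) (K L F : Type) [Field K] [NumberField K] [Field L] [NumberField L] [Field F]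
    [NumberField F] [Algebra K L] [Algebra L F] [Algebra K F] [IsScalarTower K L F]
    [IsGalois K L] [IsGalois K F] (m : ℕ) [NeZero m] [IsCyclotomicExtension {m} L F],
    p.Prime → Module.finrank K L = p → UnramifiedEverywhere K L → IsTotallyComplex K →
    (∀ σ τ : F ≃ₐ[K] F, σ * τ = τ * σ) →
    ∀ H : Subgroup (F ≃ₐ[K] F),
      (∀ g ∈ H, ActsBy K F m g 1 → RestrictsTo K L F g 1) →
      (∀ ρ : L ≃ₐ[K] L, ∃ g ∈ H, RestrictsTo K L F g ρ) →
      ∀ 𝔄 : Ideal (𝓞 ↥(IntermediateField.fixedField H)), 𝔄 ≠ ⊥ →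
        𝔄 ⊔ Ideal.span {(m : 𝓞 ↥(IntermediateField.fixedField H))} = ⊤ →
        DescData K L p (Ideal.relNorm (𝓞 K) 𝔄)

theorem stOneField1_of_stOneField (h : StOneField) : StOneField1 := by
  intro p K L F _ _ _ _ _ _ _ _ _ _ _ _ m _ _ hp hdeg hur hK hcomm H h1 h2 𝔄 h𝔄 hm
  exact h p K L F m m hp hdeg hur hK (dvd_refl m) hcomm H h1 h2 𝔄 h𝔄 hm

/-- **[F7]** assembly of Artin's lemma for pairs from the leaves (with `StOneField1`). -/
def StPairAsm1 (p : ℕ) [Fact p.Prime] : Prop :=
  StProd p → StOneField1 → StDegOne → StDegOne' → StRef → StFrobF → StPair p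

end Fermat.Agent.S14x.AL
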