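import Fermat.Agent.S14x.AL.H14_PairDefs
import Fermat.Agent.S14x.AL.H9_Fields
import Fermat.Agent.S14x.AL.H9_Modulus

/-!
# S14, package AL, leaf [F7a] `StPairDataAsm p` (helper9)

The field-theoretic construction of Artin's lemma for a pair of primes `𝔭₁, 𝔭₂` of `K`:
one modulus `M` (all prime factors `> max p (N𝔭₁) (N𝔭₂)`), `F := CyclotomicField M L`,
`g₀ :=` lift of `(ρ₀, τ)`, `g_i :=` Frobenius over `𝔭_i`, `H_i := closure {g_i, g₀}`.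
-/

set_option autoImplicit false
set_option linter.style.haveILetI false
set_option linter.unusedSectionVars false

open NumberField

noncomputable section

namespace Fermat.Agent.S14x.AL

open Fermat.Agent.S14x.Asm

section Lemmas

variable {K L F : Type} [Field K] [Field L] [Field F] [Algebra K L] [Algebra L F]
  [Algebra K F] [IsScalarTower K L F]

/-- `RestrictsTo` in terms of `AlgEquiv.restrictNormalHom`. -/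
theorem restrictsTo_iff [Normal K L] (g : F ≃ₐ[K] F) (ρ : L ≃ₐ[K] L) :
    RestrictsTo K L F g ρ ↔ AlgEquiv.restrictNormalHom L g = ρ := by
  constructor
  · intro h
    ext x
    apply (algebraMap L F).injective
    rw [← h x]
    exact AlgEquiv.restrictNormal_commutes g L x
  · intro h x
    rw [← h]
    exact (AlgEquiv.restrictNormal_commutes g L x).symm

/-- `ActsBy` in terms of the cyclotomic character. -/
theorem autToPow_eq_of_actsBy {M : ℕ} [NeZero M] {ζ : F} (hζ : IsPrimitiveRoot ζ M)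
    (g : F ≃ₐ[K] F) (t : ℕ) (h : ActsBy K F M g t) :
    ((hζ.autToPow K g : (ZMod M)ˣ) : ZMod M) = (t : ZMod M) := by
  have hspec := hζ.autToPow_spec K g
  have hord : orderOf ζ = M := hζ.eq_orderOf.symm
  rw [h ζ hζ.pow_eq_one] at hspec
  have h1 : ζ ^ ((hζ.autToPow K g : ZMod M)).val = ζ ^ (t % M) := by
    rw [hspec]
    conv_rhs => rw [← hord, pow_mod_orderOf]
  have h2 := hζ.pow_inj (ZMod.val_lt _) (Nat.mod_lt t (NeZero.pos M)) h1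
  rw [← ZMod.natCast_zmod_val ((hζ.autToPow K g : (ZMod M)ˣ) : ZMod M), h2, ZMod.natCast_mod]

theorem autToPow_eq_unit_of_actsBy {M : ℕ} [NeZero M] {ζ : F} (hζ : IsPrimitiveRoot ζ M)
    (g : F ≃ₐ[K] F) (t : ℕ) (h : ActsBy K F M g t) (u : (ZMod M)ˣ)
    (hu : (u : ZMod M) = (t : ZMod M)) : hζ.autToPow K g = u :=
  Units.ext ((autToPow_eq_of_actsBy hζ g t h).trans hu.symm)

end Lemmas

section Norm

variable {K : Type} [Field K] [NumberField K]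

theorem two_le_card_quot (𝔭 : Ideal (𝓞 K)) (h𝔭 : 𝔭.IsPrime) (h0 : 𝔭 ≠ ⊥) :
    2 ≤ Nat.card (𝓞 K ⧸ 𝔭) := by
  have h1 : Nat.card (𝓞 K ⧸ 𝔭) = Ideal.absNorm 𝔭 := by
    rw [Ideal.absNorm_apply, Submodule.cardQuot_apply]
  rw [h1]
  have hne0 : Ideal.absNorm 𝔭 ≠ 0 := by
    rw [Ne, Ideal.absNorm_eq_zero_iff]
    exact h0
  have hne1 : Ideal.absNorm 𝔭 ≠ 1 := by
    rw [Ne, Ideal.absNorm_eq_one_iff]
    exact h𝔭.ne_top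
  omega

/-- If all prime factors of `M` exceed `N𝔭`, then `M ∉ 𝔭`. -/
theorem natCast_not_mem_of_prime_factors (𝔭 : Ideal (𝓞 K)) (h𝔭 : 𝔭.IsPrime) (h0 : 𝔭 ≠ ⊥)
    (M : ℕ) (hM : ∀ l : ℕ, l.Prime → l ∣ M → Nat.card (𝓞 K ⧸ 𝔭) < l) :
    (M : 𝓞 K) ∉ 𝔭 := by
  intro hmem
  have h1 : Nat.card (𝓞 K ⧸ 𝔭) = Ideal.absNorm 𝔭 := by
    rw [Ideal.absNorm_apply, Submodule.cardQuot_apply]
  have h2 := two_le_card_quot 𝔭 h𝔭 h0
  have hcop : Nat.Coprime (Ideal.absNorm 𝔭) M := by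
    rw [Nat.coprime_iff_gcd_eq_one]
    by_contra hne
    obtain ⟨l, hl, hdvd⟩ := Nat.exists_prime_and_dvd hne
    have hl1 : l ∣ Ideal.absNorm 𝔭 := hdvd.trans (Nat.gcd_dvd_left _ _)
    have hl2 : l ∣ M := hdvd.trans (Nat.gcd_dvd_right _ _)
    have h3 := hM l hl hl2
    have h4 : l ≤ Ideal.absNorm 𝔭 := Nat.le_of_dvd (by omega) hl1
    omega
  have hN : ((Ideal.absNorm 𝔭 : ℕ) : 𝓞 K) ∈ 𝔭 := Ideal.absNorm_mem 𝔭
  -- Bezout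
  have hb := Nat.gcd_eq_gcd_ab (Ideal.absNorm 𝔭) M
  rw [hcop.gcd_eq_one] at hb
  have h1mem : (1 : 𝓞 K) ∈ 𝔭 := by
    have : ((1 : ℤ) : 𝓞 K) = ((Ideal.absNorm 𝔭 : ℕ) : 𝓞 K) * ((Nat.gcdA (Ideal.absNorm 𝔭) M : ℤ) : 𝓞 K)
        + (M : 𝓞 K) * ((Nat.gcdB (Ideal.absNorm 𝔭) M : ℤ) : 𝓞 K) := by
      have := congrArg (fun z : ℤ => (z : 𝓞 K)) hb
      simpa using this
    rw [Int.cast_one] at this
    rw [this]
    exact 𝔭.add_mem (𝔭.mul_mem_right _ hN) (𝔭.mul_mem_right _ hmem)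
  exact h𝔭.ne_top ((Ideal.eq_top_iff_one 𝔭).mpr h1mem)

end Norm

section Data

variable {K L F : Type} [Field K] [NumberField K] [Field L] [NumberField L] [Field F]
  [NumberField F] [Algebra K L] [Algebra L F] [Algebra K F] [IsScalarTower K L F]
  [IsGalois K L] [IsGalois K F]

/-- `PrimeData` for `H := closure {g, g₀}`, `g` a Frobenius over `𝔭` with character `N𝔭`,
`g₀` a lift of `(ρ₀, τ)`, `ρ₀ ≠ 1`, `τ` independent of `N𝔭` modulo `p`. -/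
theorem primeData_closure {p : ℕ} (hp : p.Prime) (hdeg : Module.finrank K L = p)
    (M : ℕ) [NeZero M] [IsCyclotomicExtension {M} L F]
    (𝔭 : Ideal (𝓞 K)) (hM𝔭 : (M : 𝓞 K) ∉ 𝔭)
    (u τ : (ZMod M)ˣ) (hu : (u : ZMod M) = ((Nat.card (𝓞 K ⧸ 𝔭) : ℕ) : ZMod M))
    (hind : ∀ x y : ℤ, u ^ x * τ ^ y = 1 → (p : ℤ) ∣ x ∧ (p : ℤ) ∣ y)
    (ρ₀ : L ≃ₐ[K] L) (hρ₀ : ρ₀ ≠ 1) (g₀ : F ≃ₐ[K] F) (hg₀ : RestrictsTo K L F g₀ ρ₀)
    (hg₀' : ActsBy K F M g₀ (τ : ZMod M).val)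
    (P : Ideal (𝓞 F)) (g : F ≃ₐ[K] F) (hP : P.IsPrime) (hP0 : P ≠ ⊥)
    (hP𝔭 : P.under (𝓞 K) = 𝔭) (hfrob : IsArithFrobAt (𝓞 K) g P)
    (hg' : ActsBy K F M g (Nat.card (𝓞 K ⧸ 𝔭))) :
    PrimeData K L F M 𝔭 (Subgroup.closure ({g, g₀} : Set (F ≃ₐ[K] F))) ∧
      ∀ ρ : L ≃ₐ[K] L, ∃ k : ℤ, RestrictsTo K L F (g₀ ^ k) ρ := by
  obtain ⟨ζ, hζ⟩ := IsCyclotomicExtension.exists_isPrimitiveRoot L F (S := {M}) rfl (NeZero.ne M)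
  obtain ⟨hC, hpow⟩ := h9_gal_prime (K := K) (L := L) hp hdeg
  have hcard : Nat.card (L ≃ₐ[K] L) = p := by rw [IsGalois.card_aut_eq_finrank, hdeg]
  haveI : Fact p.Prime := ⟨hp⟩
  have hr₂g : hζ.autToPow K g = u := autToPow_eq_unit_of_actsBy hζ g _ hg' u hu
  have hr₂g₀ : hζ.autToPow K g₀ = τ :=
    autToPow_eq_unit_of_actsBy hζ g₀ _ hg₀' τ (ZMod.natCast_zmod_val _).symm
  have key := (artin_subgroup_hom' hC (AlgEquiv.restrictNormalHom L) (hζ.autToPow K)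
    (fun h h1 h2 => h9_jointly_injective hζ h h1 h2) p g g₀ (hpow _) (hpow _)
    (by rw [hr₂g, hr₂g₀]; exact hind)).2.1
  -- (ii)
  have hii : ∀ ρ : L ≃ₐ[K] L, ∃ k : ℤ, RestrictsTo K L F (g₀ ^ k) ρ := by
    intro ρ
    have hmem : ρ ∈ Subgroup.zpowers ρ₀ := mem_zpowers_of_prime_card hcard hρ₀
    obtain ⟨k, hk⟩ := Subgroup.mem_zpowers_iff.mp hmem
    refine ⟨k, ?_⟩
    rw [restrictsTo_iff, map_zpow, (restrictsTo_iff g₀ ρ₀).mp hg₀, hk]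
  refine ⟨⟨hM𝔭, ?_, ?_, P, g, hP, hP0, hP𝔭, Subgroup.subset_closure (by simp), hfrob⟩, hii⟩
  · -- (i)
    intro h hh hact
    have h1 : hζ.autToPow K h = 1 :=
      autToPow_eq_unit_of_actsBy hζ h 1 hact 1 (by simp)
    have hmem : h ∈ Subgroup.closure ({g, g₀} : Set (F ≃ₐ[K] F)) ⊓ (hζ.autToPow K).ker :=
      ⟨hh, MonoidHom.mem_ker.mpr h1⟩
    rw [key, Subgroup.mem_bot] at hmem
    rw [hmem, restrictsTo_iff, map_one]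
  · intro ρ
    obtain ⟨k, hk⟩ := hii ρ
    exact ⟨g₀ ^ k, Subgroup.zpow_mem _ (Subgroup.subset_closure (by simp)) k, hk⟩

end Data

theorem stPairDataAsm (p : ℕ) [Fact p.Prime] : StPairDataAsm p := by
  intro hProd hFrob hp3 K L _ _ _ _ _ _ _ _ hdeg hunr htw Φ hΦ 𝔭₁ 𝔭₂ h𝔭₁ h𝔭₁0 h𝔭₂ h𝔭₂0
  have hp : p.Prime := Fact.out
  have ha₁ := two_le_card_quot 𝔭₁ h𝔭₁ h𝔭₁0
  have ha₂ := two_le_card_quot 𝔭₂ h𝔭₂ h𝔭₂0
  obtain ⟨M, u₁, u₂, τ, hM1, hMfac, hu₁, hu₂, hind₁, hind₂⟩ :=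
    exists_modulus_independent_pair (Nat.card (𝓞 K ⧸ 𝔭₁)) (Nat.card (𝓞 K ⧸ 𝔭₂)) p
      (max p (max (Nat.card (𝓞 K ⧸ 𝔭₁)) (Nat.card (𝓞 K ⧸ 𝔭₂)))) ha₁ ha₂ hp
  haveI : NeZero M := ⟨by omega⟩
  have hMp : M.Coprime p := by
    rw [Nat.coprime_comm, Nat.Prime.coprime_iff_not_dvd hp]
    intro hdvd
    have := hMfac p hp hdvd
    exact absurd (le_max_left p _) (not_le.mpr this)
  have hM𝔭₁ : (M : 𝓞 K) ∉ 𝔭₁ := natCast_not_mem_of_prime_factors 𝔭₁ h𝔭₁ h𝔭₁0 M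
    (fun l hl hdvd => lt_of_le_of_lt ((le_max_left _ _).trans (le_max_right _ _))
      (hMfac l hl hdvd))
  have hM𝔭₂ : (M : 𝓞 K) ∉ 𝔭₂ := natCast_not_mem_of_prime_factors 𝔭₂ h𝔭₂ h𝔭₂0 M
    (fun l hl hdvd => lt_of_le_of_lt ((le_max_right _ _).trans (le_max_right _ _))
      (hMfac l hl hdvd))
  obtain ⟨hGal, hcomm, hlift⟩ := hProd hp3 hp K L (CyclotomicField M L) M hdeg htw hMp
  haveI := hGal
  -- a generator `ρ₀` of `Gal(L/K)`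
  have hcard : Nat.card (L ≃ₐ[K] L) = p := by rw [IsGalois.card_aut_eq_finrank, hdeg]
  haveI : Nontrivial (L ≃ₐ[K] L) := by
    rw [← Finite.one_lt_card_iff_nontrivial, hcard]
    exact hp.one_lt
  obtain ⟨ρ₀, hρ₀⟩ := exists_ne (1 : L ≃ₐ[K] L)
  obtain ⟨g₀, hg₀, hg₀'⟩ := hlift ρ₀ (τ : ZMod M).val (ZMod.val_coe_unit_coprime τ)
  obtain ⟨P₁, g₁, hP₁, hP₁0, hP₁𝔭, hfrob₁, -, hact₁⟩ :=
    hFrob K L (CyclotomicField M L) M hunr Φ hΦ 𝔭₁ h𝔭₁ h𝔭₁0 hM𝔭₁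
  obtain ⟨P₂, g₂, hP₂, hP₂0, hP₂𝔭, hfrob₂, -, hact₂⟩ :=
    hFrob K L (CyclotomicField M L) M hunr Φ hΦ 𝔭₂ h𝔭₂ h𝔭₂0 hM𝔭₂
  obtain ⟨hD₁, hii⟩ := primeData_closure hp hdeg M 𝔭₁ hM𝔭₁ u₁ τ hu₁ hind₁ ρ₀ hρ₀ g₀ hg₀ hg₀'
    P₁ g₁ hP₁ hP₁0 hP₁𝔭 hfrob₁ hact₁
  obtain ⟨hD₂, -⟩ := primeData_closure hp hdeg M 𝔭₂ hM𝔭₂ u₂ τ hu₂ hind₂ ρ₀ hρ₀ g₀ hg₀ hg₀'
    P₂ g₂ hP₂ hP₂0 hP₂𝔭 hfrob₂ hact₂
  refine ⟨CyclotomicField M L, inferInstance, inferInstance, inferInstance, inferInstance,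
    inferInstance, hGal, M, inferInstance, inferInstance, hcomm,
    Subgroup.closure {g₁, g₀}, Subgroup.closure {g₂, g₀}, hD₁, hD₂, ?_⟩
  intro ρ
  obtain ⟨k, hk⟩ := hii ρ
  exact ⟨g₀ ^ k, ⟨Subgroup.zpow_mem _ (Subgroup.subset_closure (by simp)) k,
    Subgroup.zpow_mem _ (Subgroup.subset_closure (by simp)) k⟩, hk⟩

end Fermat.Agent.S14x.AL
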